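import Mathlib
import Fermat.Agent.PT.Glob.GIface
import Fermat.Agent.PT.Loc.Iface2

/-!
# W3-PT / PT-GLOB-REC (helper79): the reciprocity law over `ℚ` — frozen definitions and leaves

TARGET (`RecQHasInv`): for a continuous `2`-cocycle `a` of `G_{ℚ,S}` with values in
`μ_p = 𝔽_p(χ)` and local invariants `t q` (`Loc.HasInv p q (recLoc q a) (t q)`, `q ∈ S`):
`∑_{q ∈ S} t q = 0`.  Everything happens over `ℚ` (no ideal theory).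

ROUTE (one auxiliary prime `ℓ ≡ 1 mod p`, `ℓ ∉ S`, no `q ∈ S` a `p`-th power mod `ℓ`;
`Q' = recField ℓ p` = the subfield of degree `p` of `ℚ(ζ_ℓ)`, `K' = Q'(ζ_p) = recFieldZ ℓ p`):
1. `a` is locally trivial at every place of `K'` (`RecUnr`, `RecInert`, `RecLocTriv1`, `RecConj`);
2. `GHasse` for `K'`, then descent `K' ↓ Q'` (`RecKChi`, `RecDescGlob`), then `GMCInfResPer`:
   `ζ^a ∼ gcarry Q' σ p B` on `G_ℚ` with `B ∈ ℚˣ`;
3. at `q ≠ ℓ` the carry cocycle has invariant `v_q(B) · idx_σ(Frob_q)` (`RecLocCarry`);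
4. at `ℓ` the class is trivial, so `B` is a local norm and `B / ℓ^v` is a `p`-th power mod `ℓ`
   (`RecTame`, from `RecEllNorm` + `RecTameLoc`);
5. `∑_{q ≠ ℓ} v_q(B) · idx_σ(Frob_q) = 0` (`RecSum`).

Every `def … : Prop` is a leaf, to be PROVED as a theorem in its own file
`Fermat/Agent/PT/Glob/Rec/<Tag><Name>.lean` (unlanded deps as hypotheses).
-/

set_option autoImplicit false

open scoped Classical

noncomputable section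

namespace Fermat.Agent.PT.Glob

open Fermat.Agent.Bridge ExtCitation

/-! ## Definitions -/

/-- The coherent primitive `p`-th root of unity `Loc.zetaG p`, as a unit of `ℚ̄`. -/
def recZeta (p : ℕ) : Qbˣ :=
  if h : Loc.zetaG p = 0 then 1 else Units.mk0 (Loc.zetaG p) h

/-- The mod `p` cyclotomic character of `G_ℚ`, as a function with values in `ZMod p`. -/
def recChi (p : ℕ) [Fact p.Prime] (g : GQ) : ZMod p :=
  ((cycloChar p g : (ZMod p)ˣ) : ZMod p)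

/-- `a` is a `2`-cocycle of `G_ℚ` with values in `𝔽_p(χ) = μ_p`. -/
def RecCoc (p : ℕ) [Fact p.Prime] (a : GQ × GQ → ZMod p) : Prop :=
  ∀ g h j : GQ, recChi p g * a (h, j) - a (g * h, j) + a (g, h * j) - a (g, h) = 0

/-- Restriction of a `2`-cochain of `G_ℚ` to the local group at `q`. -/
def recLoc (q : ℕ) [Fact q.Prime] {X : Type*} (a : GQ × GQ → X) : Loc.Gq q × Loc.Gq q → X :=
  fun y => a (localGaloisToGlobal q y.1, localGaloisToGlobal q y.2)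

/-- The elements of `G_ℚ` whose mod `ℓ` cyclotomic character is a `p`-th power. -/
def recSub (ℓ p : ℕ) [Fact ℓ.Prime] : Subgroup GQ :=
  (powMonoidHom p : (ZMod ℓ)ˣ →* (ZMod ℓ)ˣ).range.comap (cycloChar ℓ)

/-- `Q'`: the fixed field of `recSub ℓ p` (for `p ∣ ℓ - 1`: the subfield of degree `p` of
`ℚ(ζ_ℓ)`). -/
def recField (ℓ p : ℕ) [Fact ℓ.Prime] : NFd := IntermediateField.fixedField (recSub ℓ p)

/-- `K' = Q'(ζ_p)`. -/
def recFieldZ (ℓ p : ℕ) [Fact ℓ.Prime] : NFd :=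
  recField ℓ p ⊔ IntermediateField.adjoin ℚ {Loc.zetaG p}

/-- The global image of the fixed local Frobenius element at `q`. -/
def recFrob (q : ℕ) [Fact q.Prime] : GQ := localGaloisToGlobal q (Loc.frobQ q)

/-- The `ℓ`-unit part `B / ℓ ^ v_ℓ(B)` of a rational number. -/
def recUnitPart (ℓ : ℕ) (B : ℚ) : ℚ := B / (ℓ : ℚ) ^ padicValRat ℓ B

/-- The `ℓ`-unit part of `B` is a `p`-th power modulo `ℓ`. -/
def RecIsPow (ℓ p : ℕ) (B : ℚ) : Prop :=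
  ∃ x : ZMod ℓ, x ^ p * ((recUnitPart ℓ B).den : ZMod ℓ) = ((recUnitPart ℓ B).num : ZMod ℓ)

/-- The exponent of the invariant of `gcarry Q' σ p B` at `q ≠ ℓ`:
`v_q(B) · idx_σ(Frob_q)`. -/
def recExp (ℓ p : ℕ) [Fact ℓ.Prime] (σ : GQ) (B : ℚ) (q : ℕ) [Fact q.Prime] : ZMod p :=
  (padicValRat q B : ZMod p) * (gcycIdx (recField ℓ p) σ p (recFrob q) : ZMod p)

/-! ## Block A: adapters (frame language, roots of unity, localisation) -/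

/-- REC-ZETA: the coherent root of unity. -/
def RecZetaOK : Prop :=
  ∀ (p : ℕ) [Fact p.Prime],
    IsPrimitiveRoot (Loc.zetaG p) p ∧ ((recZeta p : Qbˣ) : Qb) = Loc.zetaG p ∧
    (∀ g : GQ, g • recZeta p = recZeta p ^ (recChi p g).val) ∧
    ∀ (q : ℕ) [Fact q.Prime], gLocUnit q 1 (recZeta p) = Loc.zetaU p q

/-- REC-FRAME: a cocycle of the frame is a twisted cocycle of level `S`
(note `res2 _ _ (primeLocalToGlobal q) a = recLoc q a` by definition). -/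
def RecFrame : Prop :=
  ∀ (p : ℕ) [Fact p.Prime] (S : Finset Nat.Primes),
    ∀ a ∈ Z2 (levQ S) (chiRep (cycloChar p)), RecCoc p a ∧ GContS2 S ⊥ a

/-- REC-MULT: the multiplicative cocycle `ζ^a` of a twisted cocycle `a`; `a` is an untwisted
cocycle on `G_L` when `ζ ∈ L`; additive coboundaries give multiplicative coboundaries. -/
def RecMult : Prop :=
  ∀ (p : ℕ) [Fact p.Prime] (a : GQ × GQ → ZMod p), RecCoc p a → GCont2 ⊥ a →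
    GMCoc2 ⊥ (gzpw (recZeta p) a) ∧ GCont2 ⊥ (gzpw (recZeta p) a) ∧
    (∀ (L : NFd) [FiniteDimensional ℚ L], Loc.zetaG p ∈ L → GACoc2 L a ∧ GCont2 L a ∧
      (GACohom L a 0 → GMCohom L (gzpw (recZeta p) a) 1))

/-- REC-LOCALISE: localisation at `(q, 1)` of cocycles, of the relation "cohomologous", and of
`ζ^a`. -/
def RecLocalise : Prop :=
  ∀ (q : ℕ) [Fact q.Prime],
    (∀ c c' : GQ × GQ → Qbˣ, GMCohom ⊥ c c' → Loc.MCohom ⊥ (gLocM2 q 1 c) (gLocM2 q 1 c')) ∧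
    (∀ (p : ℕ) [Fact p.Prime] (a : GQ × GQ → ZMod p),
      gLocM2 q 1 (gzpw (recZeta p) a) = Loc.zpw (Loc.zetaU p q) (recLoc q a) ∧
      gLoc2 q 1 a = recLoc q a)

/-! ## Block B: the cyclotomic fields `Q'` and `K'` -/

/-- REC-CYCLO: `Q'/ℚ` is cyclic of degree `p`, generated by any `σ ∉ recSub ℓ p`, and
`G_{Q'} = recSub ℓ p`. -/
def RecCyclo : Prop :=
  ∀ (p ℓ : ℕ) [Fact p.Prime] [Fact ℓ.Prime], p ∣ ℓ - 1 →
    GU (recField ℓ p) = recSub ℓ p ∧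
    ∀ σ : GQ, σ ∉ recSub ℓ p → GIsCyc ⊥ (recField ℓ p) p σ

/-- REC-FROBCHAR: the cyclotomic character at `ℓ` of the Frobenius element at `q ≠ ℓ` is `q`. -/
def RecFrobChar : Prop :=
  ∀ (ℓ q : ℕ) [Fact ℓ.Prime] [Fact q.Prime], q ≠ ℓ →
    ((cycloChar ℓ (recFrob q) : (ZMod ℓ)ˣ) : ZMod ℓ) = (q : ZMod ℓ)

/-- REC-KCHI: `L(ζ_p)/L` is cyclic of degree prime to `p`. -/
def RecKChi : Prop :=
  ∀ (p : ℕ) [Fact p.Prime] (L : NFd) [FiniteDimensional ℚ L],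
    ∃ (n : ℕ) (σ' : GQ), ¬ p ∣ n ∧
      GIsCyc L (L ⊔ IntermediateField.adjoin ℚ {Loc.zetaG p}) n σ'

/-- REC-ELLNORM: `ℓ` is the norm of an element `β` of `Q'` all of whose conjugates have the same
`ℓ`-adic absolute value (`β = N_{ℚ(ζ_ℓ)/Q'}(1 - ζ_ℓ) = ∏_{u ∈ P} (1 - ζ_ℓ^u)`, `P` the `p`-th
powers in `(ℤ/ℓ)ˣ`; `∏_{w ∈ (ℤ/ℓ)ˣ} (1 - ζ_ℓ^w) = Φ_ℓ(1) = ℓ`; `(1 - ζ_ℓ^w)/(1 - ζ_ℓ)` and its
inverse are integral). -/
def RecEllNorm : Prop :=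
  ∀ (p ℓ : ℕ) [Fact p.Prime] [Fact ℓ.Prime], p ∣ ℓ - 1 → ∀ σ : GQ, σ ∉ recSub ℓ p →
    ∃ β : Qb, β ∈ recField ℓ p ∧ β ≠ 0 ∧ gnormAlong σ p β = ((ℓ : ℕ) : Qb) ∧
      ∀ g : GQ, ‖padicEmbedding ℓ (g β)‖ = ‖padicEmbedding ℓ β‖

/-! ## Block C: descent in a cyclic step of degree prime to `p` (multiplicative) -/

/-- REC-DESC-GLOB: a `μ_p`-valued `2`-cocycle of `G_L` which is a coboundary on `G_K`,
`K/L` cyclic of degree prime to `p`, is a coboundary on `G_L`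
(`GMCInfResPer` + `GMCCarryNorm` + Bezout). -/
def RecDescGlob : Prop :=
  ∀ (p : ℕ) [Fact p.Prime] (L K : NFd) [FiniteDimensional ℚ L] (n : ℕ) (σ : GQ),
    GIsCyc L K n σ → ¬ p ∣ n → ∀ c : GQ × GQ → Qbˣ, (∀ y, c y ^ p = 1) →
      GMCoc2 L c → GCont2 L c → GMCohom K c 1 → GMCohom L c 1

/-- REC-DESC-LOC: the same over a local field. -/
def RecDescLoc : Prop :=
  ∀ (q : ℕ) [Fact q.Prime] (p : ℕ) [Fact p.Prime] (K K₁ : Loc.LF q)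
    [FiniteDimensional ℚ_[q] K] (n : ℕ) (σ : Loc.Gq q),
    Loc.IsCyc K K₁ n σ → ¬ p ∣ n → ∀ c : Loc.Gq q × Loc.Gq q → (Loc.Om q)ˣ,
      (∀ y, c y ^ p = 1) → Loc.MCoc2 K c → Loc.Cont2 K c → Loc.MCohom K₁ c 1 →
      Loc.MCohom K c 1

/-! ## Block D: local triviality over `K'` -/

/-- REC-UNR: a cocycle of level `S` has invariant `0` at every `q ∉ S`. -/
def RecUnr : Prop :=
  ∀ (p : ℕ) [Fact p.Prime], p ≠ 2 → ∀ (S : Finset Nat.Primes), pPrime p ∈ S →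
    ∀ a : GQ × GQ → ZMod p, RecCoc p a → GContS2 S ⊥ a →
    ∀ (q : ℕ) [Fact q.Prime], (∀ q' ∈ S, (q' : ℕ) ≠ q) → Loc.HasInv p q (recLoc q a) 0

/-- REC-INERT: if `q ≠ ℓ` is not a `p`-th power modulo `ℓ`, the local field of `Q'` at `q` is
the unramified extension of degree `p` of `ℚ_q`. -/
def RecInert : Prop :=
  ∀ (p ℓ q : ℕ) [Fact p.Prime] [Fact ℓ.Prime] [Fact q.Prime], p ∣ ℓ - 1 → q ≠ ℓ →
    (∀ x : ZMod ℓ, x ^ p ≠ (q : ZMod ℓ)) →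
    gLocField q 1 (recField ℓ p) = Loc.Kur (⊥ : Loc.LF q) p

/-- REC-LOCTRIV1: a cocycle with an invariant at `q` is a local coboundary at the place
`(q, 1)` of `K ∋ ζ_p`, as soon as the invariant is `0` or the local field of `K` contains the
unramified extension of degree `p`. -/
def RecLocTriv1 : Prop :=
  ∀ (p : ℕ) [Fact p.Prime] (q : ℕ) [Fact q.Prime] (a : GQ × GQ → ZMod p),
    RecCoc p a → GCont2 ⊥ a → ∀ (K : NFd) [FiniteDimensional ℚ K], Loc.zetaG p ∈ K →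
    ∀ t : ZMod p, Loc.HasInv p q (recLoc q a) t →
      (t = 0 ∨ Loc.Kur (⊥ : Loc.LF q) p ≤ gLocField q 1 K) →
      Loc.ACohom (gLocField q 1 K) (gLoc2 q 1 a) 0

/-- REC-CONJ: for `K/ℚ` Galois with `χ|_{G_K} = 1`, local triviality at `(q, 1)` implies local
triviality at `(q, g)` (conjugation acts trivially on cohomology:
`χ(g) a(g⁻¹xg, g⁻¹yg) = a(x,y) + F(x) + F(y) - F(xy)`, `F(x) = a(g, g⁻¹xg) - a(x, g)`,
for `x, y ∈ G_K`). -/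
def RecConj : Prop :=
  ∀ (p : ℕ) [Fact p.Prime] (a : GQ × GQ → ZMod p), RecCoc p a → GCont2 ⊥ a →
    ∀ (K : NFd) [FiniteDimensional ℚ K], (∀ g : GQ, ∀ s ∈ GU K, g * s * g⁻¹ ∈ GU K) →
    (∀ s ∈ GU K, cycloChar p s = 1) →
    ∀ (q : ℕ) [Fact q.Prime] (g : GQ),
      Loc.ACohom (gLocField q 1 K) (gLoc2 q 1 a) 0 →
      Loc.ACohom (gLocField q g K) (gLoc2 q g a) 0

/-! ## Block E: the local invariants of the carry cocycle `gcarry Q' σ p B` -/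

/-- REC-GENCHG (change of generator): `carry_τ(b) ∼ carry_φ(b) ^ idx_τ(φ)`. -/
def RecGenChg : Prop :=
  ∀ (q : ℕ) [Fact q.Prime] (p : ℕ) [Fact p.Prime] (K K₁ : Loc.LF q)
    [FiniteDimensional ℚ_[q] K] (τ φ : Loc.Gq q) (b : (Loc.Om q)ˣ),
    Loc.IsCyc K K₁ p τ → Loc.IsCyc K K₁ p φ → (b : Loc.Om q) ∈ K →
    Loc.MCohom K (Loc.carry K₁ τ p b) (fun y => Loc.carry K₁ φ p b y ^ Loc.cycIdx K₁ τ p φ)

/-- REC-LOCVAL: over `ℚ_q`, the unramified cyclic algebra `(χ_ur, B)`, `B ∈ ℚˣ`, is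
`Yq ^ v_q(B)`. -/
def RecLocVal : Prop :=
  ∀ (q : ℕ) [Fact q.Prime] (p : ℕ) [Fact p.Prime] (B : ℚ) (b : (Loc.Om q)ˣ), B ≠ 0 →
    (b : Loc.Om q) = ((B : ℚ) : Loc.Om q) →
    Loc.MCohom (⊥ : Loc.LF q) (Loc.carry (Loc.Kur (⊥ : Loc.LF q) p) (Loc.frobQ q) p b)
      (fun y => Loc.Yq p q y ^ ((padicValRat q B : ZMod p)).val)

/-- REC-LOCCARRY: the invariant of `gcarry Q' σ p B` at `q ≠ ℓ` is
`v_q(B) · idx_σ(Frob_q)`. -/
def RecLocCarry : Prop :=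
  ∀ (p ℓ q : ℕ) [Fact p.Prime] [Fact ℓ.Prime] [Fact q.Prime], p ∣ ℓ - 1 → q ≠ ℓ →
    ∀ σ : GQ, σ ∉ recSub ℓ p → ∀ (B : ℚ) (b : Qbˣ), B ≠ 0 → (b : Qb) = ((B : ℚ) : Qb) →
    Loc.MCohom (⊥ : Loc.LF q) (gLocM2 q 1 (gcarry (recField ℓ p) σ p b))
      (fun y => Loc.Yq p q y ^ (recExp ℓ p σ B q).val)

/-! ## Block F: the tame place `ℓ` -/

/-- REC-TAMELOC (local): if `ℓ` and `B ∈ ℚˣ` are norms from a cyclic extension of degree `p` of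
`ℚ_ℓ`, the `ℓ`-unit part of `B` is a `p`-th power modulo `ℓ`. -/
def RecTameLoc : Prop :=
  ∀ (ℓ : ℕ) [Fact ℓ.Prime] (p : ℕ) [Fact p.Prime] (K₁ : Loc.LF ℓ) (τ : Loc.Gq ℓ),
    Loc.IsCyc (⊥ : Loc.LF ℓ) K₁ p τ → Loc.IsNorm K₁ τ p ((ℓ : ℕ) : Loc.Om ℓ) →
    ∀ B : ℚ, B ≠ 0 → Loc.IsNorm K₁ τ p ((B : ℚ) : Loc.Om ℓ) → RecIsPow ℓ p B

/-- REC-TAME: if `gcarry Q' σ p B` is a local coboundary at `ℓ`, the `ℓ`-unit part of `B` is a
`p`-th power modulo `ℓ`. -/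
def RecTame : Prop :=
  ∀ (p ℓ : ℕ) [Fact p.Prime] [Fact ℓ.Prime], p ∣ ℓ - 1 →
    ∀ σ : GQ, σ ∉ recSub ℓ p → ∀ (B : ℚ) (b : Qbˣ), B ≠ 0 → (b : Qb) = ((B : ℚ) : Qb) →
    Loc.MCohom (⊥ : Loc.LF ℓ) (gLocM2 ℓ 1 (gcarry (recField ℓ p) σ p b)) 1 →
    RecIsPow ℓ p B

/-! ## Block G: the sum -/

/-- REC-SUM: if the `ℓ`-unit part of `B` is a `p`-th power modulo `ℓ` then
`∑_{q ≠ ℓ} v_q(B) · idx_σ(Frob_q) = 0`. -/
def RecSum : Prop :=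
  ∀ (p ℓ : ℕ) [Fact p.Prime] [Fact ℓ.Prime], p ≠ 2 → p ∣ ℓ - 1 →
    ∀ σ : GQ, σ ∉ recSub ℓ p → ∀ B : ℚ, B ≠ 0 → RecIsPow ℓ p B →
    ∀ T : Finset Nat.Primes, (∀ q ∈ T, (q : ℕ) ≠ ℓ) →
      (∀ q : Nat.Primes, (q : ℕ) ≠ ℓ → padicValRat (q : ℕ) B ≠ 0 → q ∈ T) →
      ∑ q ∈ T, (haveI : Fact ((q : ℕ).Prime) := ⟨q.2⟩; recExp ℓ p σ B (q : ℕ)) = 0

/-! ## The target -/

/-- **REC-Q** (reciprocity over `ℚ`, `HasInv` form). -/
def RecQHasInv : Prop :=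
  ∀ (p : ℕ) [Fact p.Prime], p ≠ 2 → ∀ (S : Finset Nat.Primes), pPrime p ∈ S →
    ∀ a ∈ Z2 (levQ S) (chiRep (cycloChar p)), ∀ t : ↥S → ZMod p,
      (∀ q : ↥S, haveI : Fact ((q.1 : ℕ).Prime) := ⟨q.1.2⟩;
        Loc.HasInv p (q.1 : ℕ) (recLoc (q.1 : ℕ) a) (t q)) →
      ∑ q : ↥S, t q = 0

end Fermat.Agent.PT.Glob
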