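import Mathlib
import Fermat.Agent.PT.Glob.Rec.Iface
import Fermat.Agent.PT.Loc.Top
import Fermat.Agent.PT.Loc.H48Wire
import Fermat.Agent.PT.Arith.Iface

/-!
# W3-PT / PT-GLOB-REC (helper79): from `RecQHasInv` to `RecQFor p (Loc.invFam p)`

`h79r_recQFor_of : RecQHasInv → Loc.InvTotal → Loc.InvEx → RecQFor p (Loc.invFam p)` (`p ≠ 2`):
the reciprocity law in the form consumed by `PT/Arith/Iface.lean` (`ArithInputs`).
-/

set_option autoImplicit false
set_option linter.style.haveILetI false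

open scoped Classical

noncomputable section

namespace Fermat.Agent.PT.Glob

open Fermat.Agent.Bridge ExtCitation Fermat.Agent.PT

/-- the restriction of a cocycle of level `S` to the local group at `q` is a cocycle of the
local frame. -/
theorem h79r_recLoc_mem_Z2 (p : ℕ) [Fact p.Prime] (S : Finset Nat.Primes) (q : ℕ)
    [Fact q.Prime] {a : GQ × GQ → ZMod p} (ha : a ∈ Z2 (levQ S) (chiRep (cycloChar p))) :
    recLoc q a ∈ Z2 (Loc.levLoc q) (chiRep (Loc.chiQ p q)) := by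
  rw [mem_Z2] at ha ⊢
  obtain ⟨hd, N, hN, hlc⟩ := ha
  refine ⟨?_, ?_⟩
  · funext y
    have h1 := congrFun hd (localGaloisToGlobal q y.1, localGaloisToGlobal q y.2.1,
      localGaloisToGlobal q y.2.2)
    simp only [d2, LinearMap.coe_mk, AddHom.coe_mk, chiRep_apply, Pi.zero_apply] at h1 ⊢
    simp only [recLoc, map_mul, Loc.chiQ, MonoidHom.comp_apply]
    exact h1
  · obtain ⟨F, hF, hn, rfl⟩ := hN
    refine ⟨F.fixingSubgroup.comap (localGaloisToGlobal q),
      ⟨F.fixingSubgroup, ⟨F, hF.1, hn, rfl⟩, rfl⟩, ?_⟩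
    intro g g' s s' hs hs'
    simp only [recLoc, map_mul]
    exact hlc _ _ _ _ hs hs'

/-- **the reciprocity law for the family `Loc.invFam p`.** -/
theorem h79r_recQFor_of (hR : RecQHasInv) (hTot : Loc.InvTotal) (hEx : Loc.InvEx)
    (p : ℕ) [Fact p.Prime] (hp2 : p ≠ 2) : RecQFor p (Loc.invFam p) := by
  intro S hpS a ha
  have hex : ∀ q : ↥S, ∃ t : ZMod p, (haveI : Fact ((q.1 : ℕ).Prime) := ⟨q.1.2⟩;
      Loc.HasInv p (q.1 : ℕ) (recLoc (q.1 : ℕ) a) t) := by
    intro q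
    haveI : Fact ((q.1 : ℕ).Prime) := ⟨q.1.2⟩
    exact hTot (q.1 : ℕ) p _ (h79r_recLoc_mem_Z2 p S (q.1 : ℕ) ha)
  choose t ht using hex
  have h0 := hR p hp2 S hpS a ha t ht
  rw [← h0]
  refine Finset.sum_congr rfl fun q _ => ?_
  haveI : Fact ((q.1 : ℕ).Prime) := ⟨q.1.2⟩
  have hspec : Loc.InvSpec p (q.1 : ℕ) (Loc.invQ p (q.1 : ℕ)) := by
    unfold Loc.invQ
    rw [dif_pos (hEx (q.1 : ℕ) p)]
    exact (hEx (q.1 : ℕ) p).choose_spec
  exact hspec _ _ (ht q)

end Fermat.Agent.PT.Glob
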