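import Fermat.Agent.PT.Glob.Rec.Iface
import Fermat.Agent.PT.Glob.H3HCyc
import Fermat.Agent.PT.Glob.MC.H95InfResFinal
import Fermat.Agent.PT.Glob.MC.H53CNorm

/-!
# W3-PT / PT-GLOB-REC, leaf REC-DESC, global half (helper99): `h99rd_recDescGlob : RecDescGlob`

A `μ_p`-valued `2`-cocycle `c` of `G_L` which is a continuous coboundary on `G_K`, `K/L`
cyclic of degree `n` prime to `p`, is a continuous coboundary on `G_L`.

Proof (port of the local half `Desc99Loc.lean`): `c ∼ gcarry(b)`, `b ∈ L` (`GMCInfResPer`);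
`c^p = 1` gives `gcarry(b^p) ∼ 1`, so `b^p` is a norm (`GMCCarryNorm`); `b^n = N(b)` is a norm;
Bezout: `b` is a norm; `gcarry(b) ∼ 1`.
-/

set_option autoImplicit false

open scoped Classical

namespace Fermat.Agent.PT.Glob

open Fermat.Agent.Bridge

/-! ### the global cochain calculus -/

theorem h99rd_g_cont1_const (L : NFd) [FiniteDimensional ℚ L] {X : Type*} (a : X) :
    GCont1 L (fun _ : GQ => a) :=
  ⟨L, inferInstance, le_rfl, fun _ _ _ _ => rfl⟩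

theorem h99rd_g_cont1_inv {L : NFd} (x : GQ → Qbˣ) (hx : GCont1 L x) :
    GCont1 L (fun g => (x g)⁻¹) := by
  obtain ⟨F, hF, hLF, h⟩ := hx
  exact ⟨F, hF, hLF, fun g hg s hs => by simp only [h g hg s hs]⟩

theorem h99rd_g_cont1_pow {L : NFd} (x : GQ → Qbˣ) (hx : GCont1 L x) (k : ℕ) :
    GCont1 L (fun g => (x g) ^ k) := by
  obtain ⟨F, hF, hLF, h⟩ := hx
  exact ⟨F, hF, hLF, fun g hg s hs => by simp only [h g hg s hs]⟩

theorem h99rd_g_mcob_one (y : GQ × GQ) : gmcob (fun _ : GQ => (1 : Qbˣ)) y = 1 := by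
  simp [gmcob]

theorem h99rd_g_mcob_inv (x : GQ → Qbˣ) (y : GQ × GQ) :
    gmcob (fun g => (x g)⁻¹) y = (gmcob x y)⁻¹ := by
  apply eq_inv_of_mul_eq_one_left
  rw [← h3g_gmcob_mul]
  simp only [inv_mul_cancel]
  exact h99rd_g_mcob_one y

theorem h99rd_g_mcob_pow (x : GQ → Qbˣ) (k : ℕ) (y : GQ × GQ) :
    gmcob (fun g => (x g) ^ k) y = (gmcob x y) ^ k := by
  induction k with
  | zero => simp [gmcob]
  | succ k ih =>
    have h1 : (fun g => (x g) ^ (k + 1)) = fun g => (fun g => (x g) ^ k) g * x g := by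
      funext g
      rw [pow_succ]
    rw [h1, h3g_gmcob_mul, ih, pow_succ]

theorem h99rd_g_of_eq (L : NFd) [FiniteDimensional ℚ L] {c c' : GQ × GQ → Qbˣ}
    (h : ∀ g ∈ GU L, ∀ h ∈ GU L, c (g, h) = c' (g, h)) : GMCohom L c c' :=
  ⟨fun _ => 1, h99rd_g_cont1_const L 1, fun g hg h' hh' => by
    rw [h99rd_g_mcob_one, mul_one]
    exact h g hg h' hh'⟩

theorem h99rd_g_symm {L : NFd} {c c' : GQ × GQ → Qbˣ} (h : GMCohom L c c') :
    GMCohom L c' c := by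
  obtain ⟨x, hx, hcx⟩ := h
  refine ⟨fun g => (x g)⁻¹, h99rd_g_cont1_inv x hx, fun g hg h hh => ?_⟩
  rw [h99rd_g_mcob_inv, hcx g hg h hh]
  simp

theorem h99rd_g_pow {L : NFd} {c c' : GQ × GQ → Qbˣ} (h : GMCohom L c c') (k : ℕ) :
    GMCohom L (fun y => (c y) ^ k) (fun y => (c' y) ^ k) := by
  obtain ⟨x, hx, hcx⟩ := h
  refine ⟨fun g => (x g) ^ k, h99rd_g_cont1_pow x hx k, fun g hg h hh => ?_⟩
  rw [h99rd_g_mcob_pow]
  simp only
  rw [hcx g hg h hh, mul_pow]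

theorem h99rd_g_carry_pow (K : NFd) (σ : GQ) (n : ℕ) (b : Qbˣ) (k : ℕ)
    (y : GQ × GQ) : gcarry K σ n (b ^ k) y = (gcarry K σ n b y) ^ k := by
  unfold gcarry
  split_ifs <;> simp

/-! ### the norms form a group -/

theorem h99rd_g_normAlong_mul (σ : GQ) (n : ℕ) (β β' : Qb) :
    gnormAlong σ n (β * β') = gnormAlong σ n β * gnormAlong σ n β' := by
  unfold gnormAlong
  rw [← Finset.prod_mul_distrib]
  exact Finset.prod_congr rfl (fun i _ => map_mul _ _ _)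

theorem h99rd_g_normAlong_inv (σ : GQ) (n : ℕ) (β : Qb) :
    gnormAlong σ n β⁻¹ = (gnormAlong σ n β)⁻¹ := by
  unfold gnormAlong
  rw [← Finset.prod_inv_distrib]
  exact Finset.prod_congr rfl (fun i _ => map_inv₀ _ _)

theorem h99rd_g_normAlong_one (σ : GQ) (n : ℕ) : gnormAlong σ n (1 : Qb) = 1 := by
  unfold gnormAlong
  exact Finset.prod_eq_one (fun i _ => map_one _)

theorem h99rd_g_isNorm_one (K : NFd) (σ : GQ) (n : ℕ) : GIsNorm K σ n 1 :=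
  ⟨1, K.one_mem, one_ne_zero, h99rd_g_normAlong_one σ n⟩

theorem h99rd_g_isNorm_mul {K : NFd} {σ : GQ} {n : ℕ} {b b' : Qb}
    (h : GIsNorm K σ n b) (h' : GIsNorm K σ n b') : GIsNorm K σ n (b * b') := by
  obtain ⟨β, hβ, hβ0, rfl⟩ := h
  obtain ⟨β', hβ', hβ'0, rfl⟩ := h'
  exact ⟨β * β', K.mul_mem hβ hβ', mul_ne_zero hβ0 hβ'0, h99rd_g_normAlong_mul σ n β β'⟩

theorem h99rd_g_isNorm_inv {K : NFd} {σ : GQ} {n : ℕ} {b : Qb}
    (h : GIsNorm K σ n b) : GIsNorm K σ n b⁻¹ := by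
  obtain ⟨β, hβ, hβ0, rfl⟩ := h
  exact ⟨β⁻¹, K.inv_mem hβ, inv_ne_zero hβ0, h99rd_g_normAlong_inv σ n β⟩

theorem h99rd_g_isNorm_pow {K : NFd} {σ : GQ} {n : ℕ} {b : Qb}
    (h : GIsNorm K σ n b) (k : ℕ) : GIsNorm K σ n (b ^ k) := by
  induction k with
  | zero =>
    rw [pow_zero]
    exact h99rd_g_isNorm_one K σ n
  | succ k ih =>
    rw [pow_succ]
    exact h99rd_g_isNorm_mul ih h

theorem h99rd_g_isNorm_zpow {K : NFd} {σ : GQ} {n : ℕ} {b : Qb}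
    (h : GIsNorm K σ n b) (k : ℤ) : GIsNorm K σ n (b ^ k) := by
  obtain ⟨m, rfl | rfl⟩ := Int.eq_nat_or_neg k
  · rw [zpow_natCast]
    exact h99rd_g_isNorm_pow h m
  · rw [zpow_neg, zpow_natCast]
    exact h99rd_g_isNorm_inv (h99rd_g_isNorm_pow h m)

/-- an element of `L` is fixed by the powers of `σ ∈ G_L`. -/
theorem h99rd_g_pow_fixed {L : NFd} {σ : GQ} (hσ : σ ∈ GU L) {b : Qb} (hb : b ∈ L) (i : ℕ) :
    (σ ^ i) b = b :=
  (IntermediateField.mem_fixingSubgroup_iff L _).1 ((GU L).pow_mem hσ i) b hb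

/-- `b^n` is the norm of `b ∈ L`. -/
theorem h99rd_g_isNorm_self_pow {L K : NFd} {σ : GQ} {n : ℕ} (h : GIsCyc L K n σ) {b : Qb}
    (hb : b ∈ L) (hb0 : b ≠ 0) : GIsNorm K σ n (b ^ n) := by
  refine ⟨b, h.le hb, hb0, ?_⟩
  unfold gnormAlong
  rw [Finset.prod_congr rfl (fun i _ => h99rd_g_pow_fixed h.mem hb i), Finset.prod_const,
    Finset.card_range]

/-- Bezout: if `b^p` and `b^n` are norms and `p`, `n` are coprime then `b` is a norm. -/
theorem h99rd_g_isNorm_of_coprime {K : NFd} {σ : GQ} {n p : ℕ} {b : Qb} (hb0 : b ≠ 0)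
    (hpn : Nat.Coprime p n) (h1 : GIsNorm K σ n (b ^ p)) (h2 : GIsNorm K σ n (b ^ n)) :
    GIsNorm K σ n b := by
  have hbez : ((Nat.gcd p n : ℕ) : ℤ) = p * Nat.gcdA p n + n * Nat.gcdB p n :=
    Nat.gcd_eq_gcd_ab p n
  rw [hpn.gcd_eq_one, Nat.cast_one] at hbez
  have h3 : b = (b ^ p) ^ (Nat.gcdA p n) * (b ^ n) ^ (Nat.gcdB p n) := by
    rw [← zpow_natCast b p, ← zpow_natCast b n, ← zpow_mul, ← zpow_mul, ← zpow_add₀ hb0, ← hbez,
      zpow_one]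
  rw [h3]
  exact h99rd_g_isNorm_mul (h99rd_g_isNorm_zpow h1 _) (h99rd_g_isNorm_zpow h2 _)

/-- **REC-DESC-GLOB**, conditional form. -/
theorem h99rd_recDescGlob_of (hIR : GMCInfResPer) (hCN : GMCCarryNorm) : RecDescGlob := by
  intro p _ L K _ n σ hcyc hpn c hcp hc hcont hK
  have hp : p.Prime := Fact.out
  obtain ⟨b, hbL, hcb⟩ := hIR L K n σ hcyc c hc hcont hK
  -- `gcarry(b^p) ∼ 1`
  have h1 : GMCohom L (fun y => c y ^ p) (fun y => gcarry K σ n b y ^ p) := h99rd_g_pow hcb p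
  have h2 : GMCohom L (gcarry K σ n (b ^ p)) 1 := by
    refine h3g_gmcohom_trans (h99rd_g_of_eq L (fun g _ h _ => ?_))
      (h3g_gmcohom_trans (h99rd_g_symm h1) (h99rd_g_of_eq L (fun g _ h _ => ?_)))
    · exact h99rd_g_carry_pow K σ n b p (g, h)
    · exact hcp (g, h)
  have hbpL : (((b ^ p : Qbˣ)) : Qb) ∈ L := by
    rw [Units.val_pow_eq_pow_val]
    exact pow_mem hbL p
  have h3 : GIsNorm K σ n (((b ^ p : Qbˣ)) : Qb) :=
    (hCN L K n σ (b ^ p) hcyc hbpL).mp h2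
  rw [Units.val_pow_eq_pow_val] at h3
  have h4 : GIsNorm K σ n ((b : Qb) ^ n) := h99rd_g_isNorm_self_pow hcyc hbL b.ne_zero
  have hcop : Nat.Coprime p n := (Nat.Prime.coprime_iff_not_dvd hp).mpr hpn
  have h5 : GIsNorm K σ n (b : Qb) := h99rd_g_isNorm_of_coprime b.ne_zero hcop h3 h4
  have h6 : GMCohom L (gcarry K σ n b) 1 := (hCN L K n σ b hcyc hbL).mpr h5
  exact h3g_gmcohom_trans hcb h6

/-- **REC-DESC-GLOB**. -/
theorem h99rd_recDescGlob : RecDescGlob :=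
  h99rd_recDescGlob_of h95g_gmcInfResPer h53g_gmcCarryNorm

end Fermat.Agent.PT.Glob
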