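import Mathlib
import Fermat.Agent.PT.Glob.Rec.Iface
import Fermat.Agent.PT.Loc.H90Final
import Fermat.Agent.PT.Loc.H96RDBase
import Fermat.Agent.PT.Loc.H6ChiZeta

/-!
# W3-PT / GLOB-REC, leaf REC-FROBCHAR (helper6): `RecFrobChar`

The mod `ℓ` cyclotomic character of the (global image of the fixed local) Frobenius element at
`q ≠ ℓ` is `q`.
-/

set_option autoImplicit false

open scoped Classical

noncomputable section

namespace Fermat.Agent.PT.Glob

open ExtCitation Fermat.Agent.PT.Loc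

/-- The fixed local Frobenius element is a Frobenius element of `ℚ_q`. -/
theorem h6r_isFrob_frobQ (q : ℕ) [Fact q.Prime] : IsFrob (⊥ : LF q) (frobQ q) := by
  have h : ∃ φ : Gq q, IsFrob (⊥ : LF q) φ := h90l_urFrob q ⊥
  unfold frobQ
  rw [dif_pos h]
  exact h.choose_spec

/-- Equal powers of a primitive root have congruent exponents. -/
theorem h6r_modEq_of_pow_eq {ζ : AlgebraicClosure ℚ} {p : ℕ} (hζ : IsPrimitiveRoot ζ p)
    (hp : 0 < p) {a b : ℕ} (h : ζ ^ a = ζ ^ b) : a ≡ b [MOD p] := by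
  have hζ0 : ζ ≠ 0 := hζ.ne_zero hp.ne'
  have h1 : ζ ^ ((b : ℤ) - (a : ℤ)) = 1 := by
    rw [zpow_sub₀ hζ0, zpow_natCast, zpow_natCast, h, div_self (pow_ne_zero _ hζ0)]
  have h2 : (p : ℤ) ∣ (b : ℤ) - (a : ℤ) := (hζ.zpow_eq_one_iff_dvd _).mp h1
  exact Int.natCast_modEq_iff.mp ((Int.modEq_iff_dvd).mpr h2)

/-- **(REC-FROBCHAR)** -/
theorem h6r_recFrobChar : RecFrobChar := by
  intro ℓ q _ _ hqℓ
  have hℓ : ℓ.Prime := Fact.out
  have hq : q.Prime := Fact.out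
  have hξ : IsPrimitiveRoot (zetaG ℓ) ℓ := h6z_zetaG_primitive ℓ hℓ.ne_zero
  obtain ⟨-, hfrob⟩ := h6r_isFrob_frobQ q
  have hres : resCard (⊥ : LF q) = q := (h96b_lfBase q).2.1
  have hndvd : ¬ q ∣ ℓ := fun h => hqℓ ((Nat.prime_dvd_prime_iff_eq hq hℓ).mp h)
  have h1 : frobQ q (padicEmbedding q (zetaG ℓ)) = padicEmbedding q (zetaG ℓ) ^ q := by
    have := hfrob (padicEmbedding q (zetaG ℓ)) ℓ hℓ.pos hndvd (by
      rw [← map_pow, hξ.pow_eq_one, map_one])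
    rwa [hres] at this
  have h2 : recFrob q (zetaG ℓ) = zetaG ℓ ^ q := by
    apply (padicEmbedding q).toRingHom.injective
    show padicEmbedding q (localGaloisToGlobal q (frobQ q) (zetaG ℓ)) = padicEmbedding q (zetaG ℓ ^ q)
    rw [padicEmbedding_localGaloisToGlobal, h1, map_pow]
  have h3 := h6z_cycloChar_spec ℓ (recFrob q)
  rw [h2] at h3
  have h4 : q ≡ ((cycloChar ℓ (recFrob q) : (ZMod ℓ)ˣ) : ZMod ℓ).val [MOD ℓ] :=
    h6r_modEq_of_pow_eq hξ hℓ.pos h3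
  have h5 := (ZMod.natCast_eq_natCast_iff _ _ _).mpr h4
  rw [ZMod.natCast_val, ZMod.cast_id] at h5
  exact h5.symm

end Fermat.Agent.PT.Glob
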