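import Mathlib
import Fermat.Agent.PT.Glob.Rec.Iface
import Fermat.Agent.PT.Glob.Rec.H6FrobChar
import Fermat.Agent.PT.Glob.H3HCyc
import Fermat.Agent.PT.Bridge.DQGood
import Fermat.Agent.PT.Loc.MC.H79Cyc
import Fermat.Agent.PT.Loc.H90Final
import Fermat.Agent.PT.Loc.H96RDBase

/-!
# W3-PT / GLOB-REC, leaf REC-INERT (helper10): `RecInert`

If `q ≠ ℓ` is not a `p`-th power modulo `ℓ` (`p ∣ ℓ - 1`), the local field at `(q, 1)` of the
subfield `Q'` of degree `p` of `ℚ(ζ_ℓ)` is the unramified extension of degree `p` of `ℚ_q`.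

Proof: Galois correspondence over `ℚ_q`; for `h ∈ G_{ℚ_q}` with index `i` in
`Gal(ℚ_q(μ_{q^(ℓ-1)-1})/ℚ_q) = ⟨φ⟩` one has `χ_ℓ(r h) = q ^ i`, which is a `p`-th power iff
`p ∣ i` iff `h` fixes `Kur ⊥ p`.

Main result: `h10r_recInert : (∀ p ℓ, p ∣ ℓ - 1 → GU (recField ℓ p) = recSub ℓ p) → RecInert`
and `h10r_recInert_of : RecCyclo → RecInert`.
-/

set_option autoImplicit false
set_option linter.style.haveILetI false

open scoped Classical

noncomputable section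

namespace Fermat.Agent.PT.Glob

open ExtCitation Fermat.Agent.Bridge Fermat.Agent.PT.Bridge Fermat.Agent.PT.Loc

/-- Galois correspondence over `ℚ_q`: a local field is determined by its Galois group. -/
theorem h10r_eq_of_GK_eq {q : ℕ} [Fact q.Prime] {E F : LF q} (h : GK E = GK F) : E = F := by
  haveI : IsAlgClosure ℚ_[q] (PadicAlgCl q) := ⟨inferInstance, inferInstance⟩
  haveI : IsGalois ℚ_[q] (PadicAlgCl q) := IsAlgClosure.isGalois ℚ_[q] (PadicAlgCl q)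
  rw [← InfiniteGalois.fixedField_fixingSubgroup E, ← InfiniteGalois.fixedField_fixingSubgroup F]
  exact congrArg IntermediateField.fixedField h

/-- `Kur K m ≤ Kur K n` for `m ∣ n`. -/
theorem h10r_Kur_le {q : ℕ} [Fact q.Prime] (K : LF q) {m n : ℕ} (hmn : m ∣ n) :
    Kur K m ≤ Kur K n := by
  unfold Kur
  refine sup_le_sup_left (IntermediateField.adjoin.mono _ _ _ ?_) K
  intro w hw
  change w ^ (resCard K ^ m - 1) = 1 at hw
  change w ^ (resCard K ^ n - 1) = 1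
  obtain ⟨c, hc⟩ := Nat.pow_sub_one_dvd_pow_sub_one (resCard K) hmn
  rw [hc, pow_mul, hw, one_pow]

/-- every element of `G_{ℚ_q}` fixes `ℚ_q`. -/
theorem h10r_mem_GK_bot {q : ℕ} [Fact q.Prime] (h : Gq q) : h ∈ GK (⊥ : LF q) := by
  rw [IntermediateField.mem_fixingSubgroup_iff]
  intro x hx
  obtain ⟨y, rfl⟩ := IntermediateField.mem_bot.mp hx
  exact h.commutes y

/-- membership in `G_{Kur ⊥ p}` in terms of the index in a larger unramified extension. -/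
theorem h10r_mem_GK_Kur_iff {q : ℕ} [Fact q.Prime] {p m : ℕ} (hp : 0 < p) (hm : 0 < m)
    (h : Gq q) :
    h ∈ GK (Kur (⊥ : LF q) p) ↔
      p ∣ cycIdx (Kur (⊥ : LF q) (p * m)) (frobQ q) (p * m) h := by
  have hfrob := h6r_isFrob_frobQ q
  have hc₁ : IsCyc (⊥ : LF q) (Kur (⊥ : LF q) p) p (frobQ q) := h90l_urCyc q ⊥ p _ hp hfrob
  have hc₂ : IsCyc (⊥ : LF q) (Kur (⊥ : LF q) (p * m)) (p * m) (frobQ q) :=
    h90l_urCyc q ⊥ (p * m) _ (Nat.mul_pos hp hm) hfrob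
  have hmem : h ∈ GK (⊥ : LF q) := h10r_mem_GK_bot h
  have htow := h79c_cycIdx_tower hc₁ hc₂ (h10r_Kur_le ⊥ (Dvd.intro m rfl)) hmem
  constructor
  · intro hh
    have h0 := h79c_cycIdx_of_mem hc₁ hh
    rw [htow] at h0
    exact Nat.dvd_of_mod_eq_zero h0
  · intro hd
    have h0 : cycIdx (Kur (⊥ : LF q) p) (frobQ q) p h = 0 := by
      rw [htow]
      exact Nat.mod_eq_zero_of_dvd hd
    have := h79c_cycIdx_mem hc₁ hmem
    rw [h0] at this
    simpa using this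

/-- `ℓ ∣ q ^ (ℓ - 1) - 1` for primes `q ≠ ℓ`. -/
theorem h10r_dvd_pow_sub_one {ℓ q : ℕ} (hℓ : ℓ.Prime) (hq : q.Prime) (hqℓ : q ≠ ℓ) :
    ℓ ∣ q ^ (ℓ - 1) - 1 := by
  have hcop : Nat.Coprime q ℓ := (Nat.coprime_primes hq hℓ).mpr hqℓ
  have h := Nat.ModEq.pow_totient hcop
  rw [Nat.totient_prime hℓ] at h
  exact (Nat.modEq_iff_dvd' (Nat.one_le_pow _ _ hq.pos)).mp h.symm

/-- the cyclotomic character at `ℓ` of a local element at `q ≠ ℓ` is a power of `q`. -/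
theorem h10r_cycloChar_local {ℓ q : ℕ} [Fact ℓ.Prime] [Fact q.Prime] (hqℓ : q ≠ ℓ)
    (h : Gq q) :
    ((cycloChar ℓ (localGaloisToGlobal q h) : (ZMod ℓ)ˣ) : ZMod ℓ) =
      (q : ZMod ℓ) ^ cycIdx (Kur (⊥ : LF q) (ℓ - 1)) (frobQ q) (ℓ - 1) h := by
  have hℓ : ℓ.Prime := Fact.out
  have hq : q.Prime := Fact.out
  have hξ : IsPrimitiveRoot (zetaG ℓ) ℓ := h6z_zetaG_primitive ℓ hℓ.ne_zero
  have hfrob := h6r_isFrob_frobQ q
  have hres : resCard (⊥ : LF q) = q := h96b_resCard_bot q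
  have hn : 0 < ℓ - 1 := Nat.sub_pos_of_lt hℓ.one_lt
  have hmem : h ∈ GK (⊥ : LF q) := h10r_mem_GK_bot h
  have hw : (padicEmbedding q (zetaG ℓ)) ^ (resCard (⊥ : LF q) ^ (ℓ - 1) - 1) = 1 := by
    rw [hres]
    obtain ⟨c, hc⟩ := h10r_dvd_pow_sub_one hℓ hq hqℓ
    rw [hc, pow_mul, ← map_pow, hξ.pow_eq_one, map_one, one_pow]
  have h1 := h90l_urIdx q ⊥ (ℓ - 1) (frobQ q) hn hfrob h hmem _ hw
  rw [hres] at h1
  set i := cycIdx (Kur (⊥ : LF q) (ℓ - 1)) (frobQ q) (ℓ - 1) h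
  have h2 : localGaloisToGlobal q h (zetaG ℓ) = zetaG ℓ ^ (q ^ i) := by
    apply (padicEmbedding q).toRingHom.injective
    show padicEmbedding q (localGaloisToGlobal q h (zetaG ℓ)) = padicEmbedding q (zetaG ℓ ^ (q ^ i))
    rw [padicEmbedding_localGaloisToGlobal, h1, map_pow]
  have h3 := h23b_cycloChar_eq_of_apply ℓ hξ (localGaloisToGlobal q h) (q ^ i) h2
  rw [h3]
  push_cast
  rfl

/-- in an abelian group, if `u` is not a `p`-th power (`p` prime) then `u ^ i` is a `p`-th power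
iff `p ∣ i`. -/
theorem h10r_pow_mem_range_iff {G : Type*} [CommGroup G] {p : ℕ} (hp : p.Prime) {u : G}
    (hu : u ∉ (powMonoidHom p : G →* G).range) (i : ℕ) :
    u ^ i ∈ (powMonoidHom p : G →* G).range ↔ p ∣ i := by
  constructor
  · rintro ⟨y, hy⟩
    by_contra hd
    apply hu
    have hcop : IsCoprime (i : ℤ) (p : ℤ) := by
      rw [Int.isCoprime_iff_gcd_eq_one, Int.gcd_natCast_natCast]
      exact (Nat.Coprime.symm ((Nat.Prime.coprime_iff_not_dvd hp).mpr hd))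
    obtain ⟨a, b, hab⟩ := hcop
    refine ⟨y ^ a * u ^ b, ?_⟩
    change (y ^ a * u ^ b) ^ p = u
    change y ^ p = u ^ i at hy
    have h1 : (y ^ a * u ^ b) ^ p = (y ^ p) ^ a * (u ^ b) ^ p := by
      rw [mul_pow, ← zpow_natCast (y ^ a), ← zpow_mul, mul_comm a, zpow_mul, zpow_natCast]
    rw [h1, hy, ← zpow_natCast (u ^ b), ← zpow_mul, ← zpow_natCast u i, ← zpow_mul, ← zpow_add,
      mul_comm (i : ℤ), hab, zpow_one]
  · rintro ⟨c, rfl⟩
    exact ⟨u ^ c, by change (u ^ c) ^ p = u ^ (p * c); rw [← pow_mul, mul_comm]⟩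

/-- **(REC-INERT)**, from the Galois group of `Q'`. -/
theorem h10r_recInert
    (hGU : ∀ (p ℓ : ℕ) [Fact p.Prime] [Fact ℓ.Prime], p ∣ ℓ - 1 →
      GU (recField ℓ p) = recSub ℓ p) : RecInert := by
  intro p ℓ q _ _ _ hpℓ hqℓ hnp
  have hp : p.Prime := Fact.out
  have hℓ : ℓ.Prime := Fact.out
  have hq : q.Prime := Fact.out
  obtain ⟨m, hm⟩ := hpℓ
  have hn : 0 < ℓ - 1 := Nat.sub_pos_of_lt hℓ.one_lt
  have hm0 : 0 < m := by
    rcases Nat.eq_zero_or_pos m with h0 | h0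
    · rw [h0, mul_zero] at hm
      omega
    · exact h0
  have hcop : Nat.Coprime q ℓ := (Nat.coprime_primes hq hℓ).mpr hqℓ
  set uq : (ZMod ℓ)ˣ := ZMod.unitOfCoprime q hcop with huq
  have huqv : ((uq : (ZMod ℓ)ˣ) : ZMod ℓ) = (q : ZMod ℓ) := ZMod.coe_unitOfCoprime q hcop
  have hu : uq ∉ (powMonoidHom p : (ZMod ℓ)ˣ →* (ZMod ℓ)ˣ).range := by
    rintro ⟨y, hy⟩
    apply hnp ((y : (ZMod ℓ)ˣ) : ZMod ℓ)
    change y ^ p = uq at hy
    rw [← huqv, ← hy, Units.val_pow_eq_pow_val]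
  apply h10r_eq_of_GK_eq
  ext h
  have e1 : h ∈ GK (gLocField q 1 (recField ℓ p)) ↔
      localGaloisToGlobal q h ∈ GU (recField ℓ p) := by
    rw [← h3g_gConj_mem_iff q 1 (recField ℓ p) h]
    unfold gConj
    rw [inv_one, one_mul, mul_one]
  rw [e1, hGU p ℓ ⟨m, hm⟩]
  have e2 : cycloChar ℓ (localGaloisToGlobal q h) =
      uq ^ cycIdx (Kur (⊥ : LF q) (ℓ - 1)) (frobQ q) (ℓ - 1) h := by
    apply Units.ext
    rw [h10r_cycloChar_local hqℓ h, Units.val_pow_eq_pow_val, huqv]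
  change cycloChar ℓ (localGaloisToGlobal q h) ∈ (powMonoidHom p : (ZMod ℓ)ˣ →* (ZMod ℓ)ˣ).range ↔
    h ∈ GK (Kur (⊥ : LF q) p)
  rw [e2, h10r_pow_mem_range_iff hp hu, h10r_mem_GK_Kur_iff hp.pos hm0 h, ← hm]

/-- **(REC-INERT)** from `RecCyclo`. -/
theorem h10r_recInert_of (hcyc : RecCyclo) : RecInert :=
  h10r_recInert fun p ℓ _ _ h => (hcyc p ℓ h).1

end Fermat.Agent.PT.Glob
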