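import Fermat.Agent.PT.Glob.Rec.Iface
import Fermat.Agent.PT.Glob.Dict.H10Emb
import Fermat.Agent.PT.Bridge.Levels

/-!
# W3-PT / PT-GLOB-REC, leaf REC-ELLNORM (helper22): `RecEllNorm`

`ℓ` is the norm from `Q' = recField ℓ p` of `β = ∏_{u ∈ P} (1 - ξ^u)`, where `ξ` is a primitive
`ℓ`-th root of unity and `P` the subgroup of `p`-th powers of `(ℤ/ℓ)ˣ`; all conjugates of `β`
have the same `ℓ`-adic absolute value.

* `h22r_e ξ u = 1 - ξ ^ u`, `h22r_gal_e : g (e u) = e (χ_ℓ(g) u)`;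
* `h22r_prod_all : ∏_{w ∈ (ℤ/ℓ)ˣ} e w = ℓ`;
* `h22r_coset_bij` : for `c ∉ P` the map `(i, u) ↦ c^i u`, `Fin p × P → G`, is bijective
  (`G` finite cyclic);
* `h22r_norm_e_eq` : `‖ι (e w)‖ = ‖ι (e w')‖`;
* `h22r_recEllNorm : RecEllNorm`.
-/

set_option autoImplicit false
set_option linter.style.haveILetI false

open scoped Classical

noncomputable section

namespace Fermat.Agent.PT.Glob

open Fermat.Agent.Bridge ExtCitation

/-! ## Cosets of the `p`-th powers in a finite cyclic group -/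

section cosets

variable {G : Type*} [CommGroup G]

/-- The order of the class of `c ∉ G^p` in `G / G^p` is `p`. -/
theorem h22r_orderOf_mk {p : ℕ} (hp : p.Prime) {c : G}
    (hc : c ∉ (powMonoidHom p : G →* G).range) :
    orderOf (QuotientGroup.mk c : G ⧸ (powMonoidHom p : G →* G).range) = p := by
  have h1 : (QuotientGroup.mk c : G ⧸ (powMonoidHom p : G →* G).range) ^ p = 1 := by
    rw [← QuotientGroup.mk_pow, QuotientGroup.eq_one_iff]
    exact ⟨c, rfl⟩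
  have h2 : orderOf (QuotientGroup.mk c : G ⧸ (powMonoidHom p : G →* G).range) ∣ p :=
    orderOf_dvd_of_pow_eq_one h1
  rcases (Nat.dvd_prime hp).1 h2 with h | h
  · exfalso
    rw [orderOf_eq_one_iff, QuotientGroup.eq_one_iff] at h
    exact hc h
  · exact h

/-- For `c ∉ G^p`, the map `(i, u) ↦ c ^ i * u` is injective on `Fin p × G^p`. -/
theorem h22r_coset_inj {p : ℕ} (hp : p.Prime) {c : G}
    (hc : c ∉ (powMonoidHom p : G →* G).range) :
    Function.Injective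
      (fun x : Fin p × (powMonoidHom p : G →* G).range => c ^ (x.1 : ℕ) * (x.2 : G)) := by
  rintro ⟨i, u⟩ ⟨j, u'⟩ h
  simp only at h
  have hq : (QuotientGroup.mk c : G ⧸ (powMonoidHom p : G →* G).range) ^ (i : ℕ)
      = (QuotientGroup.mk c : G ⧸ (powMonoidHom p : G →* G).range) ^ (j : ℕ) := by
    have h1 : (QuotientGroup.mk (c ^ (i : ℕ) * (u : G)) :
        G ⧸ (powMonoidHom p : G →* G).range) = QuotientGroup.mk (c ^ (j : ℕ) * (u' : G)) := by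
      rw [h]
    rw [QuotientGroup.mk_mul, QuotientGroup.mk_mul, QuotientGroup.mk_pow, QuotientGroup.mk_pow,
      (QuotientGroup.eq_one_iff (u : G)).2 u.2, (QuotientGroup.eq_one_iff (u' : G)).2 u'.2,
      mul_one, mul_one] at h1
    exact h1
  rw [pow_eq_pow_iff_modEq, h22r_orderOf_mk hp hc] at hq
  have hij : (i : ℕ) = (j : ℕ) := Nat.ModEq.eq_of_lt_of_lt hq i.2 j.2
  have hij' : i = j := Fin.ext hij
  subst hij'
  have hu : (u : G) = (u' : G) := mul_left_cancel h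
  have hu' : u = u' := Subtype.ext hu
  rw [hu']

/-- For `c ∉ G^p` in a finite cyclic group, `(i, u) ↦ c ^ i * u` is a bijection
`Fin p × G^p → G`. -/
theorem h22r_coset_bij [Fintype G] [IsCyclic G] {p : ℕ} (hp : p.Prime)
    [Fintype (powMonoidHom p : G →* G).range] {c : G}
    (hc : c ∉ (powMonoidHom p : G →* G).range) :
    Function.Bijective
      (fun x : Fin p × (powMonoidHom p : G →* G).range => c ^ (x.1 : ℕ) * (x.2 : G)) := by
  have hinj := h22r_coset_inj hp hc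
  rw [Fintype.bijective_iff_injective_and_card]
  refine ⟨hinj, le_antisymm (Fintype.card_le_of_injective _ hinj) ?_⟩
  have h1 : Nat.card (powMonoidHom p : G →* G).range * (powMonoidHom p : G →* G).range.index
      = Nat.card G := Subgroup.card_mul_index _
  have h2 : (powMonoidHom p : G →* G).range.index ≤ p := by
    rw [IsCyclic.index_powMonoidHom_range]
    exact Nat.le_of_dvd hp.pos (Nat.gcd_dvd_right _ _)
  rw [Fintype.card_prod, Fintype.card_fin, ← Nat.card_eq_fintype_card (α := G), ← h1,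
    ← Nat.card_eq_fintype_card, mul_comm]
  exact Nat.mul_le_mul_right _ h2

/-- The product over `G` decomposes along the cosets `c ^ i * G^p`, `i < p`. -/
theorem h22r_prod_cosets [Fintype G] [IsCyclic G] {p : ℕ} (hp : p.Prime)
    [Fintype (powMonoidHom p : G →* G).range] {c : G}
    (hc : c ∉ (powMonoidHom p : G →* G).range) {M : Type*} [CommMonoid M] (F : G → M) :
    ∏ i ∈ Finset.range p, ∏ u : (powMonoidHom p : G →* G).range, F (c ^ i * (u : G))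
      = ∏ w : G, F w := by
  rw [Finset.prod_range (fun i => ∏ u : (powMonoidHom p : G →* G).range, F (c ^ i * (u : G)))]
  rw [← Fintype.prod_prod_type'
    (f := fun (i : Fin p) (u : (powMonoidHom p : G →* G).range) => F (c ^ (i : ℕ) * (u : G)))]
  exact Fintype.prod_bijective _ (h22r_coset_bij hp hc) _ _ (fun _ => rfl)

end cosets

/-! ## The cyclotomic units `1 - ξ ^ u` -/

section units

variable {ℓ : ℕ} [Fact ℓ.Prime]

/-- `e(u) = 1 - ξ ^ u`. -/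
def h22r_e (ξ : Qb) (u : (ZMod ℓ)ˣ) : Qb := 1 - ξ ^ ((u : (ZMod ℓ)ˣ) : ZMod ℓ).val

theorem h22r_pow_val_mul {ξ : Qb} (hξ : ξ ^ ℓ = 1) (a b : ZMod ℓ) :
    ξ ^ (a * b).val = (ξ ^ a.val) ^ b.val := by
  rw [← pow_mul, ZMod.val_mul, ← pow_eq_pow_mod _ hξ]

theorem h22r_gal_e {ξ : Qb} (hξ : ξ ^ ℓ = 1) (g : GQ) (u : (ZMod ℓ)ˣ) :
    g (h22r_e ξ u) = h22r_e ξ (cycloChar ℓ g * u) := by
  unfold h22r_e
  rw [map_sub, map_one, map_pow, Fermat.Agent.PT.pt79_cycloChar_spec ℓ g ξ hξ, Units.val_mul,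
    h22r_pow_val_mul hξ]

theorem h22r_val_pos (u : (ZMod ℓ)ˣ) : 0 < ((u : (ZMod ℓ)ˣ) : ZMod ℓ).val := by
  rw [Nat.pos_iff_ne_zero]
  intro h
  have hℓ : ℓ.Prime := Fact.out
  haveI : NeZero ℓ := ⟨hℓ.ne_zero⟩
  have h0 : ((u : (ZMod ℓ)ˣ) : ZMod ℓ) = 0 := (ZMod.val_eq_zero _).1 h
  exact u.ne_zero h0

theorem h22r_val_lt (u : (ZMod ℓ)ˣ) : ((u : (ZMod ℓ)ˣ) : ZMod ℓ).val < ℓ := by
  have hℓ : ℓ.Prime := Fact.out
  haveI : NeZero ℓ := ⟨hℓ.ne_zero⟩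
  exact ZMod.val_lt _

theorem h22r_e_ne_zero {ξ : Qb} (hξ : IsPrimitiveRoot ξ ℓ) (u : (ZMod ℓ)ˣ) :
    h22r_e ξ u ≠ 0 := by
  unfold h22r_e
  rw [sub_ne_zero]
  exact fun h => hξ.pow_ne_one_of_pos_of_lt (h22r_val_pos u).ne' (h22r_val_lt u) h.symm

/-- `∏_{w ∈ (ℤ/ℓ)ˣ} (1 - ξ^w) = ℓ`. -/
theorem h22r_prod_all {ξ : Qb} (hξ : IsPrimitiveRoot ξ ℓ) :
    ∏ w : (ZMod ℓ)ˣ, h22r_e ξ w = ((ℓ : ℕ) : Qb) := by
  have hℓ : ℓ.Prime := Fact.out
  haveI : NeZero ℓ := ⟨hℓ.ne_zero⟩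
  have hℓ1 : ℓ - 1 + 1 = ℓ := Nat.succ_pred_eq_of_pos hℓ.pos
  have hξ' : IsPrimitiveRoot ξ (ℓ - 1 + 1) := by rw [hℓ1]; exact hξ
  have h1 := hξ'.prod_one_sub_pow_eq_order
  have h2 : ((ℓ : ℕ) : Qb) = ((ℓ - 1 : ℕ) : Qb) + 1 := by
    rw [← Nat.cast_one (R := Qb), ← Nat.cast_add, hℓ1]
  rw [h2, ← h1]
  refine Finset.prod_bij' (fun w _ => ((w : (ZMod ℓ)ˣ) : ZMod ℓ).val - 1)
    (fun k hk => ZMod.unitOfCoprime (k + 1) ?_) ?_ ?_ ?_ ?_ ?_
  · rw [Finset.mem_range] at hk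
    exact ((Nat.Prime.coprime_iff_not_dvd hℓ).2
      (Nat.not_dvd_of_pos_of_lt (Nat.succ_pos k) (by omega))).symm
  · intro w _
    rw [Finset.mem_range]
    have := h22r_val_pos w
    have := h22r_val_lt w
    omega
  · intro k hk
    exact Finset.mem_univ _
  · intro w _
    apply Units.ext
    rw [ZMod.coe_unitOfCoprime]
    have := h22r_val_pos w
    rw [Nat.sub_add_cancel this, ZMod.natCast_zmod_val]
  · intro k hk
    rw [Finset.mem_range] at hk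
    simp only [ZMod.coe_unitOfCoprime]
    rw [ZMod.val_natCast, Nat.mod_eq_of_lt (by omega)]
    rfl
  · intro w _
    unfold h22r_e
    have := h22r_val_pos w
    rw [Nat.sub_add_cancel this]

/-- `‖ι (e w)‖ ≤ ‖ι (e w')‖`. -/
theorem h22r_norm_e_le {ξ : Qb} (hξ : IsPrimitiveRoot ξ ℓ) (w w' : (ZMod ℓ)ˣ) :
    ‖padicEmbedding ℓ (h22r_e ξ w)‖ ≤ ‖padicEmbedding ℓ (h22r_e ξ w')‖ := by
  have hℓ : ℓ.Prime := Fact.out
  have hξi : IsIntegral ℤ ξ := hξ.isIntegral hℓ.pos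
  set k : ℕ := (((w'⁻¹ * w : (ZMod ℓ)ˣ) : (ZMod ℓ)ˣ) : ZMod ℓ).val with hk
  set η : Qb := ξ ^ ((w' : (ZMod ℓ)ˣ) : ZMod ℓ).val with hη
  have h1 : h22r_e ξ w = h22r_e ξ w' * ∑ j ∈ Finset.range k, η ^ j := by
    have hw : w = w' * (w'⁻¹ * w) := by rw [mul_inv_cancel_left]
    have h2 : h22r_e ξ w = 1 - η ^ k := by
      conv_lhs => rw [hw]
      unfold h22r_e
      rw [Units.val_mul, h22r_pow_val_mul hξ.pow_eq_one]
    rw [h2]
    unfold h22r_e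
    rw [← hη, mul_neg_geom_sum]
  have hS : IsIntegral ℤ (∑ j ∈ Finset.range k, η ^ j) :=
    IsIntegral.sum _ (fun j _ => (hξi.pow _).pow _)
  have hS' : ‖padicEmbedding ℓ (∑ j ∈ Finset.range k, η ^ j)‖ ≤ 1 :=
    h10d_norm_le_one_of_isIntegral (map_isIntegral_int (padicEmbedding ℓ) hS)
  rw [h1, map_mul, norm_mul]
  exact mul_le_of_le_one_right (norm_nonneg _) hS'

theorem h22r_norm_e_eq {ξ : Qb} (hξ : IsPrimitiveRoot ξ ℓ) (w w' : (ZMod ℓ)ˣ) :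
    ‖padicEmbedding ℓ (h22r_e ξ w)‖ = ‖padicEmbedding ℓ (h22r_e ξ w')‖ :=
  le_antisymm (h22r_norm_e_le hξ w w') (h22r_norm_e_le hξ w' w)

end units

/-! ## The leaf -/

/-- **REC-ELLNORM.** -/
theorem h22r_recEllNorm : RecEllNorm := by
  intro p ℓ _ _ _ σ hσ
  have hp : p.Prime := Fact.out
  have hℓ : ℓ.Prime := Fact.out
  obtain ⟨ξ, hξ⟩ := Fermat.Agent.PT.pt79_exists_primitiveRoot ℓ
  have hξ1 : ξ ^ ℓ = 1 := hξ.pow_eq_one
  have hc : cycloChar ℓ σ ∉ (powMonoidHom p : (ZMod ℓ)ˣ →* (ZMod ℓ)ˣ).range := hσ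
  -- the Galois action on the partial product
  have hgal : ∀ g : GQ,
      g (∏ u : (powMonoidHom p : (ZMod ℓ)ˣ →* (ZMod ℓ)ˣ).range, h22r_e ξ (u : (ZMod ℓ)ˣ))
        = ∏ u : (powMonoidHom p : (ZMod ℓ)ˣ →* (ZMod ℓ)ˣ).range,
            h22r_e ξ (cycloChar ℓ g * (u : (ZMod ℓ)ˣ)) := by
    intro g
    rw [map_prod]
    exact Finset.prod_congr rfl (fun u _ => h22r_gal_e hξ1 g u)
  refine ⟨∏ u : (powMonoidHom p : (ZMod ℓ)ˣ →* (ZMod ℓ)ˣ).range, h22r_e ξ (u : (ZMod ℓ)ˣ),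
    ?_, ?_, ?_, ?_⟩
  · -- membership in the fixed field
    unfold recField
    rw [IntermediateField.mem_fixedField_iff]
    intro g hg
    have hg' : cycloChar ℓ g ∈ (powMonoidHom p : (ZMod ℓ)ˣ →* (ZMod ℓ)ˣ).range := hg
    rw [hgal g]
    exact Fintype.prod_equiv (Equiv.mulLeft (⟨cycloChar ℓ g, hg'⟩ :
      (powMonoidHom p : (ZMod ℓ)ˣ →* (ZMod ℓ)ˣ).range)) _ _ (fun u => rfl)
  · rw [Finset.prod_ne_zero_iff]
    exact fun u _ => h22r_e_ne_zero hξ _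
  · unfold gnormAlong
    have h1 : ∀ i ∈ Finset.range p,
        (σ ^ i) (∏ u : (powMonoidHom p : (ZMod ℓ)ˣ →* (ZMod ℓ)ˣ).range,
          h22r_e ξ (u : (ZMod ℓ)ˣ))
        = ∏ u : (powMonoidHom p : (ZMod ℓ)ˣ →* (ZMod ℓ)ˣ).range,
            h22r_e ξ ((cycloChar ℓ σ) ^ i * (u : (ZMod ℓ)ˣ)) := by
      intro i _
      rw [hgal (σ ^ i), map_pow]
    rw [Finset.prod_congr rfl h1, h22r_prod_cosets hp hc (h22r_e ξ), h22r_prod_all hξ]
  · intro g
    rw [hgal g, map_prod, map_prod, norm_prod, norm_prod]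
    exact Finset.prod_congr rfl (fun u _ => h22r_norm_e_eq hξ _ _)

end Fermat.Agent.PT.Glob
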