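import Mathlib
import Fermat.Agent.PT.Glob.Rec.Iface
import Fermat.Agent.PT.Loc.H90Final

/-!
# W3-PT / PT-GLOB-REC, leaf REC-TAMELOC (helper25)

`h25r_recTameLoc : RecTameLoc` : if `ℓ` and `B ∈ ℚˣ` are norms from a cyclic extension `K₁` of
degree `p` of `ℚ_ℓ`, then the `ℓ`-unit part of `B` is a `p`-th power modulo `ℓ`.

Proof.  By the dichotomy `NIDich`, `K₁` is unramified (impossible: `‖ℓ‖ = ‖β₀‖ ^ p` with `‖β₀‖`
in the value group of `ℚ_ℓ`) or totally ramified (`resCard K₁ = resCard ⊥`, so the Teichmüller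
representatives of `K₁` lie in `ℚ_ℓ`).  With `N β₀ = ℓ`, `N β = B`, `a = v_ℓ(B)` the element
`u = β / β₀ ^ a` is a unit of `K₁` of norm `N u = B / ℓ ^ a`; `u ≡ w` modulo the maximal ideal
for a Teichmüller representative `w ∈ ℚ_ℓ`, hence `N u ≡ w ^ p`.
-/

set_option autoImplicit false
set_option linter.style.haveILetI false
set_option linter.unusedSectionVars false

open scoped Classical

noncomputable section

namespace Fermat.Agent.PT.Glob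

open Fermat.Agent.PT

variable {ℓ : ℕ} [Fact ℓ.Prime]

/-! ## The norm along `τ` -/

theorem h25r_normAlong_ne_zero (τ : Loc.Gq ℓ) (n : ℕ) {x : Loc.Om ℓ} (hx : x ≠ 0) :
    Loc.normAlong τ n x ≠ 0 := by
  unfold Loc.normAlong
  refine Finset.prod_ne_zero_iff.2 fun i _ => ?_
  exact (map_ne_zero_iff _ (τ ^ i).injective).2 hx

theorem h25r_normAlong_div (τ : Loc.Gq ℓ) (n : ℕ) (x y : Loc.Om ℓ) :
    Loc.normAlong τ n (x / y) = Loc.normAlong τ n x / Loc.normAlong τ n y := by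
  unfold Loc.normAlong
  rw [← Finset.prod_div_distrib]
  exact Finset.prod_congr rfl fun i _ => map_div₀ _ _ _

theorem h25r_normAlong_zpow (τ : Loc.Gq ℓ) (n : ℕ) (x : Loc.Om ℓ) (a : ℤ) :
    Loc.normAlong τ n (x ^ a) = Loc.normAlong τ n x ^ a := by
  unfold Loc.normAlong
  rw [← Finset.prod_zpow]
  exact Finset.prod_congr rfl fun i _ => map_zpow₀ _ _ _

theorem h25r_norm_map (g : Loc.Gq ℓ) (x : Loc.Om ℓ) : ‖g x‖ = ‖x‖ := by
  have h := nnnorm_padicAlgCl_algEquiv ℓ g x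
  exact congrArg NNReal.toReal h

theorem h25r_norm_normAlong (τ : Loc.Gq ℓ) (n : ℕ) (x : Loc.Om ℓ) :
    ‖Loc.normAlong τ n x‖ = ‖x‖ ^ n := by
  unfold Loc.normAlong
  rw [norm_prod]
  simp only [h25r_norm_map, Finset.prod_const, Finset.card_range]

/-- The norm of a unit congruent to a fixed element `w` is congruent to `w ^ n`. -/
theorem h25r_normAlong_congr (τ : Loc.Gq ℓ) (n : ℕ) {u w : Loc.Om ℓ}
    (hw : ∀ i : ℕ, (τ ^ i) w = w) (hw1 : ‖w‖ ≤ 1) (huw : ‖u - w‖ < 1) :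
    ‖Loc.normAlong τ n u - w ^ n‖ < 1 := by
  have hu1 : ‖u‖ ≤ 1 := by
    have h : u = (u - w) + w := by ring
    rw [h]
    exact (IsUltrametricDist.norm_add_le_max _ _).trans (max_le huw.le hw1)
  induction n with
  | zero => simp [Loc.normAlong]
  | succ n ih =>
    have hsplit : Loc.normAlong τ (n + 1) u - w ^ (n + 1)
        = (Loc.normAlong τ n u - w ^ n) * (τ ^ n) u + w ^ n * ((τ ^ n) u - w) := by
      unfold Loc.normAlong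
      rw [Finset.prod_range_succ]
      ring
    rw [hsplit]
    have h1 : ‖(Loc.normAlong τ n u - w ^ n) * (τ ^ n) u‖ < 1 := by
      rw [norm_mul, h25r_norm_map]
      calc ‖Loc.normAlong τ n u - w ^ n‖ * ‖u‖
          ≤ ‖Loc.normAlong τ n u - w ^ n‖ * 1 :=
            mul_le_mul_of_nonneg_left hu1 (norm_nonneg _)
        _ < 1 := by rw [mul_one]; exact ih
    have h2 : ‖w ^ n * ((τ ^ n) u - w)‖ < 1 := by
      have hτ : (τ ^ n) u - w = (τ ^ n) (u - w) := by rw [map_sub, hw n]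
      rw [norm_mul, hτ, h25r_norm_map, norm_pow]
      calc ‖w‖ ^ n * ‖u - w‖ ≤ 1 * ‖u - w‖ :=
            mul_le_mul_of_nonneg_right (pow_le_one₀ (norm_nonneg _) hw1) (norm_nonneg _)
        _ < 1 := by rw [one_mul]; exact huw
    exact (IsUltrametricDist.norm_add_le_max _ _).trans_lt (max_lt h1 h2)

/-! ## Norms of rational numbers in `Om ℓ` -/

theorem h25r_ratCast_eq (B : ℚ) :
    ((B : ℚ) : Loc.Om ℓ) = algebraMap ℚ_[ℓ] (Loc.Om ℓ) ((B : ℚ) : ℚ_[ℓ]) :=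
  (map_ratCast (algebraMap ℚ_[ℓ] (Loc.Om ℓ)) B).symm

theorem h25r_natCast_eq (n : ℕ) :
    ((n : ℕ) : Loc.Om ℓ) = algebraMap ℚ_[ℓ] (Loc.Om ℓ) ((n : ℕ) : ℚ_[ℓ]) :=
  (map_natCast (algebraMap ℚ_[ℓ] (Loc.Om ℓ)) n).symm

theorem h25r_norm_algebraMap (x : ℚ_[ℓ]) : ‖algebraMap ℚ_[ℓ] (Loc.Om ℓ) x‖ = ‖x‖ :=
  PadicAlgCl.norm_extends ℓ x

theorem h25r_norm_ell : ‖((ℓ : ℕ) : Loc.Om ℓ)‖ = ((ℓ : ℕ) : ℝ)⁻¹ := by
  rw [h25r_natCast_eq, h25r_norm_algebraMap]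
  exact Padic.norm_p

theorem h25r_norm_ratCast {B : ℚ} (hB : B ≠ 0) :
    ‖((B : ℚ) : Loc.Om ℓ)‖ = ((ℓ : ℕ) : ℝ) ^ (-padicValRat ℓ B) := by
  rw [h25r_ratCast_eq, h25r_norm_algebraMap, Padic.eq_padicNorm,
    padicNorm.eq_zpow_of_nonzero hB]
  push_cast
  rfl

/-! ## Teichmüller representatives of a totally ramified extension -/

theorem h25r_muPrime_mono {K K₁ : Loc.LF ℓ} (h : K ≤ K₁) : Loc.muPrime K ⊆ Loc.muPrime K₁ :=
  fun _ hw => ⟨h hw.1, hw.2⟩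

theorem h25r_muPrime_eq {K K₁ : Loc.LF ℓ} (h : K ≤ K₁) (hfin : (Loc.muPrime K₁).Finite)
    (hres : Loc.resCard K₁ = Loc.resCard K) : Loc.muPrime K = Loc.muPrime K₁ := by
  refine Set.eq_of_subset_of_ncard_le (h25r_muPrime_mono h) ?_ hfin
  have h1 : Nat.card (Loc.muPrime K₁) = Nat.card (Loc.muPrime K) := by
    unfold Loc.resCard at hres
    omega
  rw [← Nat.card_coe_set_eq, ← Nat.card_coe_set_eq, h1]

/-! ## Reduction modulo `ℓ` -/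

/-- If the rational number `U` is congruent to `w₀ ^ p` modulo the maximal ideal of `ℤ_ℓ`
(`w₀ ∈ ℤ_ℓ`), then `x ^ p * den U = num U` in `ZMod ℓ` for `x = w₀ mod ℓ`. -/
theorem h25r_isPow_of_close (p : ℕ) (U : ℚ) (w₀ : ℚ_[ℓ]) (hw₀ : ‖w₀‖ ≤ 1)
    (h : ‖((U : ℚ) : ℚ_[ℓ]) - w₀ ^ p‖ < 1) :
    ∃ x : ZMod ℓ, x ^ p * ((U.den : ℕ) : ZMod ℓ) = ((U.num : ℤ) : ZMod ℓ) := by
  set W : ℤ_[ℓ] := ⟨w₀, hw₀⟩ with hW
  set z : ℤ_[ℓ] := ((U.num : ℤ) : ℤ_[ℓ]) - ((U.den : ℕ) : ℤ_[ℓ]) * W ^ p with hz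
  have hden0 : ((U.den : ℕ) : ℚ_[ℓ]) ≠ 0 := by
    exact_mod_cast U.den_nz
  have hUeq : ((U : ℚ) : ℚ_[ℓ]) = ((U.num : ℤ) : ℚ_[ℓ]) / ((U.den : ℕ) : ℚ_[ℓ]) := by
    conv_lhs => rw [← Rat.num_div_den U]
    push_cast
    rfl
  have hzval : (z : ℚ_[ℓ]) = ((U.den : ℕ) : ℚ_[ℓ]) * (((U : ℚ) : ℚ_[ℓ]) - w₀ ^ p) := by
    rw [hz, hUeq]
    push_cast
    rw [hW]
    field_simp
  have hdenle : ‖((U.den : ℕ) : ℚ_[ℓ])‖ ≤ 1 := by
    have := PadicInt.norm_le_one ((U.den : ℕ) : ℤ_[ℓ])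
    rwa [PadicInt.norm_def, PadicInt.coe_natCast] at this
  have hzlt : ‖z‖ < 1 := by
    rw [PadicInt.norm_def, hzval, norm_mul]
    calc ‖((U.den : ℕ) : ℚ_[ℓ])‖ * ‖((U : ℚ) : ℚ_[ℓ]) - w₀ ^ p‖
        ≤ 1 * ‖((U : ℚ) : ℚ_[ℓ]) - w₀ ^ p‖ :=
          mul_le_mul_of_nonneg_right hdenle (norm_nonneg _)
      _ < 1 := by rw [one_mul]; exact h
  have hzker : PadicInt.toZMod z = 0 := by
    have hmem : z ∈ IsLocalRing.maximalIdeal ℤ_[ℓ] := by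
      rw [IsLocalRing.mem_maximalIdeal, PadicInt.mem_nonunits]
      exact hzlt
    rw [← PadicInt.ker_toZMod] at hmem
    exact (RingHom.mem_ker).1 hmem
  refine ⟨PadicInt.toZMod W, ?_⟩
  have h2 : PadicInt.toZMod z
      = ((U.num : ℤ) : ZMod ℓ) - ((U.den : ℕ) : ZMod ℓ) * PadicInt.toZMod W ^ p := by
    rw [hz, map_sub, map_mul, map_pow, map_intCast, map_natCast]
  rw [hzker] at h2
  have h3 := sub_eq_zero.1 h2.symm
  rw [h3]
  ring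

/-! ## The theorem -/

/-- REC-TAMELOC. -/
theorem h25r_recTameLoc : RecTameLoc := by
  intro ℓ _ p _ K₁ τ hcyc hℓ B hB0 hB
  haveI : FiniteDimensional ℚ_[ℓ] K₁ := hcyc.fin
  have hp2 : 2 ≤ p := (Fact.out : p.Prime).two_le
  have hℓ1 : (1 : ℝ) < ((ℓ : ℕ) : ℝ) := by
    exact_mod_cast (Fact.out : ℓ.Prime).one_lt
  have hℓpos : (0 : ℝ) < ((ℓ : ℕ) : ℝ) := by linarith
  obtain ⟨β₀, hβ₀K, hβ₀0, hNβ₀⟩ := hℓ
  obtain ⟨β, hβK, hβ0, hNβ⟩ := hB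
  -- norms
  have hnβ₀ : ‖β₀‖ ^ p = ((ℓ : ℕ) : ℝ)⁻¹ := by
    rw [← h25r_norm_normAlong τ p β₀, hNβ₀, h25r_norm_ell]
  have hnβ : ‖β‖ ^ p = ((ℓ : ℕ) : ℝ) ^ (-padicValRat ℓ B) := by
    rw [← h25r_norm_normAlong τ p β, hNβ, h25r_norm_ratCast hB0]
  -- dichotomy
  rcases Loc.h90l_niDich ℓ p (⊥ : Loc.LF ℓ) K₁ τ hcyc with hur | ⟨hres, -⟩
  · -- unramified: impossible
    exfalso
    obtain ⟨-, hval, -⟩ := Loc.h90l_urVal ℓ (⊥ : Loc.LF ℓ) p (by omega)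
    obtain ⟨y, hy, hyn⟩ := hval β₀ (hur ▸ hβ₀K)
    obtain ⟨y₀, rfl⟩ := IntermediateField.mem_bot.1 hy
    have hy₀0 : y₀ ≠ 0 := by
      rintro rfl
      rw [map_zero, norm_zero, norm_eq_zero] at hyn
      exact hβ₀0 hyn
    rw [h25r_norm_algebraMap, Padic.norm_eq_zpow_neg_valuation hy₀0] at hyn
    rw [hyn, ← zpow_natCast, ← zpow_mul, ← zpow_neg_one] at hnβ₀
    have hinj := zpow_right_injective₀ hℓpos hℓ1.ne' hnβ₀
    have h1 : y₀.valuation * (p : ℤ) = 1 := by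
      have : -y₀.valuation * (p : ℤ) = -1 := hinj
      linarith
    have h2 : ((p : ℤ)) ∣ 1 := Dvd.intro_left _ h1
    have h3 : (p : ℤ) ≤ 1 := Int.le_of_dvd one_pos h2
    omega
  · -- totally ramified
    obtain ⟨hfin, -, -, hteich, -⟩ := Loc.h34lf_lfTeich ℓ K₁
    have hmu : Loc.muPrime (⊥ : Loc.LF ℓ) = Loc.muPrime K₁ :=
      h25r_muPrime_eq hcyc.le hfin hres
    set a : ℤ := padicValRat ℓ B with ha
    set u : Loc.Om ℓ := β / β₀ ^ a with hu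
    have huK : u ∈ K₁ := div_mem hβK (zpow_mem hβ₀K a)
    have hNu : Loc.normAlong τ p u = (((recUnitPart ℓ B : ℚ)) : Loc.Om ℓ) := by
      rw [hu, h25r_normAlong_div, h25r_normAlong_zpow, hNβ, hNβ₀]
      unfold recUnitPart
      push_cast
      rfl
    have hβ₀pos : 0 < ‖β₀‖ := norm_pos_iff.2 hβ₀0
    have hun : ‖u‖ = 1 := by
      have hup : ‖u‖ ^ p = 1 := by
        rw [hu, norm_div, norm_zpow, div_pow, hnβ, ← zpow_natCast (‖β₀‖ ^ a) p, ← zpow_mul,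
          mul_comm a (p : ℤ), zpow_mul, zpow_natCast, hnβ₀, inv_zpow']
        exact div_self (zpow_ne_zero _ hℓpos.ne')
      exact (pow_eq_one_iff_of_nonneg (norm_nonneg _) (by omega)).1 hup
    obtain ⟨w, hwmu, hwu⟩ := hteich u huK hun
    have hwbot : w ∈ (⊥ : Loc.LF ℓ) := (hmu ▸ hwmu : w ∈ Loc.muPrime (⊥ : Loc.LF ℓ)).1
    obtain ⟨w₀, rfl⟩ := IntermediateField.mem_bot.1 hwbot
    have hw1 : ‖algebraMap ℚ_[ℓ] (Loc.Om ℓ) w₀‖ ≤ 1 := by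
      have h : algebraMap ℚ_[ℓ] (Loc.Om ℓ) w₀
          = u + -(u - algebraMap ℚ_[ℓ] (Loc.Om ℓ) w₀) := by ring
      rw [h]
      refine (IsUltrametricDist.norm_add_le_max _ _).trans (max_le hun.le ?_)
      rw [norm_neg]
      exact hwu.le
    have hfix : ∀ i : ℕ, (τ ^ i) (algebraMap ℚ_[ℓ] (Loc.Om ℓ) w₀)
        = algebraMap ℚ_[ℓ] (Loc.Om ℓ) w₀ := fun i => (τ ^ i).commutes w₀
    have hclose := h25r_normAlong_congr τ p hfix hw1 hwu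
    rw [hNu, h25r_ratCast_eq, ← map_pow, ← map_sub, h25r_norm_algebraMap] at hclose
    rw [h25r_norm_algebraMap] at hw1
    exact h25r_isPow_of_close p (recUnitPart ℓ B) w₀ hw1 hclose

end Fermat.Agent.PT.Glob
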