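import Mathlib
import Fermat.Agent.PT.Glob.Rec.Iface
import Fermat.Agent.PT.Loc.H6ChiZeta

/-!
# W3-PT / PT-GLOB-REC, leaf REC-ZETA (helper52): `RecZetaOK`

The coherent primitive `p`-th root of unity `Loc.zetaG p` of `ℚ̄`: it is primitive, `recZeta p` is
`Loc.zetaG p` as a unit, `G_ℚ` acts on it through the mod `p` cyclotomic character `recChi p`,
and its localisation at the place `(q, 1)` is `Loc.zetaU p q`.

* `h52r_recZeta_val` : `((recZeta p : Qbˣ) : Qb) = Loc.zetaG p` (`p ≠ 0`);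
* `h52r_smul_recZeta` : `g • recZeta p = recZeta p ^ (recChi p g).val`;
* `h52r_gLocUnit_recZeta` : `gLocUnit q 1 (recZeta p) = Loc.zetaU p q`;
* `h52r_recZetaOK : RecZetaOK`.
-/

set_option autoImplicit false

open scoped Classical

noncomputable section

namespace Fermat.Agent.PT.Glob

open Fermat.Agent.Bridge ExtCitation

/-- `recZeta p` is `Loc.zetaG p`. -/
theorem h52r_recZeta_val (p : ℕ) (hp : p ≠ 0) : ((recZeta p : Qbˣ) : Qb) = Loc.zetaG p := by
  have hne : Loc.zetaG p ≠ 0 := (Loc.h6z_zetaG_primitive p hp).ne_zero hp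
  unfold recZeta
  rw [dif_neg hne]
  rfl

/-- `G_ℚ` acts on `recZeta p` through the mod `p` cyclotomic character. -/
theorem h52r_smul_recZeta (p : ℕ) [Fact p.Prime] (g : GQ) :
    g • recZeta p = recZeta p ^ (recChi p g).val := by
  have hp : p ≠ 0 := (Fact.out : p.Prime).ne_zero
  apply Units.ext
  rw [Units.val_pow_eq_pow_val, h52r_recZeta_val p hp, AlgEquiv.smul_units_def, Units.coe_map]
  show g ((recZeta p : Qbˣ) : Qb) = _
  rw [h52r_recZeta_val p hp]
  exact Loc.h6z_cycloChar_spec p g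

/-- the localisation of `recZeta p` at the place `(q, 1)` is `Loc.zetaU p q`. -/
theorem h52r_gLocUnit_recZeta (p : ℕ) (hp : p ≠ 0) (q : ℕ) [Fact q.Prime] :
    gLocUnit q 1 (recZeta p) = Loc.zetaU p q := by
  apply Units.ext
  rw [Loc.h6z_zetaU_val p q hp]
  show padicEmbedding q ((1 : GQ) ((recZeta p : Qbˣ) : Qb)) = Loc.zetaL p q
  rw [h52r_recZeta_val p hp]
  rfl

/-- **REC-ZETA**. -/
theorem h52r_recZetaOK : RecZetaOK := by
  intro p _
  have hp : p ≠ 0 := (Fact.out : p.Prime).ne_zero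
  exact ⟨Loc.h6z_zetaG_primitive p hp, h52r_recZeta_val p hp, h52r_smul_recZeta p,
    fun q _ => h52r_gLocUnit_recZeta p hp q⟩

end Fermat.Agent.PT.Glob
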