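import Mathlib
import Fermat.Agent.PT.Glob.Rec.Iface
import Fermat.Agent.PT.Glob.H36GUnr0
import Fermat.Agent.PT.Bridge.Levels
import Fermat.Agent.PT.Glob.Rec.H52Zeta

/-!
# W3-PT / PT-GLOB-REC, leaf REC-FRAME (helper27): `RecFrame`, `RecMult`, `RecLocalise`

Adapters between the frame language (`Z2 (levQ S) (chiRep χ)`), the relative cochains of
`Glob/GBasic.lean`, the multiplicative cochain `ζ^a` and the localisation at the place `(q, 1)`.

* `h27r_recFrame : RecFrame` (unconditional);
* `h27r_recMult : RecZetaOK → RecMult`, `h27r_recMult_holds : RecMult`;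
* `h27r_recLocalise : RecZetaOK → RecLocalise`, `h27r_recLocalise_holds : RecLocalise`
  (unconditional forms through helper52's `h52r_recZetaOK`).
-/

set_option autoImplicit false

open scoped Classical

noncomputable section

namespace Fermat.Agent.PT.Glob

open Fermat.Agent.Bridge ExtCitation Fermat.Agent.PT.Bridge

/-! ### exponent calculus modulo `p` -/

theorem h27r_pow_val_add {M : Type*} [Monoid M] {p : ℕ} [NeZero p] {ζ : M} (hζ : ζ ^ p = 1)
    (x y : ZMod p) : ζ ^ (x + y).val = ζ ^ x.val * ζ ^ y.val := by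
  rw [ZMod.val_add, ← pow_add, ← pow_eq_pow_mod _ hζ]

theorem h27r_pow_val_mul {M : Type*} [Monoid M] {p : ℕ} [NeZero p] {ζ : M} (hζ : ζ ^ p = 1)
    (x y : ZMod p) : ζ ^ (x * y).val = (ζ ^ x.val) ^ y.val := by
  rw [ZMod.val_mul, ← pow_mul, ← pow_eq_pow_mod _ hζ]

theorem h27r_mem_GU_bot (g : GQ) : g ∈ GU (⊥ : NFd) := by
  show g ∈ (⊥ : NFd).fixingSubgroup
  rw [IntermediateField.fixingSubgroup_bot]
  exact Subgroup.mem_top g

/-! ### REC-FRAME -/

/-- **REC-FRAME.** -/
theorem h27r_recFrame : RecFrame := by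
  intro p _ S a ha
  rw [mem_Z2] at ha
  obtain ⟨hd, N, ⟨F, hF, -, rfl⟩, hN⟩ := ha
  refine ⟨fun g h j => ?_, F, hF, bot_le, fun g _ g' _ s hs s' hs' => hN g g' s s' hs hs'⟩
  have := congrFun hd (g, h, j)
  simpa [d2_apply, chiRep_apply, recChi] using this

/-! ### REC-MULT -/

/-- **REC-MULT.** -/
theorem h27r_recMult (hz : RecZetaOK) : RecMult := by
  intro p _ a hcoc hcont
  obtain ⟨hprim, hval, hact, -⟩ := hz p
  have hp : p.Prime := Fact.out
  have : NeZero p := ⟨hp.ne_zero⟩
  have : Fact (1 < p) := ⟨hp.one_lt⟩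
  have hζp : recZeta p ^ p = 1 := by
    apply Units.ext
    rw [Units.val_pow_eq_pow_val, hval, hprim.pow_eq_one, Units.val_one]
  refine ⟨?_, ?_, ?_⟩
  · intro g _ h _ j _
    show recZeta p ^ (a (g * h, j)).val * recZeta p ^ (a (g, h)).val
      = g • (recZeta p ^ (a (h, j)).val) * recZeta p ^ (a (g, h * j)).val
    rw [smul_pow', hact g, ← h27r_pow_val_mul hζp, ← h27r_pow_val_add hζp,
      ← h27r_pow_val_add hζp]
    congr 2
    have := hcoc g h j
    linear_combination -this
  · obtain ⟨F, hFfin, hle, hF⟩ := hcont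
    exact ⟨F, hFfin, hle, fun g hg g' hg' s hs s' hs' => by
      show recZeta p ^ (a (g * s, g' * s')).val = recZeta p ^ (a (g, g')).val
      rw [hF g hg g' hg' s hs s' hs']⟩
  · intro L _ hζL
    have hχ : ∀ g ∈ GU L, recChi p g = 1 := by
      intro g hg
      have hfix : g (Loc.zetaG p) = Loc.zetaG p :=
        (IntermediateField.mem_fixingSubgroup_iff L g).1 hg _ hζL
      have := pt79_cycloChar_eq_one_of_fix p hprim g hfix
      simp [recChi, this]
    refine ⟨?_, ?_, ?_⟩
    · intro g hg h _ j _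
      have := hcoc g h j
      rw [hχ g hg, one_mul] at this
      exact this
    · obtain ⟨F, hFfin, hle, hF⟩ := hcont
      have := hFfin
      refine ⟨F ⊔ L, IntermediateField.finiteDimensional_sup F L, le_sup_right, ?_⟩
      intro g _ g' _ s hs s' hs'
      change s ∈ (F ⊔ L).fixingSubgroup at hs
      change s' ∈ (F ⊔ L).fixingSubgroup at hs'
      rw [IntermediateField.fixingSubgroup_sup] at hs hs'
      exact hF g (h27r_mem_GU_bot g) g' (h27r_mem_GU_bot g') s hs.1 s' hs'.1
    · rintro ⟨f, hfc, hf⟩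
      refine ⟨fun g => recZeta p ^ (f g).val, ?_, ?_⟩
      · obtain ⟨F, hFfin, hle, hF⟩ := hfc
        exact ⟨F, hFfin, hle, fun g hg s hs => by
          show recZeta p ^ (f (g * s)).val = recZeta p ^ (f g).val
          rw [hF g hg s hs]⟩
      · intro g hg h hh
        show recZeta p ^ (a (g, h)).val
          = 1 * (g • (recZeta p ^ (f h).val) / recZeta p ^ (f (g * h)).val
              * recZeta p ^ (f g).val)
        rw [one_mul, smul_pow', hact g, hχ g hg, ZMod.val_one, pow_one, div_mul_eq_mul_div,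
          eq_div_iff_mul_eq', ← h27r_pow_val_add hζp, ← h27r_pow_val_add hζp]
        congr 2
        have := hf g hg h hh
        simp only [Pi.zero_apply, gacob, zero_add] at this
        rw [this]
        ring

/-! ### REC-LOCALISE -/

theorem h27r_gConj_one (q : ℕ) [Fact q.Prime] (h : Loc.Gq q) :
    gConj q 1 h = localGaloisToGlobal q h := by
  simp [gConj]

theorem h27r_gLocUnit_one_smul (q : ℕ) [Fact q.Prime] (g : Loc.Gq q) (u : Qbˣ) :
    gLocUnit q 1 (localGaloisToGlobal q g • u) = g • gLocUnit q 1 u := by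
  apply Units.ext
  rw [AlgEquiv.smul_units_def, AlgEquiv.smul_units_def]
  simp only [gLocUnit, Units.coe_map]
  exact padicEmbedding_localGaloisToGlobal q g (u : Qb)

/-- **REC-LOCALISE.** -/
theorem h27r_recLocalise (hz : RecZetaOK) : RecLocalise := by
  intro q _
  refine ⟨?_, ?_⟩
  · rintro c c' ⟨x, ⟨F, hFfin, -, hF⟩, hx⟩
    have := hFfin
    refine ⟨fun h => gLocUnit q 1 (x (localGaloisToGlobal q h)),
      ⟨gLocField q 1 F, h36g_finiteDimensional_gLocField q 1 F, bot_le, ?_⟩, ?_⟩
    · intro g _ s hs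
      show gLocUnit q 1 (x (localGaloisToGlobal q (g * s)))
        = gLocUnit q 1 (x (localGaloisToGlobal q g))
      have hs' : localGaloisToGlobal q s ∈ GU F := by
        have := (h36g_gConj_mem_GU_iff q F 1 s).2 hs
        rwa [h27r_gConj_one] at this
      rw [map_mul, hF _ (h27r_mem_GU_bot _) _ hs']
    · intro g _ h _
      show gLocUnit q 1 (c (gConj q 1 g, gConj q 1 h))
        = gLocUnit q 1 (c' (gConj q 1 g, gConj q 1 h))
          * (g • gLocUnit q 1 (x (localGaloisToGlobal q h))
              / gLocUnit q 1 (x (localGaloisToGlobal q (g * h)))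
              * gLocUnit q 1 (x (localGaloisToGlobal q g)))
      rw [h27r_gConj_one, h27r_gConj_one,
        hx _ (h27r_mem_GU_bot _) _ (h27r_mem_GU_bot _), map_mul]
      congr 1
      show gLocUnit q 1 (localGaloisToGlobal q g • x (localGaloisToGlobal q h)
          / x (localGaloisToGlobal q g * localGaloisToGlobal q h)
          * x (localGaloisToGlobal q g)) = _
      rw [map_mul, map_div, h27r_gLocUnit_one_smul, map_mul (localGaloisToGlobal q)]
  · intro p _ a
    obtain ⟨-, -, -, hloc⟩ := hz p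
    refine ⟨?_, ?_⟩
    · funext y
      show gLocUnit q 1 (recZeta p ^ (a (gConj q 1 y.1, gConj q 1 y.2)).val)
        = Loc.zetaU p q ^ (a (localGaloisToGlobal q y.1, localGaloisToGlobal q y.2)).val
      rw [map_pow, hloc q, h27r_gConj_one, h27r_gConj_one]
    · funext y
      show a (gConj q 1 y.1, gConj q 1 y.2)
        = a (localGaloisToGlobal q y.1, localGaloisToGlobal q y.2)
      rw [h27r_gConj_one, h27r_gConj_one]

/-- **REC-MULT**, unconditional. -/
theorem h27r_recMult_holds : RecMult := h27r_recMult h52r_recZetaOK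

/-- **REC-LOCALISE**, unconditional. -/
theorem h27r_recLocalise_holds : RecLocalise := h27r_recLocalise h52r_recZetaOK

end Fermat.Agent.PT.Glob
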