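import Fermat.Agent.PT.Glob.Rec.Iface
import Fermat.Agent.PT.Glob.H83GHCoprime

/-!
# W3-PT / PT-GLOB-REC, row REC-CONJ (helper39): conjugation acts trivially on cohomology

`h39rc_recConj : RecConj`.  For a twisted `2`-cocycle `a` of `G_ℚ` (coefficients `𝔽_p(χ)`),
`K/ℚ` Galois with `χ|_{G_K} = 1`, and `x, y ∈ G_K`, `x' = g⁻¹ x g`, `y' = g⁻¹ y g`:

  `χ(g) · a(x', y') = a(x, y) + F(x) + F(y) - F(x y)`,   `F(x) = a(g, g⁻¹ x g) - a(x, g)`

(cocycle identity at `(g, x', y')`, `(x, g, y')`, `(x, y, g)`).  Hence if the localisation of `a` at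
the place `(q, 1)` of `K` is the coboundary of `f₁`, the localisation at `(q, g)` is the coboundary
of `χ(g)⁻¹ · (f₁ + F ∘ r)`, `r = localGaloisToGlobal q`.
-/

set_option autoImplicit false
set_option linter.style.haveILetI false

open scoped Classical

noncomputable section

namespace Fermat.Agent.PT.Glob

open Fermat.Agent.Bridge ExtCitation

/-- Every element of `G_ℚ` fixes `⊥`. -/
theorem h39rc_mem_GU_bot (g : GQ) : g ∈ GU (⊥ : NFd) := by
  rw [IntermediateField.mem_fixingSubgroup_iff]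
  intro x hx
  obtain ⟨r, rfl⟩ := IntermediateField.mem_bot.1 hx
  exact g.commutes r

/-- The conjugation identity for a twisted cocycle. -/
theorem h39rc_conj_identity {p : ℕ} [Fact p.Prime] {a : GQ × GQ → ZMod p} (hcoc : RecCoc p a)
    (g x y : GQ) (hx : recChi p x = 1) :
    recChi p g * a (g⁻¹ * x * g, g⁻¹ * y * g) =
      a (x, y) + (a (g, g⁻¹ * x * g) - a (x, g)) + (a (g, g⁻¹ * y * g) - a (y, g))
        - (a (g, g⁻¹ * (x * y) * g) - a (x * y, g)) := by
  have e1 := hcoc g (g⁻¹ * x * g) (g⁻¹ * y * g)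
  have e2 := hcoc x g (g⁻¹ * y * g)
  have e3 := hcoc x y g
  have h1 : g * (g⁻¹ * x * g) = x * g := by group
  have h2 : g * (g⁻¹ * y * g) = y * g := by group
  have h3 : g⁻¹ * x * g * (g⁻¹ * y * g) = g⁻¹ * (x * y) * g := by group
  rw [h1, h3] at e1
  rw [h2, hx, one_mul] at e2
  rw [hx, one_mul] at e3
  linear_combination e1 - e2 + e3

/-- **REC-CONJ.** -/
theorem h39rc_recConj : RecConj := by
  intro p _ a hcoc hcont K _ hnorm hχ q _ g h1
  obtain ⟨f₁, ⟨F₁, hF₁fin, hE₁F₁, hf₁inv⟩, hf₁⟩ := h1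
  obtain ⟨F₀, hF₀fin, -, ha_inv⟩ := hcont
  haveI := hF₀fin
  haveI := hF₁fin
  obtain ⟨N, hF₀N, hNfin, hNnormal⟩ := h83c_exists_normal_ge F₀
  haveI := hNfin
  have hNF₀ : GU N ≤ GU F₀ := by
    intro s hs
    rw [IntermediateField.mem_fixingSubgroup_iff] at hs ⊢
    exact fun x hx => hs x (hF₀N hx)
  -- membership dictionary
  have hconj1 : ∀ h : Loc.Gq q, gConj q 1 h = localGaloisToGlobal q h := by
    intro h
    simp [gConj]
  have hmemK : ∀ h ∈ Loc.GK (gLocField q g K), localGaloisToGlobal q h ∈ GU K := by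
    intro h hh
    have h2 : gConj q g h ∈ GU K :=
      (Fermat.Agent.PT.Bridge.h23b_conj_mem_fixingSubgroup_iff q K g h).2 hh
    have h3 := hnorm g _ h2
    have h4 : g * gConj q g h * g⁻¹ = localGaloisToGlobal q h := by
      unfold gConj
      group
    rwa [h4] at h3
  have hmem1 : ∀ h ∈ Loc.GK (gLocField q g K), h ∈ Loc.GK (gLocField q 1 K) := by
    intro h hh
    apply (Fermat.Agent.PT.Bridge.h23b_conj_mem_fixingSubgroup_iff q K 1 h).1
    simpa using hmemK h hh
  have hχ1 : ∀ s ∈ GU K, recChi p s = 1 := by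
    intro s hs
    unfold recChi
    rw [hχ s hs]
    rfl
  have hc : recChi p g ≠ 0 := Units.ne_zero (cycloChar p g)
  -- the correction term
  let Fn : GQ → ZMod p := fun x => a (g, g⁻¹ * x * g) - a (x, g)
  refine ⟨fun h => (recChi p g)⁻¹ * (f₁ h + Fn (localGaloisToGlobal q h)), ?_, ?_⟩
  · -- continuity
    haveI : FiniteDimensional ℚ_[q] (gLocField q g K) := by
      unfold gLocField
      haveI : FiniteDimensional ℚ (K.map ((g : Qb ≃ₐ[ℚ] Qb) : Qb →ₐ[ℚ] Qb)) :=
        LinearEquiv.finiteDimensional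
          (IntermediateField.equivMap K ((g : Qb ≃ₐ[ℚ] Qb) : Qb →ₐ[ℚ] Qb)).toLinearEquiv
      exact Fermat.Agent.PT.Bridge.h23b_finiteDimensional_localField q _
    haveI : FiniteDimensional ℚ_[q] (Fermat.Agent.PT.Bridge.h23b_localField q N) :=
      Fermat.Agent.PT.Bridge.h23b_finiteDimensional_localField q N
    refine ⟨gLocField q g K ⊔ F₁ ⊔ Fermat.Agent.PT.Bridge.h23b_localField q N, inferInstance,
      le_sup_of_le_left le_sup_left, ?_⟩
    intro h hh s hs
    have hs1 : s ∈ Loc.GK F₁ := by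
      rw [IntermediateField.mem_fixingSubgroup_iff] at hs ⊢
      exact fun x hx => hs x ((le_sup_of_le_left le_sup_right : F₁ ≤ _) hx)
    have hs2 : s ∈ (Fermat.Agent.PT.Bridge.h23b_localField q N).fixingSubgroup := by
      rw [IntermediateField.mem_fixingSubgroup_iff] at hs ⊢
      exact fun x hx => hs x ((le_sup_right :
        Fermat.Agent.PT.Bridge.h23b_localField q N ≤ _) hx)
    have hrs : localGaloisToGlobal q s ∈ GU N :=
      (Fermat.Agent.PT.Bridge.h23b_mem_fixingSubgroup_localField_iff q N s).1 hs2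
    have hrs' : g⁻¹ * localGaloisToGlobal q s * g ∈ GU N := by
      have := hNnormal.conj_mem _ hrs g⁻¹
      rwa [inv_inv] at this
    have e1 : f₁ (h * s) = f₁ h := hf₁inv h (hmem1 h hh) s hs1
    have e2 : a (localGaloisToGlobal q h * localGaloisToGlobal q s, g) =
        a (localGaloisToGlobal q h, g) := by
      have := ha_inv (localGaloisToGlobal q h) (h39rc_mem_GU_bot _) g (h39rc_mem_GU_bot _)
        (localGaloisToGlobal q s) (hNF₀ hrs) 1 (GU F₀).one_mem
      rwa [mul_one] at this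
    have e3 : a (g, g⁻¹ * (localGaloisToGlobal q h * localGaloisToGlobal q s) * g) =
        a (g, g⁻¹ * localGaloisToGlobal q h * g) := by
      have := ha_inv g (h39rc_mem_GU_bot _) (g⁻¹ * localGaloisToGlobal q h * g)
        (h39rc_mem_GU_bot _) 1 (GU F₀).one_mem (g⁻¹ * localGaloisToGlobal q s * g) (hNF₀ hrs')
      rw [mul_one] at this
      rw [← this]
      congr 2
      group
    show (recChi p g)⁻¹ * (f₁ (h * s) + Fn (localGaloisToGlobal q (h * s))) =
      (recChi p g)⁻¹ * (f₁ h + Fn (localGaloisToGlobal q h))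
    simp only [Fn, map_mul, e1, e2, e3]
  · -- the coboundary relation
    intro h₁ hh₁ h₂ hh₂
    have hx := hmemK h₁ hh₁
    have key := h39rc_conj_identity hcoc g (localGaloisToGlobal q h₁) (localGaloisToGlobal q h₂)
      (hχ1 _ hx)
    have hrel := hf₁ h₁ (hmem1 h₁ hh₁) h₂ (hmem1 h₂ hh₂)
    simp only [gLoc2, hconj1, Pi.zero_apply, zero_add, Loc.acob] at hrel
    simp only [gLoc2, gConj, Pi.zero_apply, zero_add, Loc.acob, Fn, map_mul]
    rw [hrel] at key
    field_simp
    linear_combination key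

end Fermat.Agent.PT.Glob
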