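/-
W3-PT (S55), PT-GLOB-BR / GLOB-REC, leaf REC-LOCVAL (helper96).

`h96c_recLocVal : RecLocVal` (unconditional): over `ℚ_q`, the unramified cyclic algebra
`(χ_ur, B)`, `B ∈ ℚˣ`, is `Yq ^ v_q(B)`.

Proof.  With `m = (v_q(B) mod p)` the element `u' = b q^{-m}` has valuation `≡ 0 mod p`, hence is
a norm from `Kur ⊥ p` (`URNormGrp`) and `carry(u') ∼ 1` (`MCCarryNorm`); the carry cocycle is
multiplicative in `b`, so `carry(b) = carry(u') · carry(q)^m ∼ Yq^m`.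
-/
import Mathlib
import Fermat.Agent.PT.Glob.Rec.Iface
import Fermat.Agent.PT.Loc.H96RDBase
import Fermat.Agent.PT.Loc.H76MC
import Fermat.Agent.PT.Loc.H81H90
import Fermat.Agent.PT.Loc.H90CarryNorm
import Fermat.Agent.PT.Loc.H66URConj
import Fermat.Agent.PT.Loc.H66URVal
import Fermat.Agent.PT.Loc.H82URNorm
import Fermat.Agent.PT.Loc.H8URNormGrp
import Fermat.Agent.PT.Loc.H36URFrob
import Fermat.Agent.PT.Loc.H34LFTeich
import Fermat.Agent.PT.Loc.H34LFPow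

set_option autoImplicit false

namespace Fermat.Agent.PT.Glob

open Fermat.Agent.PT.Loc

/-- The fixed Frobenius element of `ℚ_q` is a Frobenius element. -/
theorem h96c_isFrob_frobQ (q : ℕ) [Fact q.Prime] : IsFrob (⊥ : LF q) (frobQ q) := by
  have h : ∃ φ : Gq q, IsFrob (⊥ : LF q) φ := h36_urFrob h34lf_lfTeich q ⊥
  unfold frobQ
  rw [dif_pos h]
  exact h.choose_spec

/-- The norm of a rational number in `PadicAlgCl q`. -/
theorem h96c_norm_ratCast (q : ℕ) [Fact q.Prime] {B : ℚ} (hB : B ≠ 0) :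
    ‖((B : ℚ) : Om q)‖ = ‖((q : ℕ) : Om q)‖ ^ (padicValRat q B) := by
  have h1 : ((B : ℚ) : Om q) = algebraMap ℚ_[q] (Om q) ((B : ℚ) : ℚ_[q]) := by
    rw [map_ratCast]
  rw [h1, norm_algebraMap', h96b_norm_q, Padic.eq_padicNorm, padicNorm.eq_zpow_of_nonzero hB,
    inv_zpow, zpow_neg]
  push_cast
  rfl

/-- **REC-LOCVAL.** -/
theorem h96c_recLocVal : RecLocVal := by
  intro q _ p _ B b hB hb
  have hp : p.Prime := Fact.out
  have hNZ : NeZero p := ⟨hp.ne_zero⟩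
  have hT : LFTeich := h34lf_lfTeich
  have hCy : URCyc := h66v_urCyc hT
  have hUN : URNorm := h82n_urNorm hT hCy
  have hNG : URNormGrp := h8ng_urNormGrp hUN (h66v_urVal hT) h34lf_lfUnif
  have hCN : MCCarryNorm := h90c_carryNorm h81h_mcH90
  have hφ := h96c_isFrob_frobQ q
  have hπ := h96b_isUnif_q q
  have hqU : ((qU q : (Om q)ˣ) : Om q) = ((q : ℕ) : Om q) := (h96b_lfBase q).2.2
  have hcyc : IsCyc (⊥ : LF q) (Kur (⊥ : LF q) p) p (frobQ q) :=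
    hCy q ⊥ p (frobQ q) hp.pos hφ
  have hπn0 : ‖((q : ℕ) : Om q)‖ ≠ 0 := norm_ne_zero_iff.mpr (h96b_q_ne_zero q)
  obtain ⟨m, hm⟩ : ∃ m : ℕ, m = ((padicValRat q B : ZMod p)).val := ⟨_, rfl⟩
  obtain ⟨j, hj⟩ : ∃ j : ℤ, padicValRat q B - (m : ℤ) = (p : ℤ) * j := by
    have h0 : (((padicValRat q B - (m : ℤ) : ℤ)) : ZMod p) = 0 := by
      push_cast
      rw [hm, ZMod.natCast_val, ZMod.cast_id', id, sub_self]
    exact (ZMod.intCast_zmod_eq_zero_iff_dvd _ p).mp h0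
  obtain ⟨u', hu'⟩ : ∃ u' : (Om q)ˣ, u' = b * (qU q ^ m)⁻¹ := ⟨_, rfl⟩
  have hu'val : ((u' : (Om q)ˣ) : Om q) = ((B : ℚ) : Om q) * (((q : ℕ) : Om q) ^ m)⁻¹ := by
    rw [hu', Units.val_mul, Units.val_inv_eq_inv_val, Units.val_pow_eq_pow_val, hqU, hb]
  have hu'E : ((u' : (Om q)ˣ) : Om q) ∈ (⊥ : LF q) := by
    rw [hu'val]
    exact mul_mem (SubfieldClass.ratCast_mem _ B) (inv_mem (pow_mem (natCast_mem _ q) m))
  have hu'norm : ‖((u' : (Om q)ˣ) : Om q)‖ = ‖((q : ℕ) : Om q)‖ ^ ((p : ℤ) * j) := by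
    rw [hu'val, norm_mul, norm_inv, h96c_norm_ratCast q hB, norm_pow, ← zpow_natCast,
      ← zpow_neg, ← zpow_add₀ hπn0]
    have e : padicValRat q B + -(m : ℤ) = (p : ℤ) * j := by linarith
    rw [e]
  have hu'N : IsNorm (Kur (⊥ : LF q) p) (frobQ q) p (u' : Om q) :=
    (hNG q ⊥ p (frobQ q) _ hp.pos hφ hπ (u' : Om q) hu'E u'.ne_zero).2 ⟨j, hu'norm⟩
  have hu'1 : MCohom (⊥ : LF q) (carry (Kur (⊥ : LF q) p) (frobQ q) p u') 1 :=
    (hCN q ⊥ (Kur (⊥ : LF q) p) p (frobQ q) u' hcyc hu'E).2 hu'N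
  have e : ∀ y, carry (Kur (⊥ : LF q) p) (frobQ q) p b y =
      Yq p q y ^ m * carry (Kur (⊥ : LF q) p) (frobQ q) p u' y := by
    intro y
    unfold Yq
    rw [← h76m_carry_pow, ← h76m_carry_mul]
    congr 1
    rw [hu', mul_comm b _, mul_inv_cancel_left]
  rw [← hm]
  exact h76m_mul_one (h76m_of_eq (⊥ : LF q) (fun g _ h _ => e (g, h))) hu'1

end Fermat.Agent.PT.Glob
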