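import Mathlib
import Fermat.Agent.PT.Glob.Rec.Iface
import Fermat.Agent.PT.Glob.Rec.H96LocVal
import Fermat.Agent.PT.Glob.H82LocCyc
import Fermat.Agent.PT.Glob.MC.H49GIdx
import Fermat.Agent.PT.Loc.H90Final
import Fermat.Agent.PT.Loc.H49InvY
import Fermat.Agent.PT.Loc.H96RDBase
import Fermat.Agent.PT.Loc.H76MC
import Fermat.Agent.PT.Bridge.Levels

/-!
# W3-PT / PT-GLOB-REC, leaf REC-LOCCARRY (helper3)

`h3r_recLocCarry_of : RecCyclo → RecGenChg → RecLocCarry` (and `h3r_recLocCarry_of'` with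
`RecLocVal` as an explicit hypothesis): for `q ≠ ℓ` the localisation at `(q, 1)` of the carry
cocycle `gcarry Q' σ p b`, `b = B ∈ ℚˣ`, `Q' = recField ℓ p`, is cohomologous on `G_{ℚ_q}` to
`Yq ^ (v_q(B) · idx_σ(Frob_q))`.

Route: `h82c_gLocCyc` for `⊥ ≤ Q'` at `(q, 1)`.
* Case A (`Q'_q = ℚ_q`): all indices vanish, both sides are `1`.
* Case B (`Q'_q/ℚ_q` cyclic of degree `p`, generator `τ`, local and global indices agree):
  `Q'_q ⊆ ℚ_q(ι ζ_ℓ) ⊆ Kur ⊥ (ℓ - 1)` has the value group of `ℚ_q`, so `Q'_q = Kur ⊥ p`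
  (`h90l_niDich`); change of generator `τ ↝ frobQ` (`RecGenChg`), then `RecLocVal`
  (landed `h96c_recLocVal`) and `InvY` (landed `h49y_invY`) to reduce the exponent modulo `p`.
-/

set_option autoImplicit false

open scoped Classical

noncomputable section

namespace Fermat.Agent.PT.Glob

open Fermat.Agent.Bridge Fermat.Agent.PT.Bridge ExtCitation

section Basic

variable (q : ℕ) [Fact q.Prime]

theorem h3r_ratCast_mem_bot (c : ℚ) : ((c : ℚ) : Loc.Om q) ∈ (⊥ : Loc.LF q) := by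
  have h : ((c : ℚ) : Loc.Om q) = algebraMap ℚ_[q] (Loc.Om q) ((c : ℚ) : ℚ_[q]) := by
    rw [map_ratCast]
  rw [h]
  exact (⊥ : Loc.LF q).algebraMap_mem _

theorem h3r_gLocEl_ratCast (g : GQ) (c : ℚ) : gLocEl q g ((c : ℚ) : Qb) = ((c : ℚ) : Loc.Om q) := by
  unfold gLocEl
  rw [map_ratCast, map_ratCast]

/-- The local field of `ℚ` at any place is `ℚ_q`. -/
theorem h3r_gLocField_bot (g : GQ) : gLocField q g (⊥ : NFd) = ⊥ := by
  rw [eq_bot_iff]
  unfold gLocField h23b_localField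
  rw [IntermediateField.adjoin_le_iff]
  rintro _ ⟨x, hx, rfl⟩
  obtain ⟨y, hy, rfl⟩ := hx
  obtain ⟨c, rfl⟩ := IntermediateField.mem_bot.1 hy
  have h1 : padicEmbedding q (((g : Qb ≃ₐ[ℚ] Qb) : Qb →ₐ[ℚ] Qb) (algebraMap ℚ Qb c)) =
      ((c : ℚ) : Loc.Om q) := by
    rw [AlgHom.commutes, AlgHom.commutes]
    exact (eq_ratCast (algebraMap ℚ (Loc.Om q)) c)
  rw [SetLike.mem_coe]
  have h2 := h3r_ratCast_mem_bot q c
  rw [← h1] at h2
  exact h2

theorem h3r_gConj_one (h : Loc.Gq q) : gConj q 1 h = localGaloisToGlobal q h := by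
  simp [gConj]

end Basic

/-! ## `Q'` is contained in `ℚ(ζ_ℓ)`, and `Q'_q` in an unramified extension of `ℚ_q` -/

theorem h3r_recField_le (ℓ p : ℕ) [Fact ℓ.Prime] {ζ : Qb} (hζ : IsPrimitiveRoot ζ ℓ) :
    recField ℓ p ≤ IntermediateField.adjoin ℚ {ζ} := by
  have h1 : GU (IntermediateField.adjoin ℚ {ζ}) ≤ recSub ℓ p := by
    intro g hg
    have hfix : g ζ = ζ := (IntermediateField.mem_fixingSubgroup_iff _ g).1 hg ζ
      (IntermediateField.mem_adjoin_simple_self ℚ ζ)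
    have h2 : cycloChar ℓ g = 1 := pt79_cycloChar_eq_one_of_fix ℓ hζ g hfix
    show cycloChar ℓ g ∈ (powMonoidHom p : (ZMod ℓ)ˣ →* (ZMod ℓ)ˣ).range
    rw [h2]
    exact one_mem _
  have hG : IsGalois ℚ Qb := pt79_isGalois_Qbar
  have h3 := IntermediateField.fixedField_le (F := ℚ) (E := Qb) h1
  rw [InfiniteGalois.fixedField_fixingSubgroup] at h3
  exact h3

section Local

variable (q : ℕ) [Fact q.Prime]

theorem h3r_zeta_mem_Kur (ℓ : ℕ) [Fact ℓ.Prime] (hqℓ : q ≠ ℓ) {ζ : Qb} (hζ : ζ ^ ℓ = 1) :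
    padicEmbedding q ζ ∈ Loc.Kur (⊥ : Loc.LF q) (ℓ - 1) := by
  have hq : q.Prime := Fact.out
  have hℓ : ℓ.Prime := Fact.out
  have hres : Loc.resCard (⊥ : Loc.LF q) = q := (Loc.h96b_lfBase q).2.1
  have hdvd : ℓ ∣ q ^ (ℓ - 1) - 1 := by
    have hcop : Nat.Coprime q ℓ := (Nat.coprime_primes hq hℓ).2 hqℓ
    have h1 := Nat.ModEq.pow_totient hcop
    rw [Nat.totient_prime hℓ] at h1
    exact (Nat.modEq_iff_dvd' (Nat.one_le_pow _ _ hq.pos)).1 h1.symm
  obtain ⟨k, hk⟩ := hdvd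
  unfold Loc.Kur
  refine (le_sup_right : _ ≤ (⊥ : Loc.LF q) ⊔ _) (IntermediateField.subset_adjoin _ _ ?_)
  show padicEmbedding q ζ ^ (Loc.resCard (⊥ : Loc.LF q) ^ (ℓ - 1) - 1) = 1
  rw [hres, ← map_pow, hk, pow_mul, hζ, one_pow, map_one]

theorem h3r_gLocField_recField_le (ℓ p : ℕ) [Fact ℓ.Prime] (hqℓ : q ≠ ℓ) :
    gLocField q 1 (recField ℓ p) ≤ Loc.Kur (⊥ : Loc.LF q) (ℓ - 1) := by
  have hℓ : ℓ.Prime := Fact.out
  have : NeZero ((ℓ : ℕ) : Qb) := ⟨by exact_mod_cast hℓ.ne_zero⟩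
  obtain ⟨ζ, hζ⟩ : ∃ ζ : Qb, IsPrimitiveRoot ζ ℓ := HasEnoughRootsOfUnity.exists_primitiveRoot Qb ℓ
  unfold gLocField h23b_localField
  rw [IntermediateField.adjoin_le_iff]
  rintro _ ⟨x, hx, rfl⟩
  obtain ⟨y, hy, rfl⟩ := hx
  have hy' := h3r_recField_le ℓ p hζ hy
  rw [SetLike.mem_coe]
  show padicEmbedding q y ∈ _
  clear hy
  induction hy' using IntermediateField.adjoin_induction with
  | mem z hz =>
    rw [Set.mem_singleton_iff] at hz
    rw [hz]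
    exact h3r_zeta_mem_Kur q ℓ hqℓ hζ.pow_eq_one
  | algebraMap c =>
    have h1 : padicEmbedding q (algebraMap ℚ Qb c) = ((c : ℚ) : Loc.Om q) := by
      rw [AlgHom.commutes]
      exact (eq_ratCast (algebraMap ℚ (Loc.Om q)) c)
    rw [h1]
    exact (bot_le : (⊥ : Loc.LF q) ≤ _) (h3r_ratCast_mem_bot q c)
  | add a b _ _ ha hb =>
    rw [map_add]
    exact add_mem ha hb
  | inv a _ ha =>
    rw [map_inv₀]
    exact inv_mem ha
  | mul a b _ _ ha hb =>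
    rw [map_mul]
    exact mul_mem ha hb

/-- A cyclic extension of degree `p` of `ℚ_q` inside an unramified extension is `Kur ⊥ p`. -/
theorem h3r_eq_Kur_of_le {p : ℕ} [Fact p.Prime] {K₁ : Loc.LF q} {τ : Loc.Gq q} {n : ℕ}
    (hn : 0 < n) (hτ : Loc.IsCyc (⊥ : Loc.LF q) K₁ p τ) (hle : K₁ ≤ Loc.Kur (⊥ : Loc.LF q) n) :
    K₁ = Loc.Kur (⊥ : Loc.LF q) p := by
  have hp : p.Prime := Fact.out
  rcases Loc.h90l_niDich q p ⊥ K₁ τ hτ with h | ⟨-, ϖ, hϖK, π, hπ, hϖ, hnorm⟩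
  · exact h
  · exfalso
    obtain ⟨y, hy, hy'⟩ := (Loc.h90l_urVal q ⊥ n hn).2.1 ϖ (hle hϖK)
    have hϖ0 : ϖ ≠ 0 := hϖ.2.1
    have hy0 : y ≠ 0 := by
      rintro rfl
      rw [norm_zero, norm_eq_zero] at hy'
      exact hϖ0 hy'
    obtain ⟨k, hk⟩ := (Loc.h34lf_lfUnif q ⊥).2 π hπ y hy hy0
    have hπ0 : 0 < ‖π‖ := norm_pos_iff.2 hπ.2.1
    have hπ1 : ‖π‖ < 1 := hπ.2.2.1
    have h1 : ‖π‖ ^ (k * (p : ℤ)) = ‖π‖ ^ (1 : ℤ) := by
      rw [zpow_mul, ← hk, ← hy', zpow_natCast, hnorm, zpow_one]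
    have h2 : k * (p : ℤ) = 1 := zpow_right_injective₀ hπ0 hπ1.ne h1
    have h3 : (p : ℤ) ∣ ((1 : ℕ) : ℤ) := by
      rw [Nat.cast_one]
      exact Dvd.intro_left k h2
    have h4 : p ∣ 1 := Int.natCast_dvd_natCast.1 h3
    exact hp.one_lt.ne' (Nat.dvd_one.1 h4)

end Local

/-! ## The invariant of the localised carry cocycle -/

/-- Reduction of the exponent of `Yq` modulo `p`. -/
theorem h3r_Yq_pow_mod (q : ℕ) [Fact q.Prime] (p : ℕ) [Fact p.Prime] (m : ℕ) :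
    Loc.MCohom (⊥ : Loc.LF q) (fun y => Loc.Yq p q y ^ m) (fun y => Loc.Yq p q y ^ (m % p)) := by
  have h1 : Loc.MCohom (⊥ : Loc.LF q) (fun y => Loc.Yq p q y ^ (m % p) * Loc.Yq p q y ^ (p * (m / p)))
      (fun y => Loc.Yq p q y ^ (m % p) * (1 : Loc.Gq q × Loc.Gq q → (Loc.Om q)ˣ) y) :=
    Loc.h76m_mul (Loc.h76m_refl ⊥ _) ((Loc.h49y_invY q p (p * (m / p))).2 (dvd_mul_right p _))
  have e1 : (fun y => Loc.Yq p q y ^ m) =
      fun y => Loc.Yq p q y ^ (m % p) * Loc.Yq p q y ^ (p * (m / p)) := by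
    funext y
    rw [← pow_add, Nat.mod_add_div]
  have e2 : (fun y => Loc.Yq p q y ^ (m % p)) =
      fun y => Loc.Yq p q y ^ (m % p) * (1 : Loc.Gq q × Loc.Gq q → (Loc.Om q)ˣ) y := by
    funext y
    rw [Pi.one_apply, mul_one]
  rw [e1, e2]
  exact h1

/-- **REC-LOCCARRY**, with `RecLocVal` as an explicit hypothesis. -/
theorem h3r_recLocCarry_of' (hCyc : RecCyclo) (hGen : RecGenChg) (hVal : RecLocVal) :
    RecLocCarry := by
  intro p ℓ q _ _ _ hpℓ hqℓ σ hσ B b hB hb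
  have hp : p.Prime := Fact.out
  have hℓ : ℓ.Prime := Fact.out
  have hcyc : GIsCyc ⊥ (recField ℓ p) p σ := (hCyc p ℓ hpℓ).2 σ hσ
  have hbot : gLocField q 1 (⊥ : NFd) = ⊥ := h3r_gLocField_bot q 1
  have hblB : ((gLocUnit q 1 b : (Loc.Om q)ˣ) : Loc.Om q) = ((B : ℚ) : Loc.Om q) := by
    show gLocEl q 1 (b : Qb) = _
    rw [hb, h3r_gLocEl_ratCast]
  have hblbot : ((gLocUnit q 1 b : (Loc.Om q)ˣ) : Loc.Om q) ∈ (⊥ : Loc.LF q) := by
    rw [hblB]
    exact h3r_ratCast_mem_bot q B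
  have hmemtop : ∀ h : Loc.Gq q, h ∈ Loc.GK (⊥ : Loc.LF q) := by
    intro h
    refine (IntermediateField.mem_fixingSubgroup_iff _ h).2 fun x hx => ?_
    obtain ⟨c, rfl⟩ := IntermediateField.mem_bot.1 hx
    exact h.commutes c
  rcases h82c_gLocCyc p ⊥ (recField ℓ p) σ hcyc q 1 with heq | ⟨τ, hτ, -, hidx⟩
  · -- Case A: the local extension is trivial
    rw [hbot] at heq
    have hall : ∀ h : Loc.Gq q, gConj q 1 h ∈ GU (recField ℓ p) := by
      intro h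
      rw [h82c_conj_mem_iff, heq]
      exact hmemtop h
    have hidx0 : ∀ h : Loc.Gq q, gcycIdx (recField ℓ p) σ p (gConj q 1 h) = 0 := fun h =>
      h49g_idx_of_mem hcyc (hall h)
    have hexp : recExp ℓ p σ B q = 0 := by
      unfold recExp recFrob
      rw [← h3r_gConj_one, hidx0]
      simp
    rw [hexp]
    refine Loc.h76m_of_eq ⊥ ?_
    intro h _ h' _
    simp only [gLocM2, gcarry, hidx0, ZMod.val_zero, pow_zero]
    rw [if_neg (by have := hp.pos; omega), map_one]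
  · -- Case B: the local extension is cyclic of degree `p`, hence `Kur ⊥ p`
    rw [hbot] at hτ hidx
    have hℓ1 : 0 < ℓ - 1 := by have := hℓ.two_le; omega
    have hK₁ : gLocField q 1 (recField ℓ p) = Loc.Kur (⊥ : Loc.LF q) p :=
      h3r_eq_Kur_of_le q hℓ1 hτ (h3r_gLocField_recField_le q ℓ p hqℓ)
    rw [hK₁] at hτ hidx
    have hφ : Loc.IsCyc (⊥ : Loc.LF q) (Loc.Kur (⊥ : Loc.LF q) p) p (Loc.frobQ q) :=
      Loc.h90l_urCyc q ⊥ p (Loc.frobQ q) hp.pos (h96c_isFrob_frobQ q)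
    -- the index of Frobenius
    have hi : Loc.cycIdx (Loc.Kur (⊥ : Loc.LF q) p) τ p (Loc.frobQ q) =
        gcycIdx (recField ℓ p) σ p (recFrob q) := by
      rw [hidx _ (hmemtop _), h3r_gConj_one]
      rfl
    have hilt : gcycIdx (recField ℓ p) σ p (recFrob q) < p := by
      rw [← hi]
      exact (Loc.h90c_idx_spec hτ (hmemtop _)).1
    -- step 1: the localised carry cocycle is the local carry cocycle along `τ`
    have e1 : Loc.MCohom (⊥ : Loc.LF q) (gLocM2 q 1 (gcarry (recField ℓ p) σ p b))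
        (Loc.carry (Loc.Kur (⊥ : Loc.LF q) p) τ p (gLocUnit q 1 b)) := by
      refine Loc.h76m_of_eq ⊥ ?_
      intro h hh h' hh'
      simp only [gLocM2, gcarry, Loc.carry]
      rw [hidx h hh, hidx h' hh']
      split_ifs <;> simp
    -- step 2: change of generator
    have e2 := hGen q p ⊥ (Loc.Kur (⊥ : Loc.LF q) p) τ (Loc.frobQ q) (gLocUnit q 1 b) hτ hφ hblbot
    -- step 3: the unramified cyclic algebra
    have e3 := hVal q p B (gLocUnit q 1 b) hB hblB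
    have e4 := Loc.h76m_pow e3 (Loc.cycIdx (Loc.Kur (⊥ : Loc.LF q) p) τ p (Loc.frobQ q))
    -- step 4: the exponent modulo `p`
    have e5 : Loc.MCohom (⊥ : Loc.LF q)
        (fun y => (Loc.Yq p q y ^ ((padicValRat q B : ZMod p)).val) ^
          Loc.cycIdx (Loc.Kur (⊥ : Loc.LF q) p) τ p (Loc.frobQ q))
        (fun y => Loc.Yq p q y ^ (recExp ℓ p σ B q).val) := by
      have h1 := h3r_Yq_pow_mod q p (((padicValRat q B : ZMod p)).val *
        gcycIdx (recField ℓ p) σ p (recFrob q))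
      have h2 : (recExp ℓ p σ B q).val = (((padicValRat q B : ZMod p)).val *
          gcycIdx (recField ℓ p) σ p (recFrob q)) % p := by
        unfold recExp
        rw [ZMod.val_mul, ZMod.val_natCast, Nat.mod_eq_of_lt hilt]
      rw [h2, hi]
      simp only [← pow_mul]
      exact h1
    exact Loc.h76m_trans e1 (Loc.h76m_trans e2 (Loc.h76m_trans e4 e5))

/-- **REC-LOCCARRY**: the invariant of `gcarry Q' σ p B` at `q ≠ ℓ` is
`v_q(B) · idx_σ(Frob_q)` (`RecLocVal` is the landed `h96c_recLocVal`). -/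
theorem h3r_recLocCarry_of (hCyc : RecCyclo) (hGen : RecGenChg) : RecLocCarry :=
  h3r_recLocCarry_of' hCyc hGen h96c_recLocVal

end Fermat.Agent.PT.Glob
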