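import Mathlib
import Fermat.Agent.PT.Glob.Rec.Iface
import Fermat.Agent.PT.Bridge.Levels

/-!
# W3-PT / PT-GLOB-REC, leaf REC-KCHI (helper42): `RecKChi`

`L(ζ_p) / L` is cyclic of degree `n` prime to `p`: `G_{L(ζ_p)} = G_L ∩ ker χ` (`χ` the mod `p`
cyclotomic character), the image of `G_L` under `χ` is a subgroup of the cyclic group
`(ℤ/p)ˣ`, generated by `χ σ'`, `σ' ∈ G_L`, and `n = ord (χ σ')` divides `p - 1`.
-/

set_option autoImplicit false
set_option linter.style.haveILetI false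

open scoped Classical

noncomputable section

namespace Fermat.Agent.PT.Glob

open Fermat.Agent.Bridge ExtCitation

/-- `Loc.zetaG p` is a primitive `p`-th root of unity. -/
theorem h42k_zetaG_primitive (p : ℕ) [Fact p.Prime] : IsPrimitiveRoot (Loc.zetaG p) p := by
  have h : ∃ ζ : AlgebraicClosure ℚ, IsPrimitiveRoot ζ p :=
    Fermat.Agent.PT.pt79_exists_primitiveRoot p
  unfold Loc.zetaG
  rw [dif_pos h]
  exact h.choose_spec

/-- `s` fixes `ζ_p` iff the cyclotomic character is trivial at `s`. -/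
theorem h42k_fix_iff (p : ℕ) [Fact p.Prime] (s : GQ) :
    s (Loc.zetaG p) = Loc.zetaG p ↔ cycloChar p s = 1 := by
  have hp : p.Prime := Fact.out
  haveI : Fact (1 < p) := ⟨hp.one_lt⟩
  constructor
  · intro h
    exact Fermat.Agent.PT.pt79_cycloChar_eq_one_of_fix p (h42k_zetaG_primitive p) s h
  · intro h
    have h1 := Fermat.Agent.PT.pt79_cycloChar_spec p s (Loc.zetaG p)
      (h42k_zetaG_primitive p).pow_eq_one
    rw [h1, h, Units.val_one, ZMod.val_one, pow_one]

/-- the absolute Galois group of `L(ζ_p)`. -/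
theorem h42k_mem_GU_sup (p : ℕ) [Fact p.Prime] (L : NFd) (s : GQ) :
    s ∈ GU (L ⊔ IntermediateField.adjoin ℚ {Loc.zetaG p}) ↔ s ∈ GU L ∧ cycloChar p s = 1 := by
  rw [← h42k_fix_iff]
  show s ∈ (L ⊔ IntermediateField.adjoin ℚ {Loc.zetaG p}).fixingSubgroup ↔
    s ∈ L.fixingSubgroup ∧ _
  rw [IntermediateField.fixingSubgroup_sup, Subgroup.mem_inf]
  refine and_congr Iff.rfl ?_
  rw [IntermediateField.mem_fixingSubgroup_iff]
  constructor
  · intro h
    exact h _ (IntermediateField.mem_adjoin_simple_self ℚ _)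
  · intro h x hx
    have hle : IntermediateField.adjoin ℚ {Loc.zetaG p} ≤
        IntermediateField.fixedField (Subgroup.zpowers s) := by
      rw [IntermediateField.adjoin_le_iff]
      intro y hy
      rw [Set.mem_singleton_iff] at hy
      rw [hy]
      intro ⟨t, ht⟩
      obtain ⟨k, rfl⟩ := Subgroup.mem_zpowers_iff.mp ht
      show (s ^ k) (Loc.zetaG p) = Loc.zetaG p
      have hfix : s ∈ MulAction.stabilizer GQ (Loc.zetaG p) := h
      exact (MulAction.stabilizer GQ (Loc.zetaG p)).zpow_mem hfix k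
    exact hle hx ⟨s, Subgroup.mem_zpowers s⟩

/-- **REC-KCHI.** -/
theorem h42k_recKChi : RecKChi := by
  intro p _ L _
  have hp : p.Prime := Fact.out
  haveI : NeZero p := ⟨hp.ne_zero⟩
  set χ := cycloChar p with hχ
  -- the image of `G_L`
  set H : Subgroup (ZMod p)ˣ := (GU L).map χ with hH
  haveI : IsCyclic H := Subgroup.isCyclic H
  obtain ⟨⟨h0, hh0⟩, hgen⟩ := IsCyclic.exists_generator (α := H)
  obtain ⟨σ', hσ'L, hσ'⟩ := hh0
  have hgen' : ∀ g ∈ GU L, ∃ i, i < orderOf h0 ∧ h0 ^ i = χ g := by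
    intro g hg
    have hmem : (⟨χ g, ⟨g, hg, rfl⟩⟩ : H) ∈ Subgroup.zpowers (⟨h0, ⟨σ', hσ'L, hσ'⟩⟩ : H) :=
      hgen _
    obtain ⟨k, hk⟩ := Subgroup.mem_zpowers_iff.mp hmem
    have hk' : h0 ^ k = χ g := by
      have := congrArg (fun x : H => (x : (ZMod p)ˣ)) hk
      simpa using this
    have hpos : 0 < orderOf h0 := orderOf_pos h0
    refine ⟨(k % (orderOf h0 : ℤ)).toNat, ?_, ?_⟩
    · have h1 : k % (orderOf h0 : ℤ) < (orderOf h0 : ℤ) :=
        Int.emod_lt_of_pos _ (by exact_mod_cast hpos)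
      have h2 : 0 ≤ k % (orderOf h0 : ℤ) :=
        Int.emod_nonneg _ (by exact_mod_cast hpos.ne')
      omega
    · have h2 : 0 ≤ k % (orderOf h0 : ℤ) :=
        Int.emod_nonneg _ (by exact_mod_cast hpos.ne')
      rw [← zpow_natCast, Int.toNat_of_nonneg h2, zpow_mod_orderOf]
      exact hk'
  refine ⟨orderOf h0, σ', ?_, ?_⟩
  · -- `p ∤ n`
    intro hdvd
    have h1 : orderOf h0 ∣ Fintype.card (ZMod p)ˣ := orderOf_dvd_card
    rw [ZMod.card_units_eq_totient, Nat.totient_prime hp] at h1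
    have h2 : p ∣ p - 1 := hdvd.trans h1
    have h3 : p ≤ p - 1 := Nat.le_of_dvd (by have := hp.two_le; omega) h2
    have := hp.two_le
    omega
  · refine ⟨le_sup_left, ?_, hσ'L, ?_, ?_, ?_, orderOf_pos h0⟩
    · -- finite dimensional
      haveI : Algebra.IsAlgebraic ℚ Qb := AlgebraicClosure.isAlgebraic ℚ
      haveI : FiniteDimensional ℚ (IntermediateField.adjoin ℚ {Loc.zetaG p}) :=
        IntermediateField.adjoin.finiteDimensional (Algebra.IsIntegral.isIntegral _)
      exact IntermediateField.finiteDimensional_sup L _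
    · -- normal
      intro g hg s hs
      rw [h42k_mem_GU_sup] at hs ⊢
      refine ⟨(GU L).mul_mem ((GU L).mul_mem hg hs.1) ((GU L).inv_mem hg), ?_⟩
      rw [map_mul, map_mul, hs.2, mul_one, map_inv, mul_inv_cancel]
    · -- gen
      intro g hg
      obtain ⟨i, hi, hig⟩ := hgen' g hg
      refine ⟨i, hi, ?_⟩
      rw [h42k_mem_GU_sup]
      refine ⟨(GU L).mul_mem ((GU L).inv_mem ((GU L).pow_mem hσ'L i)) hg, ?_⟩
      rw [map_mul, map_inv, map_pow, ← hχ, hσ', hig, inv_mul_cancel]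
    · -- ord
      intro i hi0 hin hmem
      rw [h42k_mem_GU_sup] at hmem
      have h1 : h0 ^ i = 1 := by
        rw [← hσ', ← map_pow]
        exact hmem.2
      exact pow_ne_one_of_lt_orderOf hi0.ne' hin h1

end Fermat.Agent.PT.Glob
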