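import Mathlib
import Fermat.Agent.PT.Glob.Rec.Iface
import Fermat.Agent.PT.Glob.MC.H49GIdx

/-!
# W3-PT / PT-GLOB-REC leaf REC-SUM (helper46)

`h46r_recSum : RecCyclo → RecFrobChar → RecSum`.

The index `ψ(g) = idx_σ(g) mod p` is a homomorphism `G_ℚ → ℤ/p` (`h49g_idx_mul`) which vanishes
on `G_{Q'} = recSub ℓ p`, the elements whose mod `ℓ` cyclotomic character is a `p`-th power.
For a natural number `m` all of whose prime factors lie in `T` (`ℓ ∉ T`), the product `g_m` of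
the Frobenius elements has `χ_ℓ(g_m) = m` and `ψ(g_m) = ∑_{q ∈ T} v_q(m) ψ(Frob_q)`.  Apply this
to the numerator and the denominator of the `ℓ`-unit part of `B`: their quotient is `± x ^ p`
modulo `ℓ`, a `p`-th power (`p` odd).
-/

set_option autoImplicit false

open scoped Classical

noncomputable section

namespace Fermat.Agent.PT.Glob

open Fermat.Agent.Bridge ExtCitation

section Sum

variable (p ℓ : ℕ) [Fact p.Prime] [Fact ℓ.Prime]

/-- the index character `ψ = idx_σ mod p`. -/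
def h46r_psi (σ : GQ) (g : GQ) : ZMod p := (gcycIdx (recField ℓ p) σ p g : ZMod p)

lemma h46r_mem_GU_bot (g : GQ) : g ∈ GU (⊥ : NFd) := by
  show g ∈ (⊥ : NFd).fixingSubgroup
  rw [IntermediateField.fixingSubgroup_bot]
  trivial

variable {p ℓ}

lemma h46r_psi_mul {σ : GQ} (hc : GIsCyc ⊥ (recField ℓ p) p σ) (g h : GQ) :
    h46r_psi p ℓ σ (g * h) = h46r_psi p ℓ σ g + h46r_psi p ℓ σ h := by
  unfold h46r_psi
  rw [h49g_idx_mul hc (h46r_mem_GU_bot g) (h46r_mem_GU_bot h), ZMod.natCast_mod, Nat.cast_add]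

lemma h46r_psi_of_mem {σ : GQ} (hc : GIsCyc ⊥ (recField ℓ p) p σ) {g : GQ}
    (hg : g ∈ GU (recField ℓ p)) : h46r_psi p ℓ σ g = 0 := by
  unfold h46r_psi
  rw [h49g_idx_of_mem hc hg, Nat.cast_zero]

variable (p ℓ)

/-- the Frobenius element at a natural number (`1` if it is not prime). -/
def h46r_frob (q : ℕ) : GQ := if h : q.Prime then @recFrob q ⟨h⟩ else 1

lemma h46r_frob_eq (q : ℕ) [hq : Fact q.Prime] : h46r_frob q = recFrob q := by
  unfold h46r_frob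
  rw [dif_pos hq.out]

/-- `Ψ_T(m) = ∑_{q ∈ T} v_q(m) ψ(Frob_q)`. -/
def h46r_Psi (σ : GQ) (T : Finset Nat.Primes) (m : ℕ) : ZMod p :=
  ∑ q ∈ T, (padicValNat (q : ℕ) m : ZMod p) * h46r_psi p ℓ σ (h46r_frob (q : ℕ))

variable {p ℓ}

lemma h46r_Psi_mul (σ : GQ) (T : Finset Nat.Primes) {a b : ℕ} (ha : a ≠ 0) (hb : b ≠ 0) :
    h46r_Psi p ℓ σ T (a * b) = h46r_Psi p ℓ σ T a + h46r_Psi p ℓ σ T b := by
  unfold h46r_Psi
  rw [← Finset.sum_add_distrib]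
  refine Finset.sum_congr rfl fun q _ => ?_
  have : Fact ((q : ℕ).Prime) := ⟨q.2⟩
  rw [padicValNat.mul ha hb, Nat.cast_add, add_mul]

lemma h46r_Psi_one (σ : GQ) (T : Finset Nat.Primes) : h46r_Psi p ℓ σ T 1 = 0 := by
  unfold h46r_Psi
  refine Finset.sum_eq_zero fun q _ => ?_
  simp

lemma h46r_Psi_prime (σ : GQ) (T : Finset Nat.Primes) (q₀ : Nat.Primes) (hq₀ : q₀ ∈ T) :
    h46r_Psi p ℓ σ T (q₀ : ℕ) = h46r_psi p ℓ σ (h46r_frob (q₀ : ℕ)) := by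
  unfold h46r_Psi
  have : Fact ((q₀ : ℕ).Prime) := ⟨q₀.2⟩
  rw [Finset.sum_eq_single q₀]
  · rw [padicValNat_self, Nat.cast_one, one_mul]
  · intro q _ hne
    have : Fact ((q : ℕ).Prime) := ⟨q.2⟩
    have hne' : (q : ℕ) ≠ (q₀ : ℕ) := fun h => hne (Subtype.ext h)
    rw [padicValNat_primes hne', Nat.cast_zero, zero_mul]
  · intro h
    exact absurd hq₀ h

/-- the product of Frobenius elements attached to `m`. -/
lemma h46r_exists (hF : RecFrobChar) {σ : GQ} (hc : GIsCyc ⊥ (recField ℓ p) p σ)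
    (T : Finset Nat.Primes) (hT : ∀ q ∈ T, (q : ℕ) ≠ ℓ) (m : ℕ) (hm : m ≠ 0)
    (hsupp : ∀ r : ℕ, r.Prime → r ∣ m → ∃ q ∈ T, (q : ℕ) = r) :
    ∃ g : GQ, ((cycloChar ℓ g : (ZMod ℓ)ˣ) : ZMod ℓ) = (m : ZMod ℓ) ∧
      h46r_psi p ℓ σ g = h46r_Psi p ℓ σ T m := by
  induction m using Nat.recOnMul with
  | zero => exact absurd rfl hm
  | one =>
    refine ⟨1, by simp, ?_⟩
    rw [h46r_Psi_one]
    exact h46r_psi_of_mem hc (one_mem _)
  | prime r hr =>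
    have hr' : r.Prime := hr
    obtain ⟨q, hqT, hqr⟩ := hsupp r hr' dvd_rfl
    have : Fact ((q : ℕ).Prime) := ⟨q.2⟩
    refine ⟨recFrob (q : ℕ), ?_, ?_⟩
    · rw [hF ℓ (q : ℕ) (hT q hqT), hqr]
    · rw [← hqr, h46r_Psi_prime σ T q hqT, h46r_frob_eq]
  | mul a b iha ihb =>
    have ha : a ≠ 0 := fun h => hm (by rw [h, zero_mul])
    have hb : b ≠ 0 := fun h => hm (by rw [h, mul_zero])
    obtain ⟨ga, hga1, hga2⟩ := iha ha (fun r hr hra => hsupp r hr (dvd_mul_of_dvd_left hra b))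
    obtain ⟨gb, hgb1, hgb2⟩ := ihb hb (fun r hr hrb => hsupp r hr (dvd_mul_of_dvd_right hrb a))
    refine ⟨ga * gb, ?_, ?_⟩
    · rw [map_mul, Units.val_mul, hga1, hgb1, Nat.cast_mul]
    · rw [h46r_psi_mul hc, hga2, hgb2, h46r_Psi_mul σ T ha hb]

/-- `ψ` only depends on the cyclotomic character modulo `± p`-th powers. -/
lemma h46r_psi_eq (hGU : GU (recField ℓ p) = recSub ℓ p) {σ : GQ}
    (hc : GIsCyc ⊥ (recField ℓ p) p σ) (hp2 : p ≠ 2) (g g' : GQ) (x ε : ZMod ℓ)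
    (hε : ε = 1 ∨ ε = -1)
    (h : ((cycloChar ℓ g : (ZMod ℓ)ˣ) : ZMod ℓ) =
      ε * x ^ p * ((cycloChar ℓ g' : (ZMod ℓ)ˣ) : ZMod ℓ)) :
    h46r_psi p ℓ σ g = h46r_psi p ℓ σ g' := by
  have hodd : Odd p := (Fact.out : p.Prime).odd_of_ne_two hp2
  have hεp : ε ^ p = ε := by
    rcases hε with rfl | rfl
    · exact one_pow p
    · exact hodd.neg_one_pow
  have hy : (ε * x) ^ p = ε * x ^ p := by rw [mul_pow, hεp]
  have hy0 : ε * x ≠ 0 := by
    intro h0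
    rw [← hy, h0, zero_pow (Fact.out : p.Prime).ne_zero, zero_mul] at h
    exact (cycloChar ℓ g).ne_zero h
  have hmem : g * g'⁻¹ ∈ recSub ℓ p := by
    show cycloChar ℓ (g * g'⁻¹) ∈ (powMonoidHom p : (ZMod ℓ)ˣ →* (ZMod ℓ)ˣ).range
    refine ⟨Units.mk0 (ε * x) hy0, ?_⟩
    apply Units.ext
    rw [powMonoidHom_apply, Units.val_pow_eq_pow_val, Units.val_mk0, hy, map_mul, map_inv,
      Units.val_mul, h, mul_assoc, ← Units.val_mul, mul_inv_cancel, Units.val_one, mul_one]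
  rw [← hGU] at hmem
  have h1 := h46r_psi_of_mem hc hmem
  have h2 : g = (g * g'⁻¹) * g' := by group
  rw [h2, h46r_psi_mul hc, h1, zero_add]

end Sum

/-- **REC-SUM.** -/
theorem h46r_recSum (hC : RecCyclo) (hF : RecFrobChar) : RecSum := by
  intro p ℓ _ _ hp2 hdvd σ hσ B hB hpow T hT₁ hT₂
  obtain ⟨hGU, hcyc⟩ := hC p ℓ hdvd
  have hc := hcyc σ hσ
  have hℓp : ℓ.Prime := Fact.out
  have hℓ0 : (ℓ : ℚ) ≠ 0 := by exact_mod_cast hℓp.ne_zero
  have hz0 : (ℓ : ℚ) ^ padicValRat ℓ B ≠ 0 := zpow_ne_zero _ hℓ0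
  have hu0 : recUnitPart ℓ B ≠ 0 := div_ne_zero hB hz0
  -- valuations of the unit part
  have hvalℓ : padicValRat ℓ (recUnitPart ℓ B) = 0 := by
    unfold recUnitPart
    rw [padicValRat.div hB hz0, padicValRat.zpow, padicValRat.self hℓp.one_lt, mul_one, sub_self]
  have hvalq : ∀ q : ℕ, q.Prime → q ≠ ℓ →
      padicValRat q (recUnitPart ℓ B) = padicValRat q B := by
    intro q hq hqℓ
    have : Fact q.Prime := ⟨hq⟩
    unfold recUnitPart
    rw [padicValRat.div hB hz0, padicValRat.zpow, padicValRat.of_nat, padicValNat_primes hqℓ,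
      Nat.cast_zero, mul_zero, sub_zero]
  set N : ℤ := (recUnitPart ℓ B).num with hN
  set D : ℕ := (recUnitPart ℓ B).den with hD
  have hN0 : N ≠ 0 := Rat.num_ne_zero.2 hu0
  have hNa0 : N.natAbs ≠ 0 := Int.natAbs_ne_zero.2 hN0
  have hD0 : D ≠ 0 := (recUnitPart ℓ B).den_ne_zero
  have hcop : N.natAbs.Coprime D := (recUnitPart ℓ B).reduced
  have hdef : ∀ q : ℕ, padicValRat q (recUnitPart ℓ B) =
      (padicValNat q N.natAbs : ℤ) - (padicValNat q D : ℤ) := fun q => rfl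
  -- the prime factors of `N` and `D` lie in `T`
  have hsuppN : ∀ r : ℕ, r.Prime → r ∣ N.natAbs → ∃ q ∈ T, (q : ℕ) = r := by
    intro r hr hrN
    have : Fact r.Prime := ⟨hr⟩
    have hrD : ¬ r ∣ D := fun hrD => hr.one_lt.ne' (Nat.eq_one_of_dvd_coprimes hcop hrN hrD)
    have h1 : 1 ≤ padicValNat r N.natAbs := one_le_padicValNat_of_dvd hNa0 hrN
    have h2 : padicValNat r D = 0 := padicValNat.eq_zero_of_not_dvd hrD
    have h3 : padicValRat r (recUnitPart ℓ B) ≠ 0 := by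
      rw [hdef, h2]
      omega
    have hrℓ : r ≠ ℓ := by
      rintro rfl
      exact h3 hvalℓ
    refine ⟨⟨r, hr⟩, hT₂ ⟨r, hr⟩ hrℓ ?_, rfl⟩
    rw [← hvalq r hr hrℓ]
    exact h3
  have hsuppD : ∀ r : ℕ, r.Prime → r ∣ D → ∃ q ∈ T, (q : ℕ) = r := by
    intro r hr hrD
    have : Fact r.Prime := ⟨hr⟩
    have hrN : ¬ r ∣ N.natAbs := fun hrN =>
      hr.one_lt.ne' (Nat.eq_one_of_dvd_coprimes hcop hrN hrD)
    have h1 : 1 ≤ padicValNat r D := one_le_padicValNat_of_dvd hD0 hrD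
    have h2 : padicValNat r N.natAbs = 0 := padicValNat.eq_zero_of_not_dvd hrN
    have h3 : padicValRat r (recUnitPart ℓ B) ≠ 0 := by
      rw [hdef, h2]
      omega
    have hrℓ : r ≠ ℓ := by
      rintro rfl
      exact h3 hvalℓ
    refine ⟨⟨r, hr⟩, hT₂ ⟨r, hr⟩ hrℓ ?_, rfl⟩
    rw [← hvalq r hr hrℓ]
    exact h3
  obtain ⟨gN, hgN1, hgN2⟩ := h46r_exists hF hc T hT₁ N.natAbs hNa0 hsuppN
  obtain ⟨gD, hgD1, hgD2⟩ := h46r_exists hF hc T hT₁ D hD0 hsuppD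
  -- the quotient is `± x ^ p`
  obtain ⟨x, hx⟩ := hpow
  have hx' : x ^ p * (D : ZMod ℓ) = (N : ZMod ℓ) := hx
  obtain ⟨ε, hε, hεN⟩ : ∃ ε : ZMod ℓ, (ε = 1 ∨ ε = -1) ∧
      ((N.natAbs : ℕ) : ZMod ℓ) = ε * (N : ZMod ℓ) := by
    rcases Int.natAbs_eq N with h | h
    · refine ⟨1, Or.inl rfl, ?_⟩
      rw [one_mul]
      conv_rhs => rw [h]
      rw [Int.cast_natCast]
    · refine ⟨-1, Or.inr rfl, ?_⟩
      conv_rhs => rw [h]
      rw [Int.cast_neg, Int.cast_natCast]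
      ring
  have hrel : ((cycloChar ℓ gN : (ZMod ℓ)ˣ) : ZMod ℓ) =
      ε * x ^ p * ((cycloChar ℓ gD : (ZMod ℓ)ˣ) : ZMod ℓ) := by
    rw [hgN1, hgD1, hεN, ← hx']
    ring
  have hpsi := h46r_psi_eq hGU hc hp2 gN gD x ε hε hrel
  rw [hgN2, hgD2] at hpsi
  -- the sum
  have hterm : ∀ q ∈ T, (haveI : Fact ((q : ℕ).Prime) := ⟨q.2⟩; recExp ℓ p σ B (q : ℕ)) =
      (padicValNat (q : ℕ) N.natAbs : ZMod p) * h46r_psi p ℓ σ (h46r_frob (q : ℕ)) -
        (padicValNat (q : ℕ) D : ZMod p) * h46r_psi p ℓ σ (h46r_frob (q : ℕ)) := by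
    intro q hq
    have : Fact ((q : ℕ).Prime) := ⟨q.2⟩
    show (padicValRat (q : ℕ) B : ZMod p) *
      (gcycIdx (recField ℓ p) σ p (recFrob (q : ℕ)) : ZMod p) = _
    rw [← hvalq (q : ℕ) q.2 (hT₁ q hq), hdef, h46r_frob_eq]
    unfold h46r_psi
    rw [Int.cast_sub, Int.cast_natCast, Int.cast_natCast]
    ring
  rw [Finset.sum_congr rfl hterm, Finset.sum_sub_distrib]
  have h1 : ∑ q ∈ T, (padicValNat (q : ℕ) N.natAbs : ZMod p) *
      h46r_psi p ℓ σ (h46r_frob (q : ℕ)) = h46r_Psi p ℓ σ T N.natAbs := rfl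
  have h2 : ∑ q ∈ T, (padicValNat (q : ℕ) D : ZMod p) *
      h46r_psi p ℓ σ (h46r_frob (q : ℕ)) = h46r_Psi p ℓ σ T D := rfl
  rw [h1, h2, hpsi, sub_self]

end Fermat.Agent.PT.Glob
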