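import Mathlib
import Fermat.Agent.PT.Glob.Rec.Iface
import Fermat.Agent.PT.Bridge.Levels

/-!
# W3-PT / GLOB-REC, leaf REC-CYCLO (helper6): `RecCyclo`

`recSub ℓ p` (the elements of `G_ℚ` whose mod `ℓ` cyclotomic character is a `p`-th power) is an
open normal subgroup; for `p ∣ ℓ - 1` its fixed field `Q' = recField ℓ p` is cyclic of degree
`p` over `ℚ`, generated by any `σ ∉ recSub ℓ p`, and `G_{Q'} = recSub ℓ p`.
-/

set_option autoImplicit false

open scoped Classical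

noncomputable section

namespace Fermat.Agent.PT.Glob

open Fermat.Agent.Bridge ExtCitation

theorem h6r_mem_recSub {ℓ p : ℕ} [Fact ℓ.Prime] {g : GQ} :
    g ∈ recSub ℓ p ↔ cycloChar ℓ g ∈ (powMonoidHom p : (ZMod ℓ)ˣ →* (ZMod ℓ)ˣ).range :=
  Iff.rfl

instance h6r_recSub_normal (ℓ p : ℕ) [Fact ℓ.Prime] : (recSub ℓ p).Normal where
  conj_mem n hn g := by
    rw [h6r_mem_recSub] at hn ⊢
    rw [map_mul, map_mul, map_inv, mul_comm, ← mul_assoc, inv_mul_cancel, one_mul]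
    exact hn

/-- `recSub` is open: `G_{Q'} = recSub` and `Q'` is finite over `ℚ`. -/
theorem h6r_recSub_fix (ℓ p : ℕ) [Fact ℓ.Prime] :
    GU (recField ℓ p) = recSub ℓ p ∧ FiniteDimensional ℚ (recField ℓ p) := by
  haveI := Fermat.Agent.PT.pt79_normal_Qbar
  haveI := Fermat.Agent.PT.pt79_isGalois_Qbar
  obtain ⟨F₀, hF₀, hle⟩ := Fermat.Agent.PT.pt79_cycloChar_open ℓ
  have hle' : F₀.fixingSubgroup ≤ recSub ℓ p := by
    intro g hg
    have h1 : cycloChar ℓ g = 1 := MonoidHom.mem_ker.mp (hle hg)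
    rw [h6r_mem_recSub, h1]
    exact Subgroup.one_mem _
  have hopenN : IsOpen (recSub ℓ p : Set GQ) :=
    Subgroup.isOpen_mono hle' (IntermediateField.fixingSubgroup_isOpen F₀)
  have hclosed : IsClosed (recSub ℓ p : Set GQ) := OpenSubgroup.isClosed ⟨recSub ℓ p, hopenN⟩
  have hfix : (IntermediateField.fixedField (recSub ℓ p)).fixingSubgroup = recSub ℓ p :=
    InfiniteGalois.fixingSubgroup_fixedField (k := ℚ) (K := Qb) ⟨recSub ℓ p, hclosed⟩
  refine ⟨hfix, ?_⟩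
  show FiniteDimensional ℚ (IntermediateField.fixedField (recSub ℓ p))
  rw [← InfiniteGalois.isOpen_iff_finite, hfix]
  exact hopenN

/-- The `p`-th powers have index `p` in `(ℤ/ℓ)ˣ` for `p ∣ ℓ - 1`. -/
theorem h6r_index (ℓ p : ℕ) [Fact ℓ.Prime] (h : p ∣ ℓ - 1) :
    ((powMonoidHom p : (ZMod ℓ)ˣ →* (ZMod ℓ)ˣ).range).index = p := by
  rw [IsCyclic.index_powMonoidHom_range, Nat.card_eq_fintype_card, ZMod.card_units_eq_totient,
    Nat.totient_prime Fact.out]
  exact Nat.gcd_eq_right h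

/-- In a commutative group with a subgroup `P` of prime index `p` and `c ∉ P`: every element is
`c ^ i` modulo `P` for some `i < p`, and `c ^ i ∉ P` for `0 < i < p`. -/
theorem h6r_prime_index {G : Type*} [CommGroup G] (P : Subgroup G) {p : ℕ} (hp : p.Prime)
    (hidx : P.index = p) {c : G} (hc : c ∉ P) :
    (∀ x : G, ∃ i, i < p ∧ (c ^ i)⁻¹ * x ∈ P) ∧ ∀ i, 0 < i → i < p → c ^ i ∉ P := by
  haveI : Fact p.Prime := ⟨hp⟩
  have hcard : Nat.card (G ⧸ P) = p := by rw [← Subgroup.index_eq_card]; exact hidx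
  have hc1 : (QuotientGroup.mk c : G ⧸ P) ≠ 1 := by
    intro h
    exact hc ((QuotientGroup.eq_one_iff c).mp h)
  have hpow : (QuotientGroup.mk c : G ⧸ P) ^ p = 1 := by
    rw [← hcard]
    exact pow_card_eq_one'
  constructor
  · intro x
    obtain ⟨n, hn⟩ := mem_powers_of_prime_card (G := G ⧸ P) hcard hc1
      (g' := (QuotientGroup.mk x : G ⧸ P))
    have hn' : (QuotientGroup.mk c : G ⧸ P) ^ n = QuotientGroup.mk x := hn
    refine ⟨n % p, Nat.mod_lt _ hp.pos, ?_⟩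
    have h1 : (QuotientGroup.mk c : G ⧸ P) ^ (n % p) = QuotientGroup.mk x := by
      rw [← hn']
      conv_rhs => rw [← Nat.mod_add_div n p]
      rw [pow_add, pow_mul, hpow, one_pow, mul_one]
    have h2 : (QuotientGroup.mk (c ^ (n % p)) : G ⧸ P) = QuotientGroup.mk x := by
      rw [QuotientGroup.mk_pow]
      exact h1
    exact QuotientGroup.eq.mp h2
  · intro i hi0 hip hmem
    have h1 : (QuotientGroup.mk c : G ⧸ P) ^ i = 1 := by
      rw [← QuotientGroup.mk_pow]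
      exact (QuotientGroup.eq_one_iff _).mpr hmem
    have h2 : orderOf (QuotientGroup.mk c : G ⧸ P) ∣ i := orderOf_dvd_of_pow_eq_one h1
    have h3 : orderOf (QuotientGroup.mk c : G ⧸ P) = p := orderOf_eq_prime hpow hc1
    rw [h3] at h2
    exact absurd (Nat.le_of_dvd hi0 h2) (not_le.mpr hip)

/-- **(REC-CYCLO)** -/
theorem h6r_recCyclo : RecCyclo := by
  intro p ℓ _ _ hdvd
  have hp : p.Prime := Fact.out
  obtain ⟨hfix, hfin⟩ := h6r_recSub_fix ℓ p
  refine ⟨hfix, fun σ hσ => ?_⟩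
  have hσ' : cycloChar ℓ σ ∉ (powMonoidHom p : (ZMod ℓ)ˣ →* (ZMod ℓ)ˣ).range := hσ
  obtain ⟨hgen, hord⟩ := h6r_prime_index _ hp (h6r_index ℓ p hdvd) hσ'
  refine ⟨bot_le, hfin, ?_, ?_, ?_, ?_, hp.pos⟩
  · show σ ∈ (⊥ : IntermediateField ℚ Qb).fixingSubgroup
    rw [IntermediateField.fixingSubgroup_bot]
    exact Subgroup.mem_top σ
  · intro g _ s hs
    rw [hfix] at hs ⊢
    exact (h6r_recSub_normal ℓ p).conj_mem s hs g
  · intro g _
    obtain ⟨i, hi, hmem⟩ := hgen (cycloChar ℓ g)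
    refine ⟨i, hi, ?_⟩
    rw [hfix, h6r_mem_recSub, map_mul, map_inv, map_pow]
    exact hmem
  · intro i hi0 hip hmem
    rw [hfix, h6r_mem_recSub, map_pow] at hmem
    exact hord i hi0 hip hmem

end Fermat.Agent.PT.Glob
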