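import Mathlib
import Fermat.Agent.PT.Glob.Rec.Iface
import Fermat.Agent.PT.Glob.H79AuxPrime
import Fermat.Agent.PT.Glob.H36GUnr0
import Fermat.Agent.PT.Bridge.Levels
import Fermat.Agent.PT.Loc.H76MC

/-!
# W3-PT / PT-GLOB-REC (helper79): assembly of the reciprocity law over `ℚ`

`h79r_recQ_of : (leaves of Rec/Iface.lean) → GHasse → GMCInfResPer → Loc.InvAdd → RecQHasInv`.
-/

set_option autoImplicit false
set_option linter.style.haveILetI false

open scoped Classical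

noncomputable section

namespace Fermat.Agent.PT.Glob

open Fermat.Agent.Bridge ExtCitation

/-- membership in the fixing subgroup of a simple extension. -/
theorem h79r_mem_GU_adjoin_iff (ζ : Qb) (s : GQ) :
    s ∈ GU (IntermediateField.adjoin ℚ {ζ}) ↔ s ζ = ζ := by
  constructor
  · intro h
    exact h ⟨ζ, IntermediateField.mem_adjoin_simple_self ℚ ζ⟩
  · intro h
    have hle : IntermediateField.adjoin ℚ {ζ} ≤ IntermediateField.fixedField (Subgroup.zpowers s) := by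
      rw [IntermediateField.adjoin_simple_le_iff, IntermediateField.mem_fixedField_iff]
      intro g hg
      obtain ⟨n, rfl⟩ := Subgroup.mem_zpowers_iff.mp hg
      have hfix : s ∈ MulAction.stabilizer GQ ζ := h
      exact (MulAction.stabilizer GQ ζ).zpow_mem hfix n
    rw [IntermediateField.mem_fixingSubgroup_iff]
    intro x hx
    have h2 := hle hx
    rw [IntermediateField.mem_fixedField_iff] at h2
    exact h2 s (Subgroup.mem_zpowers s)

/-- continuity of level `S` implies continuity. -/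
theorem h79r_gCont2_of_gContS2 {S : Finset Nat.Primes} {L : NFd} {X : Type*}
    {f : GQ × GQ → X} (h : GContS2 S L f) : GCont2 L f := by
  obtain ⟨F, hF, hle, hf⟩ := h
  exact ⟨F, hF.1, hle, hf⟩

/-- restriction of continuity to a larger field. -/
theorem h79r_gCont2_res {L K : NFd} [FiniteDimensional ℚ K] (hle : L ≤ K) {X : Type*}
    {f : GQ × GQ → X} (h : GCont2 L f) : GCont2 K f := by
  obtain ⟨F, hF, hLF, hf⟩ := h
  haveI := hF
  refine ⟨F ⊔ K, IntermediateField.finiteDimensional_sup F K, le_sup_right, ?_⟩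
  intro g hg g' hg' s hs s' hs'
  have hGU : GU K ≤ GU L := IntermediateField.fixingSubgroup_antitone hle
  have hGF : GU (F ⊔ K) ≤ GU F := IntermediateField.fixingSubgroup_antitone le_sup_left
  exact hf g (hGU hg) g' (hGU hg') s (hGF hs) s' (hGF hs')

/-- restriction of the cocycle condition. -/
theorem h79r_gmCoc2_res {L K : NFd} (hle : L ≤ K) {c : GQ × GQ → Qbˣ} (h : GMCoc2 L c) :
    GMCoc2 K c := by
  have hGU : GU K ≤ GU L := IntermediateField.fixingSubgroup_antitone hle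
  intro g hg h' hh' j hj
  exact h g (hGU hg) h' (hGU hh') j (hGU hj)

/-- the support of a rational number, as a set of primes. -/
def h79r_supp (B : ℚ) : Finset Nat.Primes :=
  (B.num.natAbs.primeFactors ∪ B.den.primeFactors).subtype Nat.Prime

theorem h79r_mem_supp {B : ℚ} (hB : B ≠ 0) (q : Nat.Primes)
    (h : padicValRat (q : ℕ) B ≠ 0) : q ∈ h79r_supp B := by
  haveI : Fact ((q : ℕ).Prime) := ⟨q.2⟩
  by_contra hcon0
  have hcon : ¬ ((q : ℕ) ∈ B.num.natAbs.primeFactors ∪ B.den.primeFactors) := fun hmem =>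
    hcon0 (Finset.mem_subtype.mpr hmem)
  rw [Finset.mem_union, not_or] at hcon
  obtain ⟨h1, h2⟩ := hcon
  apply h
  have hnum : B.num ≠ 0 := Rat.num_ne_zero.mpr hB
  have hn : ¬ (q : ℕ) ∣ B.num.natAbs := fun hd =>
    h1 (Nat.mem_primeFactors.mpr ⟨q.2, hd, Int.natAbs_ne_zero.mpr hnum⟩)
  have hd : ¬ (q : ℕ) ∣ B.den := fun hd =>
    h2 (Nat.mem_primeFactors.mpr ⟨q.2, hd, B.den_ne_zero⟩)
  rw [padicValRat_def, padicValInt, padicValNat.eq_zero_of_not_dvd hn,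
    padicValNat.eq_zero_of_not_dvd hd]
  simp

/-- **REC-ASM**: the reciprocity law over `ℚ` from the leaves. -/
theorem h79r_recQ_of (hZ : RecZetaOK) (hF : RecFrame) (hM : RecMult) (hL : RecLocalise)
    (hC : RecCyclo) (hFC : RecFrobChar) (hK : RecKChi) (hD : RecDescGlob) (hU : RecUnr)
    (hI : RecInert) (hT1 : RecLocTriv1) (hCj : RecConj) (hLC : RecLocCarry) (hTm : RecTame)
    (hS : RecSum) (hHasse : GHasse) (hIR : GMCInfResPer) (hA : Loc.InvAdd) : RecQHasInv := by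
  intro p _ hp2 S hpS a ha t ht
  have hp : p.Prime := Fact.out
  haveI : NeZero p := ⟨hp.ne_zero⟩
  -- the auxiliary prime
  obtain ⟨ℓ, hℓ, hℓS, hℓmod, hnp⟩ := h79r_exists_aux_prime p
    (S.image (fun q : Nat.Primes => (q : ℕ))) (S.image (fun q : Nat.Primes => (q : ℕ)))
    (fun q hq => by
      obtain ⟨q', -, rfl⟩ := Finset.mem_image.mp hq
      exact q'.2)
  haveI : Fact ℓ.Prime := ⟨hℓ⟩
  have hℓS' : ∀ q' ∈ S, ((q' : Nat.Primes) : ℕ) ≠ ℓ := fun q' hq' h =>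
    hℓS (Finset.mem_image.mpr ⟨q', hq', h⟩)
  have hnp' : ∀ q' ∈ S, ∀ x : ZMod ℓ, x ^ p ≠ (((q' : Nat.Primes) : ℕ) : ZMod ℓ) :=
    fun q' hq' => hnp _ (Finset.mem_image.mpr ⟨q', hq', rfl⟩)
  have hdvd : p ∣ ℓ - 1 := by
    have h1 : 1 ≡ ℓ [MOD p] := by
      rw [Nat.ModEq, hℓmod, Nat.mod_eq_of_lt hp.one_lt]
    exact (Nat.modEq_iff_dvd' hℓ.one_lt.le).mp h1
  have hpℓ : p ≠ ℓ := hℓS' (pPrime p) hpS
  -- the generator
  have hσ : recFrob p ∉ recSub ℓ p := by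
    intro hmem
    obtain ⟨u, hu⟩ := hmem
    have h1 := hFC ℓ p hpℓ
    have h2 : ((u : ZMod ℓ)) ^ p = (p : ZMod ℓ) := by
      rw [← h1, ← hu]
      simp
    exact hnp' (pPrime p) hpS _ h2
  obtain ⟨hGU, hcyc⟩ := hC p ℓ hdvd
  have hcycσ := hcyc (recFrob p) hσ
  -- the cocycle
  obtain ⟨hcoc, hcontS⟩ := hF p S a ha
  have hcont : GCont2 ⊥ a := h79r_gCont2_of_gContS2 hcontS
  obtain ⟨hmc, hmcont, hmL⟩ := hM p a hcoc hcont
  obtain ⟨hζprim, hζval, hζact, hζloc⟩ := hZ p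
  -- the field `K'`
  haveI hQfin : FiniteDimensional ℚ (recField ℓ p) := hcycσ.fin
  haveI hζfin : FiniteDimensional ℚ (IntermediateField.adjoin ℚ {Loc.zetaG p}) :=
    IntermediateField.adjoin.finiteDimensional
      ((hζprim.isIntegral hp.pos).tower_top (A := ℚ))
  haveI hKfin : FiniteDimensional ℚ (recFieldZ ℓ p) :=
    IntermediateField.finiteDimensional_sup _ _
  have hζK : Loc.zetaG p ∈ recFieldZ ℓ p :=
    (le_sup_right : IntermediateField.adjoin ℚ {Loc.zetaG p} ≤ recFieldZ ℓ p)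
      (IntermediateField.mem_adjoin_simple_self ℚ _)
  have hGUK : ∀ s : GQ, s ∈ GU (recFieldZ ℓ p) ↔ s ∈ recSub ℓ p ∧ s (Loc.zetaG p) = Loc.zetaG p := by
    intro s
    rw [recFieldZ]
    change s ∈ (recField ℓ p ⊔ IntermediateField.adjoin ℚ {Loc.zetaG p}).fixingSubgroup ↔ _
    rw [IntermediateField.fixingSubgroup_sup, Subgroup.mem_inf]
    change s ∈ GU (recField ℓ p) ∧ s ∈ GU (IntermediateField.adjoin ℚ {Loc.zetaG p}) ↔ _
    rw [hGU, h79r_mem_GU_adjoin_iff]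
  have hχK : ∀ s ∈ GU (recFieldZ ℓ p), cycloChar p s = 1 := fun s hs =>
    pt79_cycloChar_eq_one_of_fix p hζprim s ((hGUK s).mp hs).2
  have hnormK : ∀ g : GQ, ∀ s ∈ GU (recFieldZ ℓ p), g * s * g⁻¹ ∈ GU (recFieldZ ℓ p) := by
    intro g s hs
    have hs' := (hGUK s).mp hs
    rw [hGUK]
    refine ⟨?_, ?_⟩
    · have hn : (recSub ℓ p).Normal := by
        unfold recSub
        infer_instance
      exact hn.conj_mem s hs'.1 g
    · have h1 : cycloChar p (g * s * g⁻¹) = 1 := by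
        rw [map_mul, map_mul, hχK s hs, mul_one, ← map_mul, mul_inv_cancel, map_one]
      have h2 := pt79_cycloChar_spec p (g * s * g⁻¹) (Loc.zetaG p) hζprim.pow_eq_one
      rw [h1] at h2
      haveI : Fact (1 < p) := ⟨hp.one_lt⟩
      simpa [ZMod.val_one] using h2
  -- local triviality over `K'`
  have hloc : GLocTriv (recFieldZ ℓ p) a := by
    intro q _ g
    refine hCj p a hcoc hcont (recFieldZ ℓ p) hnormK hχK q g ?_
    by_cases hqS : ∃ q' ∈ S, ((q' : Nat.Primes) : ℕ) = q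
    · obtain ⟨q', hq', rfl⟩ := hqS
      refine hT1 p (q' : ℕ) a hcoc hcont (recFieldZ ℓ p) hζK (t ⟨q', hq'⟩) (ht ⟨q', hq'⟩)
        (Or.inr ?_)
      rw [← hI p ℓ (q' : ℕ) hdvd (hℓS' q' hq') (hnp' q' hq')]
      exact h36g_gLocField_mono (q := (q' : ℕ)) 1 le_sup_left
    · have hq' : ∀ q' ∈ S, ((q' : Nat.Primes) : ℕ) ≠ q := fun q' hq' h => hqS ⟨q', hq', h⟩
      exact hT1 p q a hcoc hcont (recFieldZ ℓ p) hζK 0
        (hU p hp2 S hpS a hcoc hcontS q hq') (Or.inl rfl)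
  -- the Hasse principle
  obtain ⟨haK, hcK, hmK⟩ := hmL (recFieldZ ℓ p) hζK
  have h1 : GACohom (recFieldZ ℓ p) a 0 :=
    hHasse p hp2 (recFieldZ ℓ p) (Loc.zetaG p) hζK hζprim a haK hcK hloc
  have h2 : GMCohom (recFieldZ ℓ p) (gzpw (recZeta p) a) 1 := hmK h1
  -- descent to `Q'`
  obtain ⟨n, σ', hn, hcyc'⟩ := hK p (recField ℓ p)
  have hpow : ∀ y, gzpw (recZeta p) a y ^ p = 1 := by
    intro y
    have hz : recZeta p ^ p = 1 := by
      apply Units.ext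
      rw [Units.val_pow_eq_pow_val, hζval, hζprim.pow_eq_one, Units.val_one]
    unfold gzpw
    rw [← pow_mul, mul_comm, pow_mul, hz, one_pow]
  have h3 : GMCohom (recField ℓ p) (gzpw (recZeta p) a) 1 :=
    hD p (recField ℓ p) (recFieldZ ℓ p) n σ' hcyc' hn _ hpow
      (h79r_gmCoc2_res bot_le hmc) (h79r_gCont2_res bot_le hmcont) h2
  -- the cyclic algebra
  obtain ⟨b, hb, h4⟩ := hIR ⊥ (recField ℓ p) p (recFrob p) hcycσ _ hmc hmcont h3
  obtain ⟨B, hB⟩ := IntermediateField.mem_bot.mp hb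
  have hB' : (b : Qb) = ((B : ℚ) : Qb) := by
    rw [← hB]
    exact (eq_ratCast (algebraMap ℚ Qb) B)
  have hB0 : B ≠ 0 := by
    rintro rfl
    rw [Rat.cast_zero] at hB'
    exact b.ne_zero hB'
  -- the invariants at `q ≠ ℓ`
  have key : ∀ (q : ℕ) [Fact q.Prime], q ≠ ℓ →
      Loc.HasInv p q (recLoc q a) (recExp ℓ p (recFrob p) B q) := by
    intro q _ hq
    have h5 := (hL q).1 _ _ h4
    rw [((hL q).2 p a).1] at h5
    exact Loc.h76m_trans h5 (hLC p ℓ q hdvd hq (recFrob p) hσ B b hB0 hB')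
  -- the place `ℓ`
  have hpowB : RecIsPow ℓ p B := by
    have h5 := (hL ℓ).1 _ _ h4
    rw [((hL ℓ).2 p a).1] at h5
    have h0 : Loc.HasInv p ℓ (recLoc ℓ a) 0 := hU p hp2 S hpS a hcoc hcontS ℓ hℓS'
    have h0' : Loc.MCohom (⊥ : Loc.LF ℓ) (Loc.zpw (Loc.zetaU p ℓ) (recLoc ℓ a)) 1 := by
      have h00 : (fun y => Loc.Yq p ℓ y ^ (0 : ZMod p).val)
          = (1 : Loc.Gq ℓ × Loc.Gq ℓ → (Loc.Om ℓ)ˣ) := by
        funext y
        simp
      unfold Loc.HasInv at h0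
      rw [h00] at h0
      exact h0
    exact hTm p ℓ hdvd (recFrob p) hσ B b hB0 hB' (Loc.h76m_trans (Loc.h76m_symm h5) h0')
  -- uniqueness of invariants
  have huniq : ∀ (q : ℕ) [Fact q.Prime] (z : Loc.Gq q × Loc.Gq q → ZMod p) (t₁ t₂ : ZMod p),
      Loc.HasInv p q z t₁ → Loc.HasInv p q z t₂ → t₁ = t₂ := by
    intro q _ z t₁ t₂ h₁ h₂
    exact (hA q p z z t₁ t₂ 0 h₁ h₂).2.2 h₂
  -- the sum
  set T : Finset Nat.Primes := S ∪ (h79r_supp B).filter (fun q => (q : ℕ) ≠ ℓ) with hT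
  have hTℓ : ∀ q ∈ T, ((q : Nat.Primes) : ℕ) ≠ ℓ := by
    intro q hq
    rcases Finset.mem_union.mp hq with h | h
    · exact hℓS' q h
    · exact (Finset.mem_filter.mp h).2
  have hTsupp : ∀ q : Nat.Primes, (q : ℕ) ≠ ℓ → padicValRat (q : ℕ) B ≠ 0 → q ∈ T := by
    intro q hq hv
    exact Finset.mem_union_right _ (Finset.mem_filter.mpr ⟨h79r_mem_supp hB0 q hv, hq⟩)
  have hsum := hS p ℓ hp2 hdvd (recFrob p) hσ B hB0 hpowB T hTℓ hTsupp
  have hterm : ∀ q : ↥S, t q = (haveI : Fact ((q.1 : ℕ).Prime) := ⟨q.1.2⟩;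
      recExp ℓ p (recFrob p) B (q.1 : ℕ)) := by
    intro q
    haveI : Fact ((q.1 : ℕ).Prime) := ⟨q.1.2⟩
    exact huniq (q.1 : ℕ) _ _ _ (ht q) (key (q.1 : ℕ) (hℓS' q.1 q.2))
  have hzero : ∀ q ∈ T, q ∉ S → (haveI : Fact ((q : ℕ).Prime) := ⟨q.2⟩;
      recExp ℓ p (recFrob p) B (q : ℕ)) = 0 := by
    intro q hqT hqS
    haveI : Fact ((q : ℕ).Prime) := ⟨q.2⟩
    have hq' : ∀ q' ∈ S, ((q' : Nat.Primes) : ℕ) ≠ (q : ℕ) := fun q' hq' h =>
      hqS ((Subtype.ext h : q' = q) ▸ hq')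
    exact huniq (q : ℕ) _ _ _ (key (q : ℕ) (hTℓ q hqT))
      (hU p hp2 S hpS a hcoc hcontS (q : ℕ) hq')
  calc ∑ q : ↥S, t q
      = ∑ q : ↥S, (haveI : Fact ((q.1 : ℕ).Prime) := ⟨q.1.2⟩;
          recExp ℓ p (recFrob p) B (q.1 : ℕ)) := Finset.sum_congr rfl fun q _ => hterm q
    _ = ∑ q ∈ S, (haveI : Fact ((q : ℕ).Prime) := ⟨q.2⟩;
          recExp ℓ p (recFrob p) B (q : ℕ)) :=
        Finset.sum_coe_sort S (fun q : Nat.Primes =>
          (haveI : Fact ((q : ℕ).Prime) := ⟨q.2⟩; recExp ℓ p (recFrob p) B (q : ℕ)))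
    _ = ∑ q ∈ T, (haveI : Fact ((q : ℕ).Prime) := ⟨q.2⟩;
          recExp ℓ p (recFrob p) B (q : ℕ)) :=
        Finset.sum_subset Finset.subset_union_left hzero
    _ = 0 := hsum

end Fermat.Agent.PT.Glob
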