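import Mathlib
import Fermat.Agent.PT.Glob.Rec.Iface
import Fermat.Agent.PT.Loc.MC.H79Cyc
import Fermat.Agent.PT.Loc.MC.H79CarryPow

/-!
# W3-PT / PT-GLOB-REC, leaf REC-GENCHG (helper83)

`h83g_recGenChg : RecGenChg` — change of generator in the carry cocycle: for `K₁/K` cyclic of
degree `n` with generators `τ`, `φ` and `j = idx_τ(φ)`:
`carry_τ(b) = carry_φ(b)^j · ∂(g ↦ b^{-⌊j · idx_φ(g) / n⌋})` on `G_K`.

* `h83g_cycIdx_npow`   : `idx_τ(g^k) = (k · idx_τ(g)) mod n`;
* `h83g_cycIdx_change` : `idx_τ(g) = (idx_τ(φ) · idx_φ(g)) mod n`;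
* `h83g_arith`, `h83g_identity` : the arithmetic of carries;
* `h83g_genChg`        : the statement for any degree `n`;
* `h83g_recGenChg`     : `RecGenChg`.
-/

set_option autoImplicit false

open scoped Classical

noncomputable section

namespace Fermat.Agent.PT.Glob

open Fermat.Agent.PT.Loc

variable {q : ℕ} [Fact q.Prime]

/-- `idx(g^k) = (k · idx g) mod n`. -/
theorem h83g_cycIdx_npow {K K₁ : LF q} {n : ℕ} {τ : Gq q} (hc : IsCyc K K₁ n τ) {g : Gq q}
    (hg : g ∈ GK K) (k : ℕ) : cycIdx K₁ τ n (g ^ k) = (k * cycIdx K₁ τ n g) % n := by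
  induction k with
  | zero =>
    rw [pow_zero, Nat.zero_mul, Nat.zero_mod]
    exact h79c_cycIdx_of_mem hc (GK K₁).one_mem
  | succ k ih =>
    rw [pow_succ, h79c_cycIdx_mul hc ((GK K).pow_mem hg k) hg, ih, Nat.mod_add_mod, Nat.succ_mul]

/-- Change of generator for the index: `idx_τ(g) = (idx_τ(φ) · idx_φ(g)) mod n`. -/
theorem h83g_cycIdx_change {K K₁ : LF q} {n : ℕ} {τ φ : Gq q} (hτ : IsCyc K K₁ n τ)
    (hφ : IsCyc K K₁ n φ) {g : Gq q} (hg : g ∈ GK K) :
    cycIdx K₁ τ n g = (cycIdx K₁ τ n φ * cycIdx K₁ φ n g) % n := by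
  have hs : (φ ^ cycIdx K₁ φ n g)⁻¹ * g ∈ GK K₁ := h79c_cycIdx_mem hφ hg
  have hdec : g = φ ^ cycIdx K₁ φ n g * ((φ ^ cycIdx K₁ φ n g)⁻¹ * g) := by group
  conv_lhs => rw [hdec]
  rw [h79c_cycIdx_mul_right hτ ((GK K).pow_mem hφ.mem _) hs, h83g_cycIdx_npow hτ hφ.mem,
    Nat.mul_comm]

/-- The arithmetic of carries under multiplication of the indices by `j`. -/
theorem h83g_arith {n j a c : ℕ} (hn : 0 < n) (ha : a < n) (hc : c < n) :
    (if n ≤ (j * a) % n + (j * c) % n then 1 else 0) + j * a / n + j * c / n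
      = (if n ≤ a + c then j else 0) + j * ((a + c) % n) / n := by
  have hdiv : (j * a + j * c) / n
      = j * a / n + j * c / n + (if n ≤ (j * a) % n + (j * c) % n then 1 else 0) :=
    Nat.add_div hn
  by_cases h1 : n ≤ a + c
  · have e : (a + c) % n = a + c - n := by
      rw [Nat.mod_eq_sub_mod h1, Nat.mod_eq_of_lt (by omega)]
    have e2 : j * (a + c - n) = j * a + j * c - n * j := by
      rw [Nat.mul_sub, Nat.mul_add, Nat.mul_comm j n]
    have e3 : (j * a + j * c - n * j) / n = (j * a + j * c) / n - j :=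
      Nat.sub_mul_div (j * a + j * c) n j
    have hj : j ≤ (j * a + j * c) / n := by
      rw [Nat.le_div_iff_mul_le hn, ← Nat.mul_add]
      exact Nat.mul_le_mul_left j h1
    rw [if_pos h1, e, e2, e3]
    omega
  · have e : (a + c) % n = a + c := Nat.mod_eq_of_lt (by omega)
    rw [if_neg h1, e, Nat.mul_add]
    omega

/-- The carry identity in a commutative group. -/
theorem h83g_identity {G : Type*} [CommGroup G] (b : G) {n j a c : ℕ} (hn : 0 < n) (ha : a < n)
    (hc : c < n) :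
    (if n ≤ (j * a) % n + (j * c) % n then b else 1)
      = (if n ≤ a + c then b else 1) ^ j
        * ((b ^ (j * c / n))⁻¹ / (b ^ (j * ((a + c) % n) / n))⁻¹ * (b ^ (j * a / n))⁻¹) := by
  have key := h83g_arith (j := j) hn ha hc
  have lhs : (if n ≤ (j * a) % n + (j * c) % n then b else 1)
      = b ^ (if n ≤ (j * a) % n + (j * c) % n then 1 else 0) := by
    split_ifs <;> simp
  have rhs : (if n ≤ a + c then b else 1) ^ j = b ^ (if n ≤ a + c then j else 0) := by
    split_ifs <;> simp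
  rw [lhs, rhs]
  have h2 : b ^ (if n ≤ (j * a) % n + (j * c) % n then 1 else 0) * b ^ (j * a / n)
      * b ^ (j * c / n) = b ^ (if n ≤ a + c then j else 0) * b ^ (j * ((a + c) % n) / n) := by
    rw [← pow_add, ← pow_add, ← pow_add, key]
  rw [div_eq_mul_inv, inv_inv]
  calc b ^ (if n ≤ (j * a) % n + (j * c) % n then 1 else 0)
      = (b ^ (if n ≤ (j * a) % n + (j * c) % n then 1 else 0) * b ^ (j * a / n)
          * b ^ (j * c / n)) * ((b ^ (j * c / n))⁻¹ * (b ^ (j * a / n))⁻¹) := by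
        rw [mul_assoc, mul_assoc, mul_inv_cancel_left, mul_inv_cancel, mul_one]
    _ = _ := by
        rw [h2]
        simp only [mul_assoc, mul_comm, mul_left_comm]

/-- **Change of generator** (any degree `n`). -/
theorem h83g_genChg (K K₁ : LF q) (n : ℕ) (τ φ : Gq q) (b : (Om q)ˣ)
    (hτ : IsCyc K K₁ n τ) (hφ : IsCyc K K₁ n φ) (hb : (b : Om q) ∈ K) :
    MCohom K (carry K₁ τ n b) (fun y => carry K₁ φ n b y ^ cycIdx K₁ τ n φ) := by
  have hn : 0 < n := hτ.pos
  refine ⟨fun g => (b ^ (cycIdx K₁ τ n φ * cycIdx K₁ φ n g / n))⁻¹, ?_, ?_⟩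
  · refine ⟨K₁, hφ.fin, hφ.le, fun g hg s hs => ?_⟩
    simp only
    rw [h79c_cycIdx_mul_right hφ hg hs]
  · intro g hg h hh
    have ha := h79c_cycIdx_lt hφ hg
    have hc := h79c_cycIdx_lt hφ hh
    have e1 : cycIdx K₁ τ n g = (cycIdx K₁ τ n φ * cycIdx K₁ φ n g) % n :=
      h83g_cycIdx_change hτ hφ hg
    have e2 : cycIdx K₁ τ n h = (cycIdx K₁ τ n φ * cycIdx K₁ φ n h) % n :=
      h83g_cycIdx_change hτ hφ hh
    have e3 : cycIdx K₁ φ n (g * h) = (cycIdx K₁ φ n g + cycIdx K₁ φ n h) % n :=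
      h79c_cycIdx_mul hφ hg hh
    have hsm : g • (b ^ (cycIdx K₁ τ n φ * cycIdx K₁ φ n h / n))⁻¹
        = (b ^ (cycIdx K₁ τ n φ * cycIdx K₁ φ n h / n))⁻¹ := by
      rw [smul_inv', smul_pow', h79c_smul_eq_of_mem hb hg]
    simp only [carry, mcob]
    rw [e1, e2, e3, hsm]
    exact h83g_identity b hn ha hc

/-- **REC-GENCHG.** -/
theorem h83g_recGenChg : RecGenChg := by
  intro q _ p _ K K₁ _ τ φ b hτ hφ hb
  exact h83g_genChg K K₁ p τ φ b hτ hφ hb

end Fermat.Agent.PT.Glob
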