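import Mathlib
import Fermat.Agent.PT.Glob.Rec.Iface
import Fermat.Agent.PT.Glob.H3HCyc
import Fermat.Agent.PT.Glob.H82LocCyc

/-!
# W3-PT / PT-GLOB-REC, leaf REC-TAME (helper94, second seat)

`h94t_recTame : RecCyclo → RecEllNorm → RecTameLoc → RecTame`.

If the carry cocycle `gcarry Q' σ p B` (`Q'` the subfield of degree `p` of `ℚ(ζ_ℓ)`, `B ∈ ℚˣ`) is a
local coboundary at `ℓ`, then the `ℓ`-unit part of `B` is a `p`-th power modulo `ℓ`.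

Route: `h82c_gLocCyc` at the place `(ℓ, 1)` of `⊥ ≤ Q'`.
* The trivial alternative `Q'_ℓ = ℚ_ℓ` is impossible: the element `β` of `RecEllNorm` has
  `‖ι β‖ ^ p = ‖ℓ‖`, which is not in the value group of `ℚ_ℓ`.
* In the cyclic alternative (`τ` induces `σ`), `ℓ = N(ι β)` is a local norm, the localised carry
  cocycle is `Loc.carry Q'_ℓ τ p (ι B)`, so `ι B` is a local norm (`Loc.MCCarryNorm`, landed), and
  `RecTameLoc` concludes.
-/

set_option autoImplicit false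

open scoped Classical

noncomputable section

namespace Fermat.Agent.PT.Glob

open Fermat.Agent.Bridge Fermat.Agent.PT.Bridge

/-- The local field of `ℚ` at any place is `ℚ_q`. -/
theorem h94t_gLocField_bot (q : ℕ) [Fact q.Prime] (g : GQ) :
    gLocField q g (⊥ : NFd) = (⊥ : Loc.LF q) := by
  rw [eq_bot_iff]
  unfold gLocField h23b_localField
  rw [IntermediateField.adjoin_le_iff]
  rintro _ ⟨y, hy, rfl⟩
  obtain ⟨x, hx, rfl⟩ := hy
  obtain ⟨r, rfl⟩ := IntermediateField.mem_bot.1 hx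
  have h1 : padicEmbedding q (((g : Qb ≃ₐ[ℚ] Qb) : Qb →ₐ[ℚ] Qb) (algebraMap ℚ Qb r)) =
      algebraMap ℚ_[q] (PadicAlgCl q) (algebraMap ℚ ℚ_[q] r) := by
    rw [AlgHom.commutes, AlgHom.commutes, ← IsScalarTower.algebraMap_apply]
  show padicEmbedding q (((g : Qb ≃ₐ[ℚ] Qb) : Qb →ₐ[ℚ] Qb) (algebraMap ℚ Qb r)) ∈
    ((⊥ : Loc.LF q) : Set (PadicAlgCl q))
  rw [h1]
  exact IntermediateField.algebraMap_mem _ _

/-- The norm of an element of `ℚ_ℓ ⊆ PadicAlgCl ℓ` is an integral power of `ℓ`. -/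
theorem h94t_norm_of_mem_bot (ℓ : ℕ) [Fact ℓ.Prime] {x : Loc.Om ℓ} (hx : x ∈ (⊥ : Loc.LF ℓ))
    (hx0 : x ≠ 0) : ∃ v : ℤ, ‖x‖ = (ℓ : ℝ) ^ v := by
  obtain ⟨y, rfl⟩ := IntermediateField.mem_bot.1 hx
  have hy0 : y ≠ 0 := by
    rintro rfl
    exact hx0 (map_zero _)
  refine ⟨-y.valuation, ?_⟩
  have h1 : ‖(algebraMap ℚ_[ℓ] (PadicAlgCl ℓ) y)‖ = ‖y‖ := PadicAlgCl.norm_extends ℓ y
  rw [h1, Padic.norm_eq_zpow_neg_valuation hy0]

/-- Action of the local group through `gConj q 1` on the image of `ℚ̄`. -/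
theorem h94t_apply_gLocEl (q : ℕ) [Fact q.Prime] (h : Loc.Gq q) (x : Qb) :
    h (gLocEl q 1 x) = gLocEl q 1 ((gConj q 1 h) x) := by
  show h (padicEmbedding q ((1 : GQ) x)) = padicEmbedding q ((1 : GQ) ((gConj q 1 h) x))
  rw [← padicEmbedding_localGaloisToGlobal]
  simp [gConj, AlgEquiv.one_apply]

/-- **REC-TAME**. -/
theorem h94t_recTame' (hCyc : RecCyclo) (hEll : RecEllNorm) (hTL : RecTameLoc)
    (hLCN : Loc.MCCarryNorm) : RecTame := by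
  intro p ℓ _ _ hpl σ hσ B b hB hb hloc
  have hp : p.Prime := Fact.out
  have hℓ : ℓ.Prime := Fact.out
  obtain ⟨-, hcyc⟩ := hCyc p ℓ hpl
  have hcycσ : GIsCyc ⊥ (recField ℓ p) p σ := hcyc σ hσ
  obtain ⟨β, hβQ, hβ0, hNβ, hβnorm⟩ := hEll p ℓ hpl σ hσ
  have hbot : gLocField ℓ 1 (⊥ : NFd) = (⊥ : Loc.LF ℓ) := h94t_gLocField_bot ℓ 1
  have hιβ0 : gLocEl ℓ 1 β ≠ 0 := by
    show padicEmbedding ℓ ((1 : GQ) β) ≠ 0
    have h1 : (1 : GQ) β = β := rfl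
    rw [h1]
    exact (map_ne_zero _).2 hβ0
  have hιβmem : gLocEl ℓ 1 β ∈ gLocField ℓ 1 (recField ℓ p) := h3g_gLocEl_mem ℓ 1 hβQ
  -- the `ℓ`-adic norm of `ι β`
  have hprod : ∏ i ∈ Finset.range p, gLocEl ℓ 1 ((σ ^ i) β) = ((ℓ : ℕ) : Loc.Om ℓ) := by
    have h1 : gLocEl ℓ 1 (gnormAlong σ p β) = ((ℓ : ℕ) : Loc.Om ℓ) := by
      rw [hNβ]
      show padicEmbedding ℓ ((1 : GQ) ((ℓ : ℕ) : Qb)) = _
      simp
    rw [← h1]
    show _ = padicEmbedding ℓ ((1 : GQ) (gnormAlong σ p β))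
    unfold gnormAlong
    rw [map_prod, map_prod]
    rfl
  have hnormβ : ‖gLocEl ℓ 1 β‖ ^ p = (ℓ : ℝ)⁻¹ := by
    have h1 : ‖∏ i ∈ Finset.range p, gLocEl ℓ 1 ((σ ^ i) β)‖ = ‖gLocEl ℓ 1 β‖ ^ p := by
      rw [norm_prod]
      rw [Finset.prod_eq_pow_card (b := ‖gLocEl ℓ 1 β‖)]
      · rw [Finset.card_range]
      · intro i _
        have := hβnorm (σ ^ i)
        have h2 := hβnorm 1
        show ‖padicEmbedding ℓ ((1 : GQ) ((σ ^ i) β))‖ = ‖padicEmbedding ℓ ((1 : GQ) β)‖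
        simpa using this
    rw [← h1, hprod]
    have h3 : ((ℓ : ℕ) : Loc.Om ℓ) = algebraMap ℚ_[ℓ] (PadicAlgCl ℓ) ((ℓ : ℕ) : ℚ_[ℓ]) := by
      simp
    rw [h3, PadicAlgCl.norm_extends, Padic.norm_p]
  have := h3g_finiteDimensional_gLocField ℓ 1 (⊥ : NFd)
  rcases h82c_gLocCyc p ⊥ (recField ℓ p) σ hcycσ ℓ 1 with heq | ⟨τ, hτ, hστ, hidx⟩
  · -- the trivial alternative is impossible
    exfalso
    rw [heq, hbot] at hιβmem
    obtain ⟨v, hv⟩ := h94t_norm_of_mem_bot ℓ hιβmem hιβ0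
    rw [hv, ← zpow_natCast, ← zpow_mul, ← zpow_neg_one] at hnormβ
    have hℓ1 : (1 : ℝ) < (ℓ : ℝ) := by exact_mod_cast hℓ.one_lt
    have h4 : v * (p : ℤ) = -1 := zpow_right_injective₀ (by linarith) (by linarith) hnormβ
    have h5 : (p : ℤ) ∣ 1 := ⟨-v, by linarith⟩
    have h6 : (p : ℤ) = 1 := by
      have := Int.eq_one_of_dvd_one (by positivity) h5
      exact this
    have h7 : p = 1 := by exact_mod_cast h6
    exact hp.one_lt.ne' h7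
  · -- the cyclic alternative
    have hτ' : Loc.IsCyc (⊥ : Loc.LF ℓ) (gLocField ℓ 1 (recField ℓ p)) p τ := by
      rw [← hbot]; exact hτ
    -- `τ ^ i` acts on `ι β` as `σ ^ i`
    have hact : ∀ i : ℕ, (τ ^ i) (gLocEl ℓ 1 β) = gLocEl ℓ 1 ((σ ^ i) β) := by
      intro i
      rw [h94t_apply_gLocEl]
      congr 1
      have h1 : gConj ℓ 1 (τ ^ i) = (gConj ℓ 1 τ) ^ i := by
        rw [← h82c_conjHom_apply, map_pow, h82c_conjHom_apply]
      rw [h1]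
      have h2 : (σ ^ i)⁻¹ * (gConj ℓ 1 τ) ^ i ∈ GU (recField ℓ p) :=
        h82c_pow_congr (GU (⊥ : NFd)) (GU (recField ℓ p)) hcycσ.normal hcycσ.mem hστ i
      have h3 := (IntermediateField.mem_fixingSubgroup_iff _ _).1 h2 β hβQ
      have h4 : ((gConj ℓ 1 τ) ^ i) β = (σ ^ i) (((σ ^ i)⁻¹ * (gConj ℓ 1 τ) ^ i) β) := by
        rw [← AlgEquiv.mul_apply, mul_inv_cancel_left]
      rw [h4]
      congr 1
    have hNℓ : Loc.IsNorm (gLocField ℓ 1 (recField ℓ p)) τ p ((ℓ : ℕ) : Loc.Om ℓ) := by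
      refine ⟨gLocEl ℓ 1 β, hιβmem, hιβ0, ?_⟩
      unfold Loc.normAlong
      rw [← hprod]
      exact Finset.prod_congr rfl fun i _ => hact i
    -- the localised carry cocycle
    have hcarry : Loc.MCohom (⊥ : Loc.LF ℓ)
        (Loc.carry (gLocField ℓ 1 (recField ℓ p)) τ p (gLocUnit ℓ 1 b)) 1 := by
      refine Loc.h76m_trans (Loc.h76m_of_eq _ ?_) hloc
      intro h hh h' hh'
      have hh1 : h ∈ Loc.GK (gLocField ℓ 1 (⊥ : NFd)) := by rw [hbot]; exact hh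
      have hh2 : h' ∈ Loc.GK (gLocField ℓ 1 (⊥ : NFd)) := by rw [hbot]; exact hh'
      simp only [Loc.carry, gLocM2, gcarry]
      rw [hidx h hh1, hidx h' hh2]
      split_ifs <;> simp
    have hbmem : ((gLocUnit ℓ 1 b : (Loc.Om ℓ)ˣ) : Loc.Om ℓ) ∈ (⊥ : Loc.LF ℓ) := by
      rw [h3g_coe_gLocUnit, ← hbot]
      refine h3g_gLocEl_mem ℓ 1 ?_
      rw [hb]
      exact IntermediateField.algebraMap_mem _ B
    have hNB : Loc.IsNorm (gLocField ℓ 1 (recField ℓ p)) τ p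
        ((gLocUnit ℓ 1 b : (Loc.Om ℓ)ˣ) : Loc.Om ℓ) :=
      (hLCN ℓ ⊥ (gLocField ℓ 1 (recField ℓ p)) p τ (gLocUnit ℓ 1 b) hτ' hbmem).1 hcarry
    have hbB : ((gLocUnit ℓ 1 b : (Loc.Om ℓ)ˣ) : Loc.Om ℓ) = ((B : ℚ) : Loc.Om ℓ) := by
      rw [h3g_coe_gLocUnit, hb]
      show padicEmbedding ℓ ((1 : GQ) ((B : ℚ) : Qb)) = _
      simp
    rw [hbB] at hNB
    exact hTL ℓ p (gLocField ℓ 1 (recField ℓ p)) τ hτ' hNℓ B hB hNB

/-- **REC-TAME** from `RecCyclo`, `RecEllNorm`, `RecTameLoc` (the local carry/norm criterion is the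
landed `h90c_carryNorm h81h_mcH90`). -/
theorem h94t_recTame (hCyc : RecCyclo) (hEll : RecEllNorm) (hTL : RecTameLoc) : RecTame :=
  h94t_recTame' hCyc hEll hTL (Loc.h90c_carryNorm Loc.h81h_mcH90)

end Fermat.Agent.PT.Glob
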