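import Mathlib
import Fermat.Agent.PT.Glob.Rec.Iface
import Fermat.Agent.PT.Loc.H95InvTotal
import Fermat.Agent.PT.Loc.MC.H79MuFinal
import Fermat.Agent.PT.Loc.H6ChiZeta

/-!
# W3-PT / PT-GLOB-REC, leaf REC-LOCTRIV1 (helper95)

`RecLocTriv1`: a twisted `2`-cocycle `a` of `G_ℚ` with an invariant `t` at `q` is a local
coboundary (additively, coefficients `𝔽_p`) at the place `(q, 1)` of a number field `K ∋ ζ_p`,
as soon as `t = 0` or the local field of `K` contains the unramified extension of degree `p`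
of `ℚ_q`.

Proof: on `G_E`, `E = ℚ_q(ι K)`, the standard unramified cocycle `Yq ^ t` is identically `1`
(for `t = 0` trivially; otherwise `G_E ≤ G_{Kur}` and the cyclic index vanishes on `G_{Kur}`), so
`ζ ^ a` is a multiplicative coboundary on `G_E`; conclude by `MCMu` (`ζ ∈ E`).
-/

set_option autoImplicit false

open scoped Classical

noncomputable section

namespace Fermat.Agent.PT.Glob

open Fermat.Agent.Bridge ExtCitation

variable {q : ℕ} [Fact q.Prime] {p : ℕ} [Fact p.Prime]

/-- Localisation at the place `(q, 1)` is restriction along `r_q`. -/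
lemma h95r_gLoc2_one {X : Type*} (a : GQ × GQ → X) : gLoc2 q 1 a = recLoc q a := by
  funext y
  simp [gLoc2, gConj, recLoc]

/-- The local field at the place `(q, 1)`. -/
lemma h95r_gLocField_one (K : NFd) :
    gLocField q 1 K = Fermat.Agent.PT.Bridge.h23b_localField q K := by
  unfold gLocField
  congr 1
  ext x
  simp [IntermediateField.mem_map]

/-- The cyclic index vanishes on `G_{K₁}`. -/
lemma h95r_cycIdx_eq_zero {K₁ : Loc.LF q} (σ : Loc.Gq q) {n : ℕ} (hn : 0 < n) {g : Loc.Gq q}
    (hg : g ∈ Loc.GK K₁) : Loc.cycIdx K₁ σ n g = 0 := by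
  have h : ∃ i, i < n ∧ (σ ^ i)⁻¹ * g ∈ Loc.GK K₁ := ⟨0, hn, by simpa using hg⟩
  unfold Loc.cycIdx
  rw [dif_pos h, Nat.find_eq_zero]
  exact ⟨hn, by simpa using hg⟩

/-- The carry cocycle is trivial on `G_{K₁}`. -/
lemma h95r_carry_eq_one {K₁ : Loc.LF q} (σ : Loc.Gq q) {n : ℕ} (hn : 0 < n) (b : (Loc.Om q)ˣ)
    {g h : Loc.Gq q} (hg : g ∈ Loc.GK K₁) (hh : h ∈ Loc.GK K₁) :
    Loc.carry K₁ σ n b (g, h) = 1 := by
  unfold Loc.carry
  simp only [h95r_cycIdx_eq_zero σ hn hg, h95r_cycIdx_eq_zero σ hn hh, add_zero]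
  rw [if_neg (by omega)]

/-- **REC-LOCTRIV1** (conditional on the leaves it uses). -/
theorem h95r_recLocTriv1_of (hZ : Loc.ChiZeta) (hMu : Loc.MCMu) : RecLocTriv1 := by
  intro p _ q _ a ha hac K _ hζK t hinv ht
  have hp : p.Prime := Fact.out
  rw [h95r_gLoc2_one, h95r_gLocField_one]
  set E : Loc.LF q := Fermat.Agent.PT.Bridge.h23b_localField q K with hE
  rw [h95r_gLocField_one] at ht
  haveI hEfin : FiniteDimensional ℚ_[q] E :=
    Fermat.Agent.PT.Bridge.h23b_finiteDimensional_localField q K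
  obtain ⟨hprim, hcoe, -⟩ := hZ q p
  -- `ζ ∈ E`
  have hζE : Loc.zetaL p q ∈ E :=
    Fermat.Agent.PT.Bridge.h23b_padicEmbedding_mem_localField q hζK
  have hfix : ∀ g ∈ Loc.GK E, g (Loc.zetaL p q) = Loc.zetaL p q := fun g hg =>
    (IntermediateField.mem_fixingSubgroup_iff E g).1 hg _ hζE
  -- the additive cocycle condition on `G_E`
  have hcoc : Loc.ACoc2 E (recLoc q a) := by
    intro g hg h _ j _
    have h1 := ha (localGaloisToGlobal q g) (localGaloisToGlobal q h) (localGaloisToGlobal q j)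
    have h2 : recChi p (localGaloisToGlobal q g) = 1 :=
      Loc.h95l_chiL_eq_one (q := q) (p := p) hZ (hfix g hg)
    rw [h2, one_mul, ← map_mul, ← map_mul] at h1
    exact h1
  -- continuity on `G_E`
  have hcont : Loc.Cont2 E (recLoc q a) := by
    obtain ⟨F, hF, -, hc⟩ := hac
    haveI := hF
    refine ⟨Fermat.Agent.PT.Bridge.h23b_localField q F ⊔ E, ?_, le_sup_right,
      fun g _ g' _ s hs s' hs' => ?_⟩
    · haveI := Fermat.Agent.PT.Bridge.h23b_finiteDimensional_localField q F
      exact IntermediateField.finiteDimensional_sup _ _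
    · have hs1 : localGaloisToGlobal q s ∈ GU F :=
        (Fermat.Agent.PT.Bridge.h23b_mem_fixingSubgroup_localField_iff q F s).1
          (IntermediateField.fixingSubgroup_antitone le_sup_left hs)
      have hs1' : localGaloisToGlobal q s' ∈ GU F :=
        (Fermat.Agent.PT.Bridge.h23b_mem_fixingSubgroup_localField_iff q F s').1
          (IntermediateField.fixingSubgroup_antitone le_sup_left hs')
      have := hc (localGaloisToGlobal q g) (by simp [IntermediateField.mem_fixingSubgroup_iff])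
        (localGaloisToGlobal q g') (by simp [IntermediateField.mem_fixingSubgroup_iff])
        _ hs1 _ hs1'
      simpa only [recLoc, map_mul] using this
  -- the multiplicative coboundary on `G_E`
  have hmc : Loc.MCohom E (Loc.zpw (Loc.zetaU p q) (recLoc q a)) 1 := by
    obtain ⟨x, hx, hzx⟩ := hinv
    refine ⟨x, Loc.h76m_cont1_res hEfin bot_le hx, fun g hg h hh => ?_⟩
    rw [hzx g (by simp [IntermediateField.mem_fixingSubgroup_iff]) h
      (by simp [IntermediateField.mem_fixingSubgroup_iff])]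
    congr 1
    rcases ht with ht | ht
    · simp [ht]
    · have hg' : g ∈ Loc.GK (Loc.Kur (⊥ : Loc.LF q) p) :=
        IntermediateField.fixingSubgroup_antitone ht hg
      have hh' : h ∈ Loc.GK (Loc.Kur (⊥ : Loc.LF q) p) :=
        IntermediateField.fixingSubgroup_antitone ht hh
      simp only [Loc.Yq, h95r_carry_eq_one (Loc.frobQ q) hp.pos (Loc.qU q) hg' hh', one_pow,
        Pi.one_apply]
  exact hMu q p E (Loc.zetaU p q) (by rw [hcoe]; exact hζE) (by rw [hcoe]; exact hprim)
    (recLoc q a) hcoc hcont hmc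

/-- **REC-LOCTRIV1**. -/
theorem h95r_recLocTriv1 : RecLocTriv1 :=
  h95r_recLocTriv1_of Loc.h6z_chiZeta Loc.h79m_mcMu

end Fermat.Agent.PT.Glob
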