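import Mathlib
import Fermat.Agent.PT.Glob.Rec.H79Asm
import Fermat.Agent.PT.Glob.Rec.H79RecQFor
import Fermat.Agent.PT.Glob.Rec.H52Zeta
import Fermat.Agent.PT.Glob.Rec.H27Frame
import Fermat.Agent.PT.Glob.Rec.H42KChi
import Fermat.Agent.PT.Glob.Rec.H46Sum
import Fermat.Agent.PT.Glob.Rec.H39Conj
import Fermat.Agent.PT.Glob.Rec.H6FrobChar
import Fermat.Agent.PT.Glob.Rec.H6Cyclo
import Fermat.Agent.PT.Glob.Rec.H95LocTriv1
import Fermat.Agent.PT.Glob.Rec.Desc99Glob
import Fermat.Agent.PT.Glob.Rec.H34UnrFinal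
import Fermat.Agent.PT.Glob.Rec.H10Inert
import Fermat.Agent.PT.Glob.Rec.H3LocCarry
import Fermat.Agent.PT.Glob.Rec.H83GenChg
import Fermat.Agent.PT.Glob.Rec.H22EllNorm
import Fermat.Agent.PT.Glob.Rec.H25TameLoc
import Fermat.Agent.PT.Glob.Rec.H94Tame
import Fermat.Agent.PT.Glob.H82HasseMain
import Fermat.Agent.PT.Glob.MC.H95InfResFinal
import Fermat.Agent.PT.Loc.H29InvAdd
import Fermat.Agent.PT.Loc.H49InvY

/-!
# W3-PT / PT-GLOB-REC (helper79): the reciprocity law over `ℚ`, UNCONDITIONAL

* `h79r_recQHasInv : RecQHasInv` — for a continuous `2`-cocycle `a` of `G_{ℚ,S}` with values in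
  `μ_p` (`p` odd, `p ∈ S`) the local invariants (`Loc.HasInv`) at the primes of `S` sum to `0`;
* `h79r_recQFor_of_invTotal : Loc.InvTotal → RecQFor p (Loc.invFam p)` — the form consumed by
  `PT/Arith/Iface.lean` (`ArithInputs`).

Leaves: helper52 (zeta), helper27 (frame), helper6 (cyclo, Frobenius), helper42 (K'),
helper99 (descent), helper34 (unramified), helper10 (inert), helper95 (local triviality),
helper39 (conjugation), helper83 (generator change), helper96 (valuation), helper3 (local carry),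
helper22 (norm of `ℓ`), helper25 (tame local), helper94 (tame), helper46 (sum);
Hasse principle `h82m_gHasse` (PT-GLOB-BR: FI, SI, Hasse norm theorem).
-/

set_option autoImplicit false

noncomputable section

namespace Fermat.Agent.PT.Glob

open Fermat.Agent.Bridge ExtCitation Fermat.Agent.PT

/-- **The reciprocity law over `ℚ`** (`HasInv` form), unconditional. -/
theorem h79r_recQHasInv : RecQHasInv :=
  h79r_recQ_of h52r_recZetaOK h27r_recFrame h27r_recMult_holds h27r_recLocalise_holds
    h6r_recCyclo h6r_recFrobChar h42k_recKChi h99rd_recDescGlob h34u_recUnr_holds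
    (h10r_recInert_of h6r_recCyclo) h95r_recLocTriv1 h39rc_recConj
    (h3r_recLocCarry_of h6r_recCyclo h83g_recGenChg)
    (h94t_recTame h6r_recCyclo h22r_recEllNorm h25r_recTameLoc)
    (h46r_recSum h6r_recCyclo h6r_recFrobChar)
    h82m_gHasse h95g_gmcInfResPer (Loc.h29i_invAdd Loc.h49y_invY)

/-- **The reciprocity law for the family `Loc.invFam p`**, given `InvTotal`. -/
theorem h79r_recQFor_of_invTotal (hTot : Loc.InvTotal) (p : ℕ) [Fact p.Prime] (hp2 : p ≠ 2) :
    RecQFor p (Loc.invFam p) :=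
  h79r_recQFor_of h79r_recQHasInv hTot (Loc.h29i_invEx Loc.h49y_invY) p hp2

end Fermat.Agent.PT.Glob
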