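import Mathlib
import Fermat.Agent.PT.Glob.Rec.H79Final
import Fermat.Agent.PT.Loc.H95InvTotalFinal

/-!
# W3-PT / PT-GLOB-REC (helper79): `RecQFor p (Loc.invFam p)`, UNCONDITIONAL

The reciprocity law over `ℚ` for the family of local invariants `Loc.invFam p` (`p` odd), in the
form of `PT/Arith/Iface.lean`:
`∑_{q ∈ S} invQ p q (res_q a) = 0` for every `a ∈ Z²(G_{ℚ,S}, μ_p)`, `p ∈ S`.
-/

set_option autoImplicit false

noncomputable section

namespace Fermat.Agent.PT.Glob

open Fermat.Agent.PT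

/-- **Reciprocity** for `Loc.invFam p`, unconditional. -/
theorem h79r_recQFor (p : ℕ) [Fact p.Prime] (hp2 : p ≠ 2) : RecQFor p (Loc.invFam p) :=
  h79r_recQFor_of_invTotal Loc.h95l_invTotal p hp2

end Fermat.Agent.PT.Glob
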