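import Fermat.Agent.PT.Glob.Rec.Iface
import Fermat.Agent.PT.Loc.H76MC
import Fermat.Agent.PT.Loc.H77InfResPerFinal
import Fermat.Agent.PT.Loc.H90CarryNorm

/-!
# W3-PT / PT-GLOB-REC, leaf REC-DESC, local half (helper99): `h99rd_recDescLoc : RecDescLoc`

A `μ_p`-valued `2`-cocycle `c` of `G_K` which is a continuous coboundary on `G_{K₁}`, `K₁/K`
cyclic of degree `n` prime to `p`, is a continuous coboundary on `G_K`.

Proof: `c ∼ carry(b)`, `b ∈ K` (`MCInfResPer`); `c^p = 1` gives `carry(b^p) ∼ 1`, so `b^p` is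
a norm (`MCCarryNorm`); `b^n = N(b)` is a norm; Bezout: `b` is a norm; `carry(b) ∼ 1`.
-/

set_option autoImplicit false

open scoped Classical

namespace Fermat.Agent.PT.Glob

open Fermat.Agent.PT.Loc

variable {q : ℕ} [Fact q.Prime]

/-! ### the norms form a group -/

theorem h99rd_normAlong_mul (σ : Gq q) (n : ℕ) (β β' : Om q) :
    normAlong σ n (β * β') = normAlong σ n β * normAlong σ n β' := by
  unfold normAlong
  rw [← Finset.prod_mul_distrib]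
  exact Finset.prod_congr rfl (fun i _ => map_mul _ _ _)

theorem h99rd_normAlong_inv (σ : Gq q) (n : ℕ) (β : Om q) :
    normAlong σ n β⁻¹ = (normAlong σ n β)⁻¹ := by
  unfold normAlong
  rw [← Finset.prod_inv_distrib]
  exact Finset.prod_congr rfl (fun i _ => map_inv₀ _ _)

theorem h99rd_normAlong_one (σ : Gq q) (n : ℕ) : normAlong σ n (1 : Om q) = 1 := by
  unfold normAlong
  exact Finset.prod_eq_one (fun i _ => map_one _)

theorem h99rd_isNorm_one (K₁ : LF q) (σ : Gq q) (n : ℕ) : IsNorm K₁ σ n 1 :=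
  ⟨1, K₁.one_mem, one_ne_zero, h99rd_normAlong_one σ n⟩

theorem h99rd_isNorm_mul {K₁ : LF q} {σ : Gq q} {n : ℕ} {b b' : Om q}
    (h : IsNorm K₁ σ n b) (h' : IsNorm K₁ σ n b') : IsNorm K₁ σ n (b * b') := by
  obtain ⟨β, hβ, hβ0, rfl⟩ := h
  obtain ⟨β', hβ', hβ'0, rfl⟩ := h'
  exact ⟨β * β', K₁.mul_mem hβ hβ', mul_ne_zero hβ0 hβ'0, h99rd_normAlong_mul σ n β β'⟩

theorem h99rd_isNorm_inv {K₁ : LF q} {σ : Gq q} {n : ℕ} {b : Om q}
    (h : IsNorm K₁ σ n b) : IsNorm K₁ σ n b⁻¹ := by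
  obtain ⟨β, hβ, hβ0, rfl⟩ := h
  exact ⟨β⁻¹, K₁.inv_mem hβ, inv_ne_zero hβ0, h99rd_normAlong_inv σ n β⟩

theorem h99rd_isNorm_pow {K₁ : LF q} {σ : Gq q} {n : ℕ} {b : Om q}
    (h : IsNorm K₁ σ n b) (k : ℕ) : IsNorm K₁ σ n (b ^ k) := by
  induction k with
  | zero =>
    rw [pow_zero]
    exact h99rd_isNorm_one K₁ σ n
  | succ k ih =>
    rw [pow_succ]
    exact h99rd_isNorm_mul ih h

theorem h99rd_isNorm_zpow {K₁ : LF q} {σ : Gq q} {n : ℕ} {b : Om q}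
    (h : IsNorm K₁ σ n b) (k : ℤ) : IsNorm K₁ σ n (b ^ k) := by
  obtain ⟨m, rfl | rfl⟩ := Int.eq_nat_or_neg k
  · rw [zpow_natCast]
    exact h99rd_isNorm_pow h m
  · rw [zpow_neg, zpow_natCast]
    exact h99rd_isNorm_inv (h99rd_isNorm_pow h m)

/-- an element of `K` is fixed by the powers of `σ ∈ G_K`. -/
theorem h99rd_pow_fixed {K : LF q} {σ : Gq q} (hσ : σ ∈ GK K) {b : Om q} (hb : b ∈ K) (i : ℕ) :
    (σ ^ i) b = b :=
  (IntermediateField.mem_fixingSubgroup_iff K _).1 ((GK K).pow_mem hσ i) b hb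

/-- `b^n` is the norm of `b ∈ K`. -/
theorem h99rd_isNorm_self_pow {K K₁ : LF q} {σ : Gq q} {n : ℕ} (h : IsCyc K K₁ n σ) {b : Om q}
    (hb : b ∈ K) (hb0 : b ≠ 0) : IsNorm K₁ σ n (b ^ n) := by
  refine ⟨b, h.le hb, hb0, ?_⟩
  unfold normAlong
  rw [Finset.prod_congr rfl (fun i _ => h99rd_pow_fixed h.mem hb i), Finset.prod_const,
    Finset.card_range]

/-- Bezout: if `b^p` and `b^n` are norms and `p`, `n` are coprime then `b` is a norm. -/
theorem h99rd_isNorm_of_coprime {K₁ : LF q} {σ : Gq q} {n p : ℕ} {b : Om q} (hb0 : b ≠ 0)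
    (hpn : Nat.Coprime p n) (h1 : IsNorm K₁ σ n (b ^ p)) (h2 : IsNorm K₁ σ n (b ^ n)) :
    IsNorm K₁ σ n b := by
  have hbez : ((Nat.gcd p n : ℕ) : ℤ) = p * Nat.gcdA p n + n * Nat.gcdB p n :=
    Nat.gcd_eq_gcd_ab p n
  rw [hpn.gcd_eq_one, Nat.cast_one] at hbez
  have h3 : b = (b ^ p) ^ (Nat.gcdA p n) * (b ^ n) ^ (Nat.gcdB p n) := by
    rw [← zpow_natCast b p, ← zpow_natCast b n, ← zpow_mul, ← zpow_mul, ← zpow_add₀ hb0, ← hbez,
      zpow_one]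
  rw [h3]
  exact h99rd_isNorm_mul (h99rd_isNorm_zpow h1 _) (h99rd_isNorm_zpow h2 _)

/-- **REC-DESC-LOC**, conditional form. -/
theorem h99rd_recDescLoc_of (hIR : MCInfResPer) (hCN : MCCarryNorm) : RecDescLoc := by
  intro q _ p _ K K₁ _ n σ hcyc hpn c hcp hc hcont hK₁
  have hp : p.Prime := Fact.out
  obtain ⟨b, hbK, hcb⟩ := hIR q K K₁ n σ hcyc c hc hcont hK₁
  -- `carry(b^p) ∼ 1`
  have h1 : MCohom K (fun y => c y ^ p) (fun y => carry K₁ σ n b y ^ p) := h76m_pow hcb p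
  have h2 : MCohom K (carry K₁ σ n (b ^ p)) 1 := by
    refine h76m_trans (h76m_of_eq K (fun g _ h _ => ?_)) (h76m_trans (h76m_symm h1)
      (h76m_of_eq K (fun g _ h _ => ?_)))
    · exact h76m_carry_pow K₁ σ n b p (g, h)
    · exact hcp (g, h)
  have hbpK : (((b ^ p : (Om q)ˣ)) : Om q) ∈ K := by
    rw [Units.val_pow_eq_pow_val]
    exact pow_mem hbK p
  have h3 : IsNorm K₁ σ n (((b ^ p : (Om q)ˣ)) : Om q) :=
    (hCN q K K₁ n σ (b ^ p) hcyc hbpK).mp h2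
  rw [Units.val_pow_eq_pow_val] at h3
  have h4 : IsNorm K₁ σ n ((b : Om q) ^ n) := h99rd_isNorm_self_pow hcyc hbK b.ne_zero
  have hcop : Nat.Coprime p n := (Nat.Prime.coprime_iff_not_dvd hp).mpr hpn
  have h5 : IsNorm K₁ σ n (b : Om q) := h99rd_isNorm_of_coprime b.ne_zero hcop h3 h4
  have h6 : MCohom K (carry K₁ σ n b) 1 := (hCN q K K₁ n σ b hcyc hbK).mpr h5
  exact h76m_trans hcb h6

/-- **REC-DESC-LOC**. -/
theorem h99rd_recDescLoc : RecDescLoc :=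
  h99rd_recDescLoc_of h77p_mcInfResPer_holds (h90c_carryNorm h81h_mcH90)

end Fermat.Agent.PT.Glob
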