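import Mathlib
import Fermat.Agent.PT.Glob.Rec.Iface
import Fermat.Agent.PT.Glob.H82LocCyc
import Fermat.Agent.PT.Loc.H90Final
import Fermat.Agent.PT.Glob.Rec.H25TameLoc

/-!
# W3-PT / PT-GLOB-REC, leaf REC-TAME (helper25)

`h25r_recTame_of : RecCyclo → RecEllNorm → RecTame` : if the carry cocycle `gcarry Q' σ p B`
(`B ∈ ℚˣ`, `Q'` the subfield of degree `p` of `ℚ(ζ_ℓ)`) is a local coboundary at `ℓ`, then the
`ℓ`-unit part of `B` is a `p`-th power modulo `ℓ`.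

Proof.  Localise `Q'/ℚ` at `(ℓ, 1)` (`h82c_gLocCyc`).  The local extension is not trivial, since
`ℓ = N β` with all conjugates of `β` of the same `ℓ`-adic absolute value, so
`‖ι β‖ ^ p = ‖ℓ‖` is not in the value group of `ℚ_ℓ`.  In the cyclic alternative the local
generator `τ` induces `σ` on `Q'`, so `ℓ = N_τ (ι β)` is a local norm; the localised carry
cocycle is the local carry cocycle of `ι B`, which is a coboundary, so `B` is a local norm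
(`h90l_mcCarryNorm`); conclude by `h25r_recTameLoc`.
-/

set_option autoImplicit false
set_option linter.style.haveILetI false
set_option linter.unusedSectionVars false

open scoped Classical

noncomputable section

namespace Fermat.Agent.PT.Glob

open Fermat.Agent.Bridge Fermat.Agent.PT

variable {ℓ : ℕ} [Fact ℓ.Prime]

/-- The local field of `ℚ` is `ℚ_ℓ`. -/
theorem h25r_gLocField_bot (g : GQ) : gLocField ℓ g (⊥ : NFd) = (⊥ : Loc.LF ℓ) := by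
  rw [eq_bot_iff]
  unfold gLocField Fermat.Agent.PT.Bridge.h23b_localField
  rw [IntermediateField.adjoin_le_iff]
  rintro x ⟨y, hy, rfl⟩
  rw [SetLike.mem_coe, IntermediateField.mem_map] at hy
  obtain ⟨z, hz, rfl⟩ := hy
  obtain ⟨r, rfl⟩ := IntermediateField.mem_bot.1 hz
  rw [SetLike.mem_coe, IntermediateField.mem_bot]
  refine ⟨algebraMap ℚ ℚ_[ℓ] r, ?_⟩
  rw [AlgHom.commutes, AlgHom.commutes, ← IsScalarTower.algebraMap_apply]

theorem h25r_gConj_one (h : Loc.Gq ℓ) : gConj ℓ 1 h = localGaloisToGlobal ℓ h := by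
  simp [gConj]

/-- `‖y‖ ^ p = ℓ⁻¹` is impossible for `y ∈ ℚ_ℓ`, `p ≥ 2`. -/
theorem h25r_no_root (p : ℕ) (hp2 : 2 ≤ p) (y₀ : ℚ_[ℓ]) : ‖y₀‖ ^ p ≠ ((ℓ : ℕ) : ℝ)⁻¹ := by
  intro h
  have hℓ1 : (1 : ℝ) < ((ℓ : ℕ) : ℝ) := by
    exact_mod_cast (Fact.out : ℓ.Prime).one_lt
  have hℓpos : (0 : ℝ) < ((ℓ : ℕ) : ℝ) := by linarith
  have hy₀0 : y₀ ≠ 0 := by
    rintro rfl
    rw [norm_zero, zero_pow (by omega)] at h
    exact (inv_ne_zero hℓpos.ne') h.symm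
  rw [Padic.norm_eq_zpow_neg_valuation hy₀0, ← zpow_natCast, ← zpow_mul, ← zpow_neg_one] at h
  have hinj := zpow_right_injective₀ hℓpos hℓ1.ne' h
  have h1 : y₀.valuation * (p : ℤ) = 1 := by
    have : -y₀.valuation * (p : ℤ) = -1 := hinj
    linarith
  have h2 : ((p : ℤ)) ∣ 1 := Dvd.intro_left _ h1
  have h3 : (p : ℤ) ≤ 1 := Int.le_of_dvd one_pos h2
  omega

/-- `MCohom` only depends on the values on `G_K × G_K`. -/
theorem h25r_mcohom_congr {K : Loc.LF ℓ} {c c₂ c' : Loc.Gq ℓ × Loc.Gq ℓ → (Loc.Om ℓ)ˣ}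
    (h : ∀ g ∈ Loc.GK K, ∀ h ∈ Loc.GK K, c (g, h) = c₂ (g, h)) (hc : Loc.MCohom K c c') :
    Loc.MCohom K c₂ c' := by
  obtain ⟨x, hx, hxc⟩ := hc
  exact ⟨x, hx, fun g hg k hk => by rw [← h g hg k hk, hxc g hg k hk]⟩

/-- REC-TAME, from `RecCyclo` and `RecEllNorm`. -/
theorem h25r_recTame_of (hC : RecCyclo) (hE : RecEllNorm) : RecTame := by
  intro p ℓ _ _ hdvd σ hσ B b hB0 hb hcoh
  have hp2 : 2 ≤ p := (Fact.out : p.Prime).two_le
  obtain ⟨-, hcycAll⟩ := hC p ℓ hdvd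
  have hcyc : GIsCyc ⊥ (recField ℓ p) p σ := hcycAll σ hσ
  obtain ⟨β, hβQ, hβ0, hNβ, hnorm⟩ := hE p ℓ hdvd σ hσ
  haveI : FiniteDimensional ℚ (⊥ : NFd) := inferInstance
  -- `ι β`
  set ιβ : Loc.Om ℓ := padicEmbedding ℓ β with hιβ
  have hιβ0 : ιβ ≠ 0 := (map_ne_zero_iff _ (padicEmbedding ℓ).injective).2 hβ0
  have hιβmem : ιβ ∈ gLocField ℓ 1 (recField ℓ p) :=
    Fermat.Agent.PT.Bridge.h23b_padicEmbedding_mem_localField ℓ
      ((IntermediateField.mem_map _).2 ⟨β, hβQ, rfl⟩)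
  have hιℓ : padicEmbedding ℓ (((ℓ : ℕ) : Qb)) = ((ℓ : ℕ) : Loc.Om ℓ) := map_natCast _ _
  -- `‖ι β‖ ^ p = ‖ℓ‖`
  have hnιβ : ‖ιβ‖ ^ p = ((ℓ : ℕ) : ℝ)⁻¹ := by
    have h1 : padicEmbedding ℓ (gnormAlong σ p β) = ((ℓ : ℕ) : Loc.Om ℓ) := by
      rw [hNβ, hιℓ]
    have h2 : ‖padicEmbedding ℓ (gnormAlong σ p β)‖ = ‖ιβ‖ ^ p := by
      unfold gnormAlong
      rw [map_prod, norm_prod]
      simp only [hnorm, Finset.prod_const, Finset.card_range]
    rw [← h2, h1, h25r_norm_ell]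
  rcases h82c_gLocCyc p ⊥ (recField ℓ p) σ hcyc ℓ 1 with htriv | ⟨τ, hτcyc, hτσ, hidx⟩
  · -- the trivial alternative is impossible
    exfalso
    rw [htriv, h25r_gLocField_bot] at hιβmem
    obtain ⟨y₀, hy₀⟩ := IntermediateField.mem_bot.1 hιβmem
    rw [← hy₀, h25r_norm_algebraMap] at hnιβ
    exact h25r_no_root p hp2 y₀ hnιβ
  · rw [h25r_gLocField_bot] at hτcyc hidx
    set K₁ : Loc.LF ℓ := gLocField ℓ 1 (recField ℓ p) with hK₁
    -- `τ ^ i` induces `σ ^ i` on `Q'`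
    have hpow : ∀ i : ℕ, (τ ^ i) ιβ = padicEmbedding ℓ ((σ ^ i) β) := by
      intro i
      have h1 : (σ ^ i)⁻¹ * (gConj ℓ 1 τ) ^ i ∈ GU (recField ℓ p) :=
        h82c_pow_congr (GU ⊥) (GU (recField ℓ p)) hcyc.normal hcyc.mem hτσ i
      have h2 : ((σ ^ i)⁻¹ * (gConj ℓ 1 τ) ^ i) β = β :=
        (IntermediateField.mem_fixingSubgroup_iff _ _).1 h1 β hβQ
      have h3 : ((gConj ℓ 1 τ) ^ i) β = (σ ^ i) β := by
        have := congrArg (σ ^ i) h2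
        rwa [AlgEquiv.mul_apply, ← AlgEquiv.mul_apply, mul_inv_cancel, AlgEquiv.one_apply]
          at this
      rw [← h3, h25r_gConj_one, ← map_pow, padicEmbedding_localGaloisToGlobal]
    -- `ℓ` is a local norm
    have hℓnorm : Loc.IsNorm K₁ τ p ((ℓ : ℕ) : Loc.Om ℓ) := by
      refine ⟨ιβ, hιβmem, hιβ0, ?_⟩
      unfold Loc.normAlong
      rw [← hιℓ, ← hNβ]
      unfold gnormAlong
      rw [map_prod]
      exact Finset.prod_congr rfl fun i _ => hpow i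
    -- the localised carry cocycle
    set b' : (Loc.Om ℓ)ˣ := gLocUnit ℓ 1 b with hb'
    have hb'val : ((b' : (Loc.Om ℓ)ˣ) : Loc.Om ℓ) = ((B : ℚ) : Loc.Om ℓ) := by
      have h0 : ((b' : (Loc.Om ℓ)ˣ) : Loc.Om ℓ) = gLocEl ℓ 1 (b : Qb) := rfl
      rw [h0]
      simp only [gLocEl, AlgEquiv.one_apply, hb]
      exact map_ratCast _ _
    have hb'mem : ((b' : (Loc.Om ℓ)ˣ) : Loc.Om ℓ) ∈ (⊥ : Loc.LF ℓ) := by
      rw [hb'val, h25r_ratCast_eq]
      exact IntermediateField.algebraMap_mem _ _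
    have hcarry : Loc.MCohom (⊥ : Loc.LF ℓ) (Loc.carry K₁ τ p b') 1 := by
      refine h25r_mcohom_congr (fun g hg h hh => ?_) hcoh
      simp only [gLocM2, gcarry, Loc.carry]
      rw [hidx g hg, hidx h hh]
      split_ifs
      · rfl
      · exact map_one _
    have hBnorm : Loc.IsNorm K₁ τ p ((B : ℚ) : Loc.Om ℓ) := by
      rw [← hb'val]
      exact (Loc.h90l_mcCarryNorm ℓ (⊥ : Loc.LF ℓ) K₁ p τ b' hτcyc hb'mem).1 hcarry
    exact h25r_recTameLoc ℓ p K₁ τ hτcyc hℓnorm B hB0 hBnorm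

end Fermat.Agent.PT.Glob
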