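import Mathlib
import Fermat.Agent.PT.Glob.Rec.Iface
import Fermat.Agent.PT.Glob.H36GUnr0
import Fermat.Agent.PT.Bridge.Inertia
import Fermat.Agent.PT.Loc.H36Unr
import Fermat.Agent.PT.Loc.H36URFrob
import Fermat.Agent.PT.Loc.H66URCyc
import Fermat.Agent.PT.Loc.H66URConj
import Fermat.Agent.PT.Loc.H6ChiZeta
import Fermat.Agent.PT.Loc.H96RDBase
import Fermat.Agent.PT.Loc.H34LFTeich

/-!
# W3-PT (S55), PT-GLOB-BR / GLOB-REC, leaf REC-UNR (helper34): `RecUnr`

A twisted `2`-cocycle `a` of `G_{ℚ,S}` with values in `𝔽_p(χ) = μ_p` has invariant `0` at every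
prime `q ∉ S` (`p ∈ S`).

Proof (purely local after localisation at `(q, 1)`).  Let `z = recLoc q a`, `E = Kur ⊥ (p - 1)`,
the unramified extension of degree `p - 1` of `ℚ_q`; it contains `ζ_p` because
`p ∣ q ^ (p - 1) - 1`.
* `z` is a twisted cocycle of `G_{ℚ_q}` (for `chiL p q`), continuous, right invariant under the
  inertia group in both variables (the level of `a` is unramified at `q`);
* on `G_E` the character is trivial, so `z` is an untwisted unramified cocycle of `G_E`, hence a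
  continuous coboundary (`h36n_locUnr`), hence `ζ ^ z` is a multiplicative coboundary on `G_E`;
* `E / ℚ_q` is cyclic of degree `p - 1`, prime to `p`: descent (`RecDescLoc`) gives
  `ζ ^ z ∼ 1` on `G_{ℚ_q}`.

Main results: `h34u_hasInv_zero` (the local statement), `h34u_recUnr : RecDescLoc → RecUnr`.
-/

set_option autoImplicit false
set_option linter.style.haveILetI false

open scoped Classical

noncomputable section

namespace Fermat.Agent.PT.Glob

open Fermat.Agent.Bridge Fermat.Agent.PT.Bridge ExtCitation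

/-! ## Powers of an element of order dividing `p`, indexed by `ZMod p` -/

section Pow

variable {M : Type*} [Monoid M] {p : ℕ} [NeZero p]

omit [NeZero p] in
theorem h34u_pow_mod {ζ : M} (hζ : ζ ^ p = 1) (n : ℕ) : ζ ^ (n % p) = ζ ^ n := by
  conv_rhs => rw [← Nat.mod_add_div n p]
  rw [pow_add, pow_mul, hζ, one_pow, mul_one]

theorem h34u_pow_val_add {ζ : M} (hζ : ζ ^ p = 1) (a b : ZMod p) :
    ζ ^ (a + b).val = ζ ^ a.val * ζ ^ b.val := by
  rw [ZMod.val_add, h34u_pow_mod hζ, pow_add]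

omit [NeZero p] in
theorem h34u_pow_val_mul {ζ : M} (hζ : ζ ^ p = 1) (a b : ZMod p) :
    ζ ^ (a * b).val = (ζ ^ a.val) ^ b.val := by
  rw [ZMod.val_mul, h34u_pow_mod hζ, pow_mul]

end Pow

/-! ## The local statement -/

section Local

variable (q : ℕ) [Fact q.Prime] (p : ℕ) [Fact p.Prime]

/-- `ζ_p` lies in the unramified extension of degree `p - 1` of `ℚ_q` (`q ≠ p`). -/
theorem h34u_zetaL_mem_Kur (hqp : q ≠ p) :
    Loc.zetaL p q ∈ Loc.Kur (⊥ : Loc.LF q) (p - 1) := by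
  have hp : p.Prime := Fact.out
  have hq : q.Prime := Fact.out
  apply Loc.h66u_mem_Kur_of_pow
  rw [Loc.h96b_resCard_bot]
  have hζ : Loc.zetaL p q ^ p = 1 := (Loc.h6z_zetaL_primitive p q hp.ne_zero).pow_eq_one
  have hq0 : ((q : ℕ) : ZMod p) ≠ 0 := by
    intro h
    rw [ZMod.natCast_eq_zero_iff] at h
    exact hqp ((Nat.prime_dvd_prime_iff_eq hp hq).mp h).symm
  have h1 : ((q : ℕ) : ZMod p) ^ (p - 1) = 1 := ZMod.pow_card_sub_one_eq_one hq0
  have hpos : 1 ≤ q ^ (p - 1) := Nat.one_le_pow _ _ hq.pos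
  have hdvd : p ∣ q ^ (p - 1) - 1 := by
    rw [← ZMod.natCast_eq_zero_iff, Nat.cast_sub hpos, Nat.cast_pow, h1, Nat.cast_one, sub_self]
  obtain ⟨k, hk⟩ := hdvd
  rw [hk, pow_mul, hζ, one_pow]

/-- The local cyclotomic character is trivial on the elements fixing `ζ_p`. -/
theorem h34u_chiL_eq_one {g : Loc.Gq q} (hg : g (Loc.zetaL p q) = Loc.zetaL p q) :
    Loc.chiL p q g = 1 := by
  have hp : p.Prime := Fact.out
  haveI : NeZero p := ⟨hp.ne_zero⟩
  haveI : Fact (1 < p) := ⟨hp.one_lt⟩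
  obtain ⟨hprim, hU, hact⟩ := Loc.h6z_chiZeta q p
  have h2 : g ((Loc.zetaU p q : (Loc.Om q)ˣ) : Loc.Om q)
      = ((Loc.zetaU p q : (Loc.Om q)ˣ) : Loc.Om q) ^ (Loc.chiL p q g).val := by
    rw [← Units.val_pow_eq_pow_val, ← hact g]
    rfl
  rw [hU] at h2
  have h1 : Loc.zetaL p q ^ (Loc.chiL p q g).val = Loc.zetaL p q ^ 1 := by
    rw [pow_one, ← h2, hg]
  have h3 : (Loc.chiL p q g).val = 1 :=
    hprim.pow_inj (ZMod.val_lt _) hp.one_lt h1
  have h4 : ((Loc.chiL p q g).val : ZMod p) = ((1 : ℕ) : ZMod p) := by rw [h3]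
  rwa [ZMod.natCast_zmod_val, Nat.cast_one] at h4

/-- The elements of `G_E`, `E ∋ ζ_p`, fix `zetaU`. -/
theorem h34u_smul_zetaU {g : Loc.Gq q} (hg : g (Loc.zetaL p q) = Loc.zetaL p q) :
    g • Loc.zetaU p q = Loc.zetaU p q := by
  obtain ⟨-, -, hact⟩ := Loc.h6z_chiZeta q p
  have hp : p.Prime := Fact.out
  haveI : Fact (1 < p) := ⟨hp.one_lt⟩
  rw [hact g, h34u_chiL_eq_one q p hg, ZMod.val_one, pow_one]

theorem h34u_zetaU_pow : Loc.zetaU p q ^ p = 1 := by
  have hp : p.Prime := Fact.out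
  obtain ⟨hprim, hU, -⟩ := Loc.h6z_chiZeta q p
  apply Units.ext
  rw [Units.val_pow_eq_pow_val, hU, hprim.pow_eq_one]
  rfl

/-- Continuity restricts to larger base fields. -/
theorem h34u_cont2_mono {X : Type*} {K E : Loc.LF q} [FiniteDimensional ℚ_[q] E] (hKE : K ≤ E)
    {f : Loc.Gq q × Loc.Gq q → X} (hf : Loc.Cont2 K f) : Loc.Cont2 E f := by
  obtain ⟨F, hFfin, -, hF⟩ := hf
  haveI := hFfin
  have hE : Loc.GK E ≤ Loc.GK K := IntermediateField.fixingSubgroup_antitone hKE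
  have hFE : Loc.GK (F ⊔ E) ≤ Loc.GK F :=
    IntermediateField.fixingSubgroup_antitone le_sup_left
  exact ⟨F ⊔ E, IntermediateField.finiteDimensional_sup F E, le_sup_right,
    fun g hg g' hg' s hs s' hs' => hF g (hE hg) g' (hE hg') s (hFE hs) s' (hFE hs')⟩

/-- **The local form of REC-UNR**: a continuous twisted `2`-cocycle of `G_{ℚ_q}` with values in
`𝔽_p(χ)`, `q ≠ p`, which is right invariant under inertia, has invariant `0`. -/
theorem h34u_hasInv_zero (hD : RecDescLoc) (hqp : q ≠ p)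
    (z : Loc.Gq q × Loc.Gq q → ZMod p)
    (hcoc : ∀ g h j : Loc.Gq q,
      Loc.chiL p q g * z (h, j) - z (g * h, j) + z (g, h * j) - z (g, h) = 0)
    (hcont : Loc.Cont2 (⊥ : Loc.LF q) z)
    (hin : ∀ (g g' i i' : Loc.Gq q),
      (∀ (w : Loc.Om q) (m : ℕ), 0 < m → ¬ q ∣ m → w ^ m = 1 → i w = w) →
      (∀ (w : Loc.Om q) (m : ℕ), 0 < m → ¬ q ∣ m → w ^ m = 1 → i' w = w) →
      z (g * i, g' * i') = z (g, g')) :
    Loc.HasInv p q z 0 := by
  have hp : p.Prime := Fact.out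
  haveI : NeZero p := ⟨hp.ne_zero⟩
  have hp1 : 0 < p - 1 := Nat.sub_pos_of_lt hp.one_lt
  have hζp : Loc.zetaU p q ^ p = 1 := h34u_zetaU_pow q p
  obtain ⟨-, -, hact⟩ := Loc.h6z_chiZeta q p
  -- the unramified extension of degree `p - 1`
  have hcyc : Loc.IsCyc (⊥ : Loc.LF q) (Loc.Kur (⊥ : Loc.LF q) (p - 1)) (p - 1) (Loc.frobQ q) := by
    have hφ : Loc.IsFrob (⊥ : Loc.LF q) (Loc.frobQ q) := by
      have h : ∃ φ : Loc.Gq q, Loc.IsFrob (⊥ : Loc.LF q) φ :=
        Loc.h36_urFrob Loc.h34lf_lfTeich q ⊥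
      unfold Loc.frobQ
      rw [dif_pos h]
      exact h.choose_spec
    exact Loc.h66v_urCyc Loc.h34lf_lfTeich q ⊥ (p - 1) (Loc.frobQ q) hp1 hφ
  haveI hEfin : FiniteDimensional ℚ_[q] (Loc.Kur (⊥ : Loc.LF q) (p - 1)) := hcyc.fin
  have hζE : Loc.zetaL p q ∈ Loc.Kur (⊥ : Loc.LF q) (p - 1) := h34u_zetaL_mem_Kur q p hqp
  have hfix : ∀ g ∈ Loc.GK (Loc.Kur (⊥ : Loc.LF q) (p - 1)),
      g (Loc.zetaL p q) = Loc.zetaL p q := fun g hg => hg ⟨_, hζE⟩
  -- `z` is an untwisted unramified continuous cocycle of `G_E`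
  have hcocE : Loc.ACoc2 (Loc.Kur (⊥ : Loc.LF q) (p - 1)) z := by
    intro g hg h _ j _
    have h1 := hcoc g h j
    rw [h34u_chiL_eq_one q p (hfix g hg), one_mul] at h1
    exact h1
  have hcontE : Loc.Cont2 (Loc.Kur (⊥ : Loc.LF q) (p - 1)) z :=
    h34u_cont2_mono q bot_le hcont
  have hcob : Loc.ACohom (Loc.Kur (⊥ : Loc.LF q) (p - 1)) z 0 :=
    Loc.h36n_locUnr q p _ z hcocE hcontE
      (fun g _ g' _ i i' hi hi' => hin g g' i i' hi.2 hi'.2)
  -- multiplicative coboundary on `G_E`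
  have hmE : Loc.MCohom (Loc.Kur (⊥ : Loc.LF q) (p - 1)) (Loc.zpw (Loc.zetaU p q) z) 1 := by
    obtain ⟨f, ⟨F, hFfin, hEF, hF⟩, hf⟩ := hcob
    refine ⟨fun g => Loc.zetaU p q ^ (f g).val, ⟨F, hFfin, hEF, fun g hg s hs => ?_⟩, ?_⟩
    · show Loc.zetaU p q ^ (f (g * s)).val = Loc.zetaU p q ^ (f g).val
      rw [hF g hg s hs]
    · intro g hg h hh
      have h1 : z (g, h) + f (g * h) = f h + f g := by
        have h2 := hf g hg h hh
        simp only [Pi.zero_apply, zero_add, Loc.acob] at h2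
        rw [h2]
        ring
      have h3 := congrArg (fun t : ZMod p => Loc.zetaU p q ^ t.val) h1
      simp only [h34u_pow_val_add hζp] at h3
      show Loc.zetaU p q ^ (z (g, h)).val = 1 * (g • (Loc.zetaU p q ^ (f h).val)
        / Loc.zetaU p q ^ (f (g * h)).val * Loc.zetaU p q ^ (f g).val)
      rw [smul_pow', h34u_smul_zetaU q p (hfix g hg), one_mul, div_mul_eq_mul_div,
        eq_div_iff_mul_eq']
      exact h3
  -- `ζ ^ z` is a continuous multiplicative cocycle of `G_{ℚ_q}` of exponent `p`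
  have hmcoc : Loc.MCoc2 (⊥ : Loc.LF q) (Loc.zpw (Loc.zetaU p q) z) := by
    intro g _ h _ j _
    have h1 : z (g * h, j) + z (g, h) = Loc.chiL p q g * z (h, j) + z (g, h * j) := by
      have h2 := hcoc g h j
      linear_combination -h2
    have h3 := congrArg (fun t : ZMod p => Loc.zetaU p q ^ t.val) h1
    simp only [h34u_pow_val_add hζp, h34u_pow_val_mul hζp] at h3
    show Loc.zetaU p q ^ (z (g * h, j)).val * Loc.zetaU p q ^ (z (g, h)).val
      = g • (Loc.zetaU p q ^ (z (h, j)).val) * Loc.zetaU p q ^ (z (g, h * j)).val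
    rw [smul_pow', hact g]
    exact h3
  have hmcont : Loc.Cont2 (⊥ : Loc.LF q) (Loc.zpw (Loc.zetaU p q) z) := by
    obtain ⟨F, hFfin, hF0, hF⟩ := hcont
    refine ⟨F, hFfin, hF0, fun g hg g' hg' s hs s' hs' => ?_⟩
    show Loc.zetaU p q ^ (z (g * s, g' * s')).val = Loc.zetaU p q ^ (z (g, g')).val
    rw [hF g hg g' hg' s hs s' hs']
  have hpow : ∀ y, Loc.zpw (Loc.zetaU p q) z y ^ p = 1 := by
    intro y
    show (Loc.zetaU p q ^ (z y).val) ^ p = 1
    rw [← pow_mul, mul_comm, pow_mul, hζp, one_pow]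
  have hnd : ¬ p ∣ p - 1 := fun h => by
    have := Nat.le_of_dvd hp1 h
    omega
  have hres := hD q p ⊥ (Loc.Kur (⊥ : Loc.LF q) (p - 1)) (p - 1) (Loc.frobQ q) hcyc hnd
    (Loc.zpw (Loc.zetaU p q) z) hpow hmcoc hmcont hmE
  have hone : (fun y => Loc.Yq p q y ^ (0 : ZMod p).val) = (1 : Loc.Gq q × Loc.Gq q → (Loc.Om q)ˣ) := by
    funext y
    rw [ZMod.val_zero, pow_zero]
    rfl
  unfold Loc.HasInv
  rw [hone]
  exact hres

end Local

/-! ## The global statement -/

theorem h34u_gConj_one (q : ℕ) [Fact q.Prime] (h : Loc.Gq q) :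
    gConj q 1 h = localGaloisToGlobal q h := by
  unfold gConj
  rw [inv_one, one_mul, mul_one]

/-- **REC-UNR** (from the local descent `RecDescLoc`). -/
theorem h34u_recUnr (hD : RecDescLoc) : RecUnr := by
  intro p _ hp2 S hpS a hcoc hS q _ hq
  have hqp : q ≠ p := fun h => hq (pPrime p) hpS h.symm
  have hqS : (⟨q, Fact.out⟩ : Nat.Primes) ∉ S := fun h => hq _ h rfl
  obtain ⟨F, hFunr, -, hF⟩ := hS
  have hFfin : FiniteDimensional ℚ F := hFunr.1
  have hall : ∀ g : GQ, g ∈ GU (⊥ : NFd) := fun g => by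
    show g ∈ (⊥ : IntermediateField ℚ Qb).fixingSubgroup
    rw [IntermediateField.fixingSubgroup_bot]
    exact Subgroup.mem_top g
  refine h34u_hasInv_zero q p hD hqp (recLoc q a) ?_ ?_ ?_
  · intro g h j
    have h1 := hcoc (localGaloisToGlobal q g) (localGaloisToGlobal q h) (localGaloisToGlobal q j)
    show recChi p (localGaloisToGlobal q g) * a (localGaloisToGlobal q h, localGaloisToGlobal q j)
      - a (localGaloisToGlobal q (g * h), localGaloisToGlobal q j)
      + a (localGaloisToGlobal q g, localGaloisToGlobal q (h * j))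
      - a (localGaloisToGlobal q g, localGaloisToGlobal q h) = 0
    rw [map_mul, map_mul]
    exact h1
  · haveI := hFfin
    refine ⟨gLocField q 1 F, h36g_finiteDimensional_gLocField q 1 F, bot_le, ?_⟩
    intro g _ g' _ s hs s' hs'
    show a (localGaloisToGlobal q (g * s), localGaloisToGlobal q (g' * s'))
      = a (localGaloisToGlobal q g, localGaloisToGlobal q g')
    rw [map_mul, map_mul]
    refine hF _ (hall _) _ (hall _) _ ?_ _ ?_
    · have := (h36g_gConj_mem_GU_iff q F 1 s).2 hs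
      rwa [h34u_gConj_one] at this
    · have := (h36g_gConj_mem_GU_iff q F 1 s').2 hs'
      rwa [h34u_gConj_one] at this
  · intro g g' i i' hi hi'
    show a (localGaloisToGlobal q (g * i), localGaloisToGlobal q (g' * i'))
      = a (localGaloisToGlobal q g, localGaloisToGlobal q g')
    rw [map_mul, map_mul]
    refine hF _ (hall _) _ (hall _) _ ?_ _ ?_
    · have := h23b_conj_mem_fixingSubgroup_of_inert q hFunr hqS 1 hi
      rwa [inv_one, one_mul, mul_one] at this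
    · have := h23b_conj_mem_fixingSubgroup_of_inert q hFunr hqS 1 hi'
      rwa [inv_one, one_mul, mul_one] at this

end Fermat.Agent.PT.Glob
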