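import Fermat.Agent.PT.Glob.Rec.H34Unr
import Fermat.Agent.PT.Glob.Rec.Desc99Loc

/-!
# W3-PT (S55), GLOB-REC, leaf REC-UNR (helper34): `RecUnr`, unconditionally

`h34u_recUnr_holds : RecUnr` = `h34u_recUnr` (H34Unr.lean) applied to helper99's
`h99rd_recDescLoc : RecDescLoc`.
-/

set_option autoImplicit false

namespace Fermat.Agent.PT.Glob

/-- **REC-UNR**, unconditional. -/
theorem h34u_recUnr_holds : RecUnr := h34u_recUnr h99rd_recDescLoc

end Fermat.Agent.PT.Glob
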