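import Mathlib
import Fermat.Agent.PT.Glob.Rec.Iface
import Fermat.Agent.PT.Glob.H82LocCyc
import Fermat.Agent.PT.Glob.MC.H49GIdx
import Fermat.Agent.PT.Glob.Rec.H83GenChg
import Fermat.Agent.PT.Glob.Rec.H96LocVal
import Fermat.Agent.PT.Loc.H74NIDich
import Fermat.Agent.PT.Loc.H66URVal
import Fermat.Agent.PT.Loc.H66URConj
import Fermat.Agent.PT.Loc.H36URFrob
import Fermat.Agent.PT.Loc.H34LFTeich
import Fermat.Agent.PT.Loc.LFImm39
import Fermat.Agent.PT.Loc.H96RDBase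
import Fermat.Agent.PT.Loc.H76MC
import Fermat.Agent.PT.Bridge.Levels

/-!
# W3-PT / PT-GLOB-REC, leaf REC-LOCCARRY (helper82, second seat)

`h82r_recLocCarry : RecCyclo → RecLocCarry` — the invariant of the carry cocycle
`gcarry Q' σ p B` (`Q' = recField ℓ p`, `B ∈ ℚˣ`) at a prime `q ≠ ℓ` is
`v_q(B) · idx_σ(Frob_q)`.

* `h82r_gLocField_bot`  : the local field of `ℚ` at `(q, 1)` is `ℚ_q`;
* `h82r_zeta_mem_Kur`   : `ι ζ_ℓ` lies in the unramified extension of degree `ℓ - 1` of `ℚ_q`;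
* `h82r_locField_le`    : the local field of `Q'` at `(q, 1)` is contained in it;
* `h82r_eq_Kur`         : a cyclic extension of prime degree `p` of `ℚ_q` contained in an
  unramified extension is `Kur ⊥ p` (`NIDich` + `URVal`);
* `h82r_local`          : the local computation (`RecGenChg` + `RecLocVal`);
* `h82r_recLocCarry`    : the leaf.
-/

set_option autoImplicit false

open scoped Classical

noncomputable section

namespace Fermat.Agent.PT.Glob

open Fermat.Agent.Bridge Fermat.Agent.PT.Loc ExtCitation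

/-- Every element of `G_ℚ` fixes `ℚ`. -/
theorem h82r_mem_GU_bot (g : GQ) : g ∈ GU (⊥ : NFd) := by
  rw [IntermediateField.mem_fixingSubgroup_iff]
  intro x hx
  obtain ⟨r, rfl⟩ := IntermediateField.mem_bot.mp hx
  exact g.commutes r

/-- Every element of `G_{ℚ_q}` fixes `ℚ_q`. -/
theorem h82r_mem_GK_bot {q : ℕ} [Fact q.Prime] (g : Gq q) : g ∈ GK (⊥ : LF q) := by
  rw [IntermediateField.mem_fixingSubgroup_iff]
  intro x hx
  obtain ⟨r, rfl⟩ := IntermediateField.mem_bot.mp hx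
  exact g.commutes r

/-- `gConj q 1 h` is the global image of `h`. -/
theorem h82r_gConj_one (q : ℕ) [Fact q.Prime] (h : Gq q) :
    gConj q 1 h = localGaloisToGlobal q h := by
  simp [gConj]

/-- The local field of `ℚ` at `(q, 1)` is `ℚ_q`. -/
theorem h82r_gLocField_bot (q : ℕ) [Fact q.Prime] :
    gLocField q 1 (⊥ : NFd) = (⊥ : LF q) := by
  refine le_antisymm ?_ bot_le
  intro x hx
  apply h82c_mem_of_fixed
  intro s _
  have hs : s ∈ GK (gLocField q 1 (⊥ : NFd)) := by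
    rw [← h82c_conj_mem_iff]
    exact h82r_mem_GU_bot _
  exact hs ⟨x, hx⟩

/-- `ℓ ∣ q ^ (ℓ - 1) - 1` for primes `q ≠ ℓ`. -/
theorem h82r_dvd_pow_sub_one {ℓ q : ℕ} (hℓ : ℓ.Prime) (hq : q.Prime) (hql : q ≠ ℓ) :
    ℓ ∣ q ^ (ℓ - 1) - 1 := by
  have hcop : Nat.Coprime q ℓ := (Nat.coprime_primes hq hℓ).mpr hql
  have h1 : q ^ Nat.totient ℓ ≡ 1 [MOD ℓ] := Nat.ModEq.pow_totient hcop
  rw [Nat.totient_prime hℓ] at h1
  exact (Nat.modEq_iff_dvd' (Nat.one_le_pow _ _ hq.pos)).mp h1.symm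

/-- The image of a primitive `ℓ`-th root of unity lies in the unramified extension of degree
`ℓ - 1` of `ℚ_q`. -/
theorem h82r_zeta_mem_Kur {ℓ q : ℕ} [Fact ℓ.Prime] [Fact q.Prime] (hql : q ≠ ℓ) {ζ : Qb}
    (hζ : IsPrimitiveRoot ζ ℓ) : padicEmbedding q ζ ∈ Kur (⊥ : LF q) (ℓ - 1) := by
  have hℓ : ℓ.Prime := Fact.out
  have hq : q.Prime := Fact.out
  have hres : resCard (⊥ : LF q) = q := (h96b_lfBase q).2.1
  obtain ⟨k, hk⟩ := h82r_dvd_pow_sub_one hℓ hq hql
  have h1 : ζ ^ (q ^ (ℓ - 1) - 1) = 1 := by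
    rw [hk, pow_mul, hζ.pow_eq_one, one_pow]
  have h2 : padicEmbedding q ζ ^ (resCard (⊥ : LF q) ^ (ℓ - 1) - 1) = 1 := by
    rw [hres, ← map_pow, h1, map_one]
  unfold Kur
  exact (le_sup_right : _ ≤ (⊥ : LF q) ⊔ _) (IntermediateField.subset_adjoin _ _ h2)

/-- Elements of `G_{ℚ_q}` fixing the unramified extension of degree `ℓ - 1` have trivial
cyclotomic character at `ℓ`. -/
theorem h82r_cycloChar_of_mem {ℓ q : ℕ} [Fact ℓ.Prime] [Fact q.Prime] (hql : q ≠ ℓ)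
    {s : Gq q} (hs : s ∈ GK (Kur (⊥ : LF q) (ℓ - 1))) :
    cycloChar ℓ (localGaloisToGlobal q s) = 1 := by
  obtain ⟨ζ, hζ⟩ := Fermat.Agent.PT.pt79_exists_primitiveRoot ℓ
  refine Fermat.Agent.PT.pt79_cycloChar_eq_one_of_fix ℓ hζ _ ?_
  have h1 : s (padicEmbedding q ζ) = padicEmbedding q ζ :=
    hs ⟨padicEmbedding q ζ, h82r_zeta_mem_Kur hql hζ⟩
  have h2 : padicEmbedding q (localGaloisToGlobal q s ζ) = padicEmbedding q ζ := by
    rw [padicEmbedding_localGaloisToGlobal, h1]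
  exact (padicEmbedding q).injective h2

/-- The local field of `Q'` at `(q, 1)` is contained in the unramified extension of degree
`ℓ - 1` of `ℚ_q`. -/
theorem h82r_locField_le {p ℓ q : ℕ} [Fact ℓ.Prime] [Fact q.Prime] (hql : q ≠ ℓ)
    (hGU : GU (recField ℓ p) = recSub ℓ p) :
    gLocField q 1 (recField ℓ p) ≤ Kur (⊥ : LF q) (ℓ - 1) := by
  intro x hx
  apply h82c_mem_of_fixed
  intro s hs
  have hs' : s ∈ GK (gLocField q 1 (recField ℓ p)) := by
    rw [← h82c_conj_mem_iff, hGU, h82r_gConj_one]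
    show cycloChar ℓ (localGaloisToGlobal q s) ∈ (powMonoidHom p : (ZMod ℓ)ˣ →* (ZMod ℓ)ˣ).range
    rw [h82r_cycloChar_of_mem hql hs]
    exact Subgroup.one_mem _
  exact hs' ⟨x, hx⟩

/-- A cyclic extension of prime degree `p` of `ℚ_q` contained in an unramified extension is
the unramified extension of degree `p`. -/
theorem h82r_eq_Kur {q p : ℕ} [Fact q.Prime] [Fact p.Prime] (E : LF q) (τ : Gq q)
    (hτ : IsCyc (⊥ : LF q) E p τ) (n : ℕ) (hn : 0 < n) (hle : E ≤ Kur (⊥ : LF q) n) :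
    E = Kur (⊥ : LF q) p := by
  have hp : p.Prime := Fact.out
  have hT : LFTeich := h34lf_lfTeich
  have hD : NIDich := h74n_nidich_of h34lf_lfUnif hT (h39lf_imm_of h34lf_lfUnif hT)
    (h36_urFrob hT) (h66v_urCyc hT)
  rcases hD q p ⊥ E τ hτ with h | ⟨-, ϖ, hϖE, π, hπ, hϖ, hpow⟩
  · exact h
  · exfalso
    obtain ⟨-, hval, -⟩ := h66v_urVal hT q ⊥ n hn
    obtain ⟨y, hy, hxy⟩ := hval ϖ (hle hϖE)
    have hϖ0 : 0 < ‖ϖ‖ := norm_pos_iff.mpr hϖ.2.1
    have hϖ1 : ‖ϖ‖ < 1 := hϖ.2.2.1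
    have h1 : ‖y‖ ≤ ‖π‖ := hπ.2.2.2 y hy (hxy ▸ hϖ1)
    rw [← hxy, ← hpow] at h1
    have h2 : ‖ϖ‖ ^ p < ‖ϖ‖ := pow_lt_self_of_lt_one₀ hϖ0 hϖ1 hp.one_lt
    exact absurd h1 (not_le.mpr h2)

/-- The local computation: the carry cocycle of `B ∈ ℚˣ` along any generator `τ` of the
unramified extension of degree `p` is `Yq ^ (v_q(B) · idx_τ(Frob_q))`. -/
theorem h82r_local {q p : ℕ} [Fact q.Prime] [Fact p.Prime] (τ : Gq q)
    (hτ : IsCyc (⊥ : LF q) (Kur (⊥ : LF q) p) p τ) (B : ℚ) (hB : B ≠ 0) (b' : (Om q)ˣ)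
    (hb' : (b' : Om q) = ((B : ℚ) : Om q)) :
    MCohom (⊥ : LF q) (carry (Kur (⊥ : LF q) p) τ p b')
      (fun y => Yq p q y ^
        ((padicValRat q B : ZMod p) * (cycIdx (Kur (⊥ : LF q) p) τ p (frobQ q) : ZMod p)).val) := by
  have hp : p.Prime := Fact.out
  have hT : LFTeich := h34lf_lfTeich
  have hφ : IsCyc (⊥ : LF q) (Kur (⊥ : LF q) p) p (frobQ q) :=
    h66v_urCyc hT q ⊥ p (frobQ q) hp.pos (h96c_isFrob_frobQ q)
  have hmem : (b' : Om q) ∈ (⊥ : LF q) := by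
    rw [hb']
    have : ((B : ℚ) : Om q) = algebraMap ℚ_[q] (Om q) ((B : ℚ) : ℚ_[q]) := by
      rw [map_ratCast]
    rw [this]
    exact IntermediateField.algebraMap_mem _ _
  set j := cycIdx (Kur (⊥ : LF q) p) τ p (frobQ q) with hj
  have h1 : MCohom (⊥ : LF q) (carry (Kur (⊥ : LF q) p) τ p b')
      (fun y => carry (Kur (⊥ : LF q) p) (frobQ q) p b' y ^ j) :=
    h83g_recGenChg q p ⊥ (Kur (⊥ : LF q) p) τ (frobQ q) b' hτ hφ hmem
  have h2 : (fun y => carry (Kur (⊥ : LF q) p) (frobQ q) p b' y ^ j)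
      = carry (Kur (⊥ : LF q) p) (frobQ q) p (b' ^ j) := by
    funext y
    rw [h76m_carry_pow]
  have hBj : B ^ j ≠ 0 := pow_ne_zero _ hB
  have hbj : ((b' ^ j : (Om q)ˣ) : Om q) = (((B ^ j : ℚ)) : Om q) := by
    rw [Units.val_pow_eq_pow_val, hb']
    push_cast
    rfl
  have h3 := h96c_recLocVal q p (B ^ j) (b' ^ j) hBj hbj
  have h4 : ((padicValRat q (B ^ j) : ℤ) : ZMod p)
      = (padicValRat q B : ZMod p) * (j : ZMod p) := by
    rw [padicValRat.pow B]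
    push_cast
    ring
  rw [h4] at h3
  rw [h2] at h1
  exact h76m_trans h1 h3

/-- **REC-LOCCARRY** (from `RecCyclo`). -/
theorem h82r_recLocCarry (hCyc : RecCyclo) : RecLocCarry := by
  intro p ℓ q _ _ _ hpl hql σ hσ B b hB hb
  have hp : p.Prime := Fact.out
  obtain ⟨hGU, hgen⟩ := hCyc p ℓ hpl
  have hcyc : GIsCyc ⊥ (recField ℓ p) p σ := hgen σ hσ
  have hbot := h82r_gLocField_bot q
  have hb' : ((gLocUnit q 1 b : (Om q)ˣ) : Om q) = ((B : ℚ) : Om q) := by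
    show padicEmbedding q ((1 : GQ) (b : Qb)) = _
    rw [hb]
    show padicEmbedding q ((B : ℚ) : Qb) = _
    rw [map_ratCast]
  have hfrob : gConj q 1 (frobQ q) = recFrob q := h82r_gConj_one q _
  rcases h82c_gLocCyc p ⊥ (recField ℓ p) σ hcyc q 1 with hA | ⟨τ, hτ, -, hidx⟩
  · -- the local field is trivial
    rw [hbot] at hA
    have hall : ∀ h : Gq q, gcycIdx (recField ℓ p) σ p (gConj q 1 h) = 0 := by
      intro h
      apply h49g_idx_of_mem hcyc
      rw [h82c_conj_mem_iff, hA]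
      exact h82r_mem_GK_bot _
    have hexp : recExp ℓ p σ B q = 0 := by
      unfold recExp
      rw [← hfrob, hall]
      simp
    rw [hexp]
    refine h76m_of_eq ⊥ (fun g _ h _ => ?_)
    show gLocUnit q 1 (gcarry (recField ℓ p) σ p b (gConj q 1 g, gConj q 1 h)) = _
    unfold gcarry
    simp only [hall]
    rw [if_neg (by have := hp.pos; omega)]
    simp
  · -- the local field is cyclic of degree `p`
    rw [hbot] at hτ hidx
    have hE : gLocField q 1 (recField ℓ p) = Kur (⊥ : LF q) p :=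
      h82r_eq_Kur _ τ hτ (ℓ - 1)
        (Nat.sub_pos_of_lt (Fact.out : ℓ.Prime).one_lt) (h82r_locField_le hql hGU)
    rw [hE] at hτ hidx
    have hallmem : ∀ h : Gq q, h ∈ GK (⊥ : LF q) := fun h => h82r_mem_GK_bot h
    have h1 : gLocM2 q 1 (gcarry (recField ℓ p) σ p b)
        = carry (Kur (⊥ : LF q) p) τ p (gLocUnit q 1 b) := by
      funext y
      show gLocUnit q 1 (gcarry (recField ℓ p) σ p b (gConj q 1 y.1, gConj q 1 y.2)) = _
      unfold gcarry carry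
      simp only
      rw [← hidx y.1 (hallmem _), ← hidx y.2 (hallmem _)]
      split_ifs
      · rfl
      · exact map_one _
    have hexp : recExp ℓ p σ B q
        = (padicValRat q B : ZMod p)
          * (cycIdx (Kur (⊥ : LF q) p) τ p (frobQ q) : ZMod p) := by
      unfold recExp
      rw [← hfrob, ← hidx _ (hallmem _)]
    rw [h1, hexp]
    exact h82r_local τ hτ B hB _ hb'

end Fermat.Agent.PT.Glob
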